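import Mathlib
import Fermat.Prelude.Def_FLTPrelim_GaloisRep

/-! Module D of the S51 plan: Galois descent facts and the structure of lines. -/

set_option autoImplicit false

open WeierstrassCurve WeierstrassCurve.Affine WeierstrassCurve.Affine.Point

namespace Fermat.Agent.S51.Asm

theorem isAlgClosure_rat_algebraicClosure : IsAlgClosure ℚ (AlgebraicClosure ℚ) := by
  have e : (DivisionRing.toRatAlgebra : Algebra ℚ (AlgebraicClosure ℚ)) =
      AlgebraicClosure.instAlgebra ℚ := Subsingleton.elim _ _
  convert (inferInstance :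
    @IsAlgClosure ℚ (AlgebraicClosure ℚ) _ _ (AlgebraicClosure.instAlgebra ℚ) _)

theorem isGalois_rat_algebraicClosure : IsGalois ℚ (AlgebraicClosure ℚ) := by
  have := isAlgClosure_rat_algebraicClosure
  infer_instance

/-- An element of `ℚ̄` fixed by the whole Galois group is rational. -/
theorem exists_rat_of_fixed (x : AlgebraicClosure ℚ)
    (h : ∀ σ : AlgebraicClosure ℚ ≃ₐ[ℚ] AlgebraicClosure ℚ, σ x = x) :
    ∃ r : ℚ, algebraMap ℚ (AlgebraicClosure ℚ) r = x := by
  have := isGalois_rat_algebraicClosure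
  exact (InfiniteGalois.mem_range_algebraMap_iff_fixed x).mpr h

section Line

variable {p : ℕ} [Fact p.Prime] {M : Type*} [AddCommGroup M] [Module (ZMod p) M]

/-- In a `ZMod p`-module with at most `p ^ 2` elements a proper nonzero submodule is a line. -/
theorem exists_nsmul_of_mem_line [Finite M] (hcard : Nat.card M ≤ p ^ 2)
    (N : Submodule (ZMod p) M) (htop : N ≠ ⊤) {P : M} (hP : P ∈ N) (hP0 : P ≠ 0)
    {Q : M} (hQ : Q ∈ N) : ∃ k : ℕ, k < p ∧ Q = k • P := by
  have hp : p.Prime := Fact.out
  have hfin : Module.Finite (ZMod p) M := Module.Finite.of_finite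
  have h1 : Nat.card M = p ^ Module.finrank (ZMod p) M := by
    have := Module.natCard_eq_pow_finrank (K := ZMod p) (V := M)
    rwa [Nat.card_zmod] at this
  have h2 : Module.finrank (ZMod p) M ≤ 2 := by
    rw [h1] at hcard
    exact (Nat.pow_le_pow_iff_right hp.one_lt).mp hcard
  have h3 : Module.finrank (ZMod p) N < Module.finrank (ZMod p) M :=
    Submodule.finrank_lt htop
  have h4 : Module.finrank (ZMod p) N = 1 := by
    have h5 : 0 < Module.finrank (ZMod p) N := by
      rw [Module.finrank_pos_iff_exists_ne_zero]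
      exact ⟨⟨P, hP⟩, fun h => hP0 (congrArg Subtype.val h)⟩
    omega
  have h6 := (finrank_eq_one_iff_of_nonzero' (⟨P, hP⟩ : N)
    (fun h => hP0 (congrArg Subtype.val h))).mp h4 ⟨Q, hQ⟩
  obtain ⟨c, hc⟩ := h6
  refine ⟨c.val, ZMod.val_lt c, ?_⟩
  have h7 : c • P = Q := congrArg Subtype.val hc
  rw [← h7, ← Nat.cast_smul_eq_nsmul (ZMod p), ZMod.natCast_zmod_val]

end Line

section XCoord

variable {F : Type*} [Field F]

/-- The `x`-coordinate of a point (junk value `0` at the origin). -/
def xc {V : Affine F} : V.Point → F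
  | .zero => 0
  | .some x _ _ => x

@[simp] theorem xc_some {V : Affine F} {x y : F} (h : V.Nonsingular x y) :
    xc (Point.some x y h) = x := rfl

@[simp] theorem xc_neg {V : Affine F} (P : V.Point) : xc (-P) = xc P := by
  cases P <;> rfl

end XCoord

section GaloisAction

variable {E : Affine ℚ}

theorem xc_smul (σ : AlgebraicClosure ℚ ≃ₐ[ℚ] AlgebraicClosure ℚ)
    (P : (E⁄(AlgebraicClosure ℚ)).Point) : xc (σ • P) = σ (xc P) := by
  cases P with
  | zero => exact (map_zero σ).symm
  | some x y h => rfl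

theorem smul_eq_zero_iff' (σ : AlgebraicClosure ℚ ≃ₐ[ℚ] AlgebraicClosure ℚ)
    (P : (E⁄(AlgebraicClosure ℚ)).Point) : σ • P = 0 ↔ P = 0 := by
  cases P with
  | zero => exact ⟨fun _ => rfl, fun _ => rfl⟩
  | some x y h =>
    constructor
    · intro h'
      exact absurd h' (Point.some_ne_zero _)
    · intro h'
      exact absurd h' (Point.some_ne_zero _)

end GaloisAction

end Fermat.Agent.S51.Asm
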