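import Mathlib
import Fermat.Prelude.Def_FLTPrelim_GaloisRep
import Fermat.Prelude.Def_FLTPrelim_Modularity
import Fermat.Prelude.Def_FLTPrelim_ModularRep
import Fermat.Agent.S51.Galois

/-! Final assembly of S51 from the interfaces of the modules A/E (arithmetic endgame),
B (field algebra), C (torsion points). -/

set_option autoImplicit false

open WeierstrassCurve WeierstrassCurve.Affine WeierstrassCurve.Affine.Point

namespace Fermat.Agent.S51.Asm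

/-- Interface of the 3-torsion module. -/
structure ThreeTorsionFacts {F : Type*} [Field F] [DecidableEq F] (V : Affine F) : Prop where
  exists_ne : ∃ P : V.Point, P ≠ 0 ∧ 3 • P = 0
  card_le : Finite (Submodule.torsionBy ℤ V.Point ((3 : ℕ) : ℤ)) ∧
    Nat.card (Submodule.torsionBy ℤ V.Point ((3 : ℕ) : ℤ)) ≤ 9
  psi3 : ∀ (x y : F) (h : V.Nonsingular x y), 3 • (Point.some x y h) = 0 →
    3 * x ^ 4 + V.b₂ * x ^ 3 + 3 * V.b₄ * x ^ 2 + 3 * V.b₆ * x + V.b₈ = 0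

/-- Interface of the 5-torsion module. -/
structure FiveTorsionFacts {F : Type*} [Field F] [DecidableEq F] (V : Affine F) : Prop where
  exists_ne : ∃ P : V.Point, P ≠ 0 ∧ 5 • P = 0
  card_le : Finite (Submodule.torsionBy ℤ V.Point ((5 : ℕ) : ℤ)) ∧
    Nat.card (Submodule.torsionBy ℤ V.Point ((5 : ℕ) : ℤ)) ≤ 25
  data : ∀ P : V.Point, P ≠ 0 → 5 • P = 0 →
    ∃ (x1 y1 x2 y2 : F) (h1 : V.Nonsingular x1 y1) (h2 : V.Nonsingular x2 y2),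
      P = Point.some x1 y1 h1 ∧ 2 • P = Point.some x2 y2 h2 ∧
      (x2 - x1) * (4 * x1 ^ 3 + V.b₂ * x1 ^ 2 + 2 * V.b₄ * x1 + V.b₆) =
        -(3 * x1 ^ 4 + V.b₂ * x1 ^ 3 + 3 * V.b₄ * x1 ^ 2 + 3 * V.b₆ * x1 + V.b₈) ∧
      (x1 - x2) * (4 * x2 ^ 3 + V.b₂ * x2 ^ 2 + 2 * V.b₄ * x2 + V.b₆) =
        -(3 * x2 ^ 4 + V.b₂ * x2 ^ 3 + 3 * V.b₄ * x2 ^ 2 + 3 * V.b₆ * x2 + V.b₈) ∧
      x1 ≠ x2 ∧
      4 * x1 ^ 3 + V.b₂ * x1 ^ 2 + 2 * V.b₄ * x1 + V.b₆ ≠ 0 ∧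
      4 * x2 ^ 3 + V.b₂ * x2 ^ 2 + 2 * V.b₄ * x2 + V.b₆ ≠ 0

/-- Interface of module B (field algebra). -/
def ModuleBStatement (K : Type*) [Field K] : Prop :=
  ∀ (b2 b4 b6 b8 c4 Δ x0 x1 x2 : K), 4 * b8 = b2 * b6 - b4 ^ 2 → c4 = b2 ^ 2 - 24 * b4 →
    Δ = -b2 ^ 2 * b8 - 8 * b4 ^ 3 - 27 * b6 ^ 2 + 9 * b2 * b4 * b6 →
    3 * x0 ^ 4 + b2 * x0 ^ 3 + 3 * b4 * x0 ^ 2 + 3 * b6 * x0 + b8 = 0 →
    (x2 - x1) * (4 * x1 ^ 3 + b2 * x1 ^ 2 + 2 * b4 * x1 + b6) =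
        -(3 * x1 ^ 4 + b2 * x1 ^ 3 + 3 * b4 * x1 ^ 2 + 3 * b6 * x1 + b8) →
    (x1 - x2) * (4 * x2 ^ 3 + b2 * x2 ^ 2 + 2 * b4 * x2 + b6) =
        -(3 * x2 ^ 4 + b2 * x2 ^ 3 + 3 * b4 * x2 ^ 2 + 3 * b6 * x2 + b8) →
    x1 ≠ x2 → 4 * x1 ^ 3 + b2 * x1 ^ 2 + 2 * b4 * x1 + b6 ≠ 0 →
    4 * x2 ^ 3 + b2 * x2 ^ 2 + 2 * b4 * x2 + b6 ≠ 0 →
    ∀ (d t r p ζ Z q D : K), d = x2 - x1 → t = d ^ 3 / (4 * x1 ^ 3 + b2 * x1 ^ 2 + 2 * b4 * x1 + b6) →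
      r = t - 1 / t → p = t + 1 / t → ζ = (2 * x0 - x1 - x2) / (2 * d) → Z = ζ ^ 2 → q = ζ * p →
      D = d ^ 2 →
      (4 * x1 ^ 3 + b2 * x1 ^ 2 + 2 * b4 * x1 + b6) * (4 * x2 ^ 3 + b2 * x2 ^ 2 + 2 * b4 * x2 + b6)
        = d ^ 6 ∧
      c4 = D * (r ^ 2 - 12 * r + 16) ∧ Δ = D ^ 3 * (r - 11) ∧
      (1 + 12 * Z) * r + (6 + 8 * Z) * q + 3 / 2 * (1 - 4 * Z) ^ 2 = 0 ∧ q ^ 2 = Z * (r ^ 2 + 4)

/-- Interface of modules A + E (arithmetic endgame). -/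
def EndgameStatement : Prop :=
  ∀ (c4 Δ : ℤ), Δ ≠ 0 → ((5 : ℤ) ∣ Δ → ¬ (5 : ℤ) ∣ c4) → ∀ (D r q Z : ℚ),
    (c4 : ℚ) = D * (r ^ 2 - 12 * r + 16) → (Δ : ℚ) = D ^ 3 * (r - 11) →
    (1 + 12 * Z) * r + (6 + 8 * Z) * q + 3 / 2 * (1 - 4 * Z) ^ 2 = 0 → q ^ 2 = Z * (r ^ 2 + 4) →
    False

local notation "Qb" => AlgebraicClosure ℚ

section

variable {E : Affine ℚ}

theorem coe_smul_torsion {n : ℕ} (σ : Qb ≃ₐ[ℚ] Qb)
    (P : Submodule.torsionBy ℤ (E⁄Qb).Point n) :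
    ((σ • P : Submodule.torsionBy ℤ (E⁄Qb).Point n) : (E⁄Qb).Point) = σ • (P : (E⁄Qb).Point) := rfl

theorem nsmul_eq_zero_of_torsion {n : ℕ} (P : Submodule.torsionBy ℤ (E⁄Qb).Point n) :
    n • (P : (E⁄Qb).Point) = 0 := by
  have := P.2
  rw [Submodule.mem_torsionBy_iff] at this
  rwa [natCast_zsmul] at this

theorem nontrivial_torsion {n : ℕ} (h : ∃ P : (E⁄Qb).Point, P ≠ 0 ∧ n • P = 0) :
    Nontrivial (Submodule.torsionBy ℤ (E⁄Qb).Point n) := by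
  obtain ⟨P, hP0, hP⟩ := h
  refine ⟨⟨⟨P, ?_⟩, 0, ?_⟩⟩
  · rw [Submodule.mem_torsionBy_iff, natCast_zsmul]; exact hP
  · intro h
    exact hP0 (congrArg Subtype.val h)

/-- If the mod `p` representation is reducible (and the torsion is as expected) there is a nonzero
`p`-torsion point `P` such that every Galois conjugate of `P` is a multiple `k • P`, `0 < k < p`. -/
theorem exists_point_of_reducible {p : ℕ} [Fact p.Prime]
    (hne : ∃ P : (E⁄Qb).Point, P ≠ 0 ∧ p • P = 0)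
    (hcard : Finite (Submodule.torsionBy ℤ (E⁄Qb).Point (p : ℤ)) ∧
      Nat.card (Submodule.torsionBy ℤ (E⁄Qb).Point (p : ℤ)) ≤ p ^ 2)
    (hred : ¬ GaloisRepIsIrreducible (K := Qb) ℚ E p) :
    ∃ P : (E⁄Qb).Point, P ≠ 0 ∧ p • P = 0 ∧
      ∀ σ : Qb ≃ₐ[ℚ] Qb, ∃ k : ℕ, 0 < k ∧ k < p ∧ σ • P = k • P := by
  obtain ⟨hF, hC⟩ := hcard
  have hnt := nontrivial_torsion hne
  unfold GaloisRepIsIrreducible at hred
  push Not at hred
  obtain ⟨N, hst, hbot, htop⟩ := hred hnt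
  obtain ⟨P, hPN, hP0⟩ := (Submodule.ne_bot_iff N).mp hbot
  refine ⟨P, fun h => hP0 (Subtype.ext h), nsmul_eq_zero_of_torsion P, fun σ => ?_⟩
  obtain ⟨k, hk, hkP⟩ := exists_nsmul_of_mem_line hC N htop hPN hP0 (hst σ P hPN)
  have hkP' : σ • (P : (E⁄Qb).Point) = k • (P : (E⁄Qb).Point) := by
    have := congrArg Subtype.val hkP
    rw [coe_smul_torsion] at this
    rw [this]
    simp
  refine ⟨k, ?_, hk, hkP'⟩
  rcases Nat.eq_zero_or_pos k with rfl | h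
  · exfalso
    rw [zero_smul] at hkP'
    exact hP0 (Subtype.ext ((smul_eq_zero_iff' σ _).mp hkP'))
  · exact h

/-- `x`-coordinate of a stable 3-torsion point is Galois-fixed. -/
theorem xc_fixed_three {P : (E⁄Qb).Point} (h3 : 3 • P = 0) (σ : Qb ≃ₐ[ℚ] Qb)
    (h : ∃ k : ℕ, 0 < k ∧ k < 3 ∧ σ • P = k • P) : σ (xc P) = xc P := by
  obtain ⟨k, hk0, hk3, hk⟩ := h
  rw [← xc_smul, hk]
  interval_cases k
  · rw [one_smul]
  · have : 2 • P = -P := by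
      rw [eq_neg_iff_add_eq_zero, ← h3]
      rw [show (3 : ℕ) = 2 + 1 from rfl, add_smul, one_smul]
    rw [this, xc_neg]

theorem smul_nsmul_point (σ : Qb ≃ₐ[ℚ] Qb) (n : ℕ) (P : (E⁄Qb).Point) :
    σ • (n • P) = n • (σ • P) :=
  map_nsmul (Point.map (W' := E) σ.toAlgHom) n P

/-- `x`-coordinates of `P`, `2P` for a stable 5-torsion point are fixed or swapped. -/
theorem xc_fixed_five {P : (E⁄Qb).Point} (h5 : 5 • P = 0) (σ : Qb ≃ₐ[ℚ] Qb)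
    (h : ∃ k : ℕ, 0 < k ∧ k < 5 ∧ σ • P = k • P) :
    (σ (xc P) = xc P ∧ σ (xc (2 • P)) = xc (2 • P)) ∨
      (σ (xc P) = xc (2 • P) ∧ σ (xc (2 • P)) = xc P) := by
  obtain ⟨k, hk0, hk5, hk⟩ := h
  rw [← xc_smul, ← xc_smul, smul_nsmul_point, hk]
  have e3 : (3 : ℕ) • P = -((2 : ℕ) • P) := by
    rw [eq_neg_iff_add_eq_zero, ← add_smul]; exact h5
  have e4 : (4 : ℕ) • P = -P := by
    rw [eq_neg_iff_add_eq_zero, ← h5]
    rw [show (5 : ℕ) = 4 + 1 from rfl, add_smul, one_smul]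
  have e6 : (2 : ℕ) • (3 : ℕ) • P = P := by
    rw [← mul_smul, show (2 * 3 : ℕ) = 5 + 1 from rfl, add_smul, h5, zero_add, one_smul]
  have e8 : (2 : ℕ) • (4 : ℕ) • P = -((2 : ℕ) • P) := by
    rw [← mul_smul, show (2 * 4 : ℕ) = 5 + 3 from rfl, add_smul, h5, zero_add, e3]
  have e22 : (2 : ℕ) • (2 : ℕ) • P = -P := by
    rw [← mul_smul, show (2 * 2 : ℕ) = 4 from rfl, e4]
  interval_cases k
  · left; rw [one_smul]; exact ⟨rfl, rfl⟩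
  · right; rw [e22, xc_neg]; exact ⟨rfl, rfl⟩
  · right; rw [e6, e3, xc_neg]; exact ⟨rfl, rfl⟩
  · left; rw [e8, e4, xc_neg, xc_neg]; exact ⟨rfl, rfl⟩

end

section Invariants

variable {L : Type*} [Field L]

/-- The quantities `D, r, q, Z` are invariant under a field automorphism fixing the coefficients
and `x0` and fixing or swapping `x1, x2`. -/
theorem invariants_fixed (σ : L →+* L) (b2 b4 b6 x0 x1 x2 : L)
    (hb2 : σ b2 = b2) (hb4 : σ b4 = b4) (hb6 : σ b6 = b6) (h0 : σ x0 = x0)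
    (h12 : (σ x1 = x1 ∧ σ x2 = x2) ∨ (σ x1 = x2 ∧ σ x2 = x1)) (hne : x1 ≠ x2)
    (hf1 : 4 * x1 ^ 3 + b2 * x1 ^ 2 + 2 * b4 * x1 + b6 ≠ 0)
    (hf2 : 4 * x2 ^ 3 + b2 * x2 ^ 2 + 2 * b4 * x2 + b6 ≠ 0)
    (hprod : (4 * x1 ^ 3 + b2 * x1 ^ 2 + 2 * b4 * x1 + b6) *
      (4 * x2 ^ 3 + b2 * x2 ^ 2 + 2 * b4 * x2 + b6) = (x2 - x1) ^ 6)
    (d t r p ζ Z q D : L) (hd : d = x2 - x1)
    (ht : t = d ^ 3 / (4 * x1 ^ 3 + b2 * x1 ^ 2 + 2 * b4 * x1 + b6))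
    (hr : r = t - 1 / t) (hp : p = t + 1 / t) (hζ : ζ = (2 * x0 - x1 - x2) / (2 * d))
    (hZ : Z = ζ ^ 2) (hq : q = ζ * p) (hD : D = d ^ 2) :
    σ D = D ∧ σ r = r ∧ σ q = q ∧ σ Z = Z := by
  have hd0 : d ≠ 0 := by rw [hd]; exact sub_ne_zero.mpr hne.symm
  have ht0 : t ≠ 0 := by rw [ht]; exact div_ne_zero (pow_ne_zero 3 hd0) hf1
  rcases h12 with ⟨h1, h2⟩ | ⟨h1, h2⟩
  · have sd : σ d = d := by rw [hd, map_sub, h1, h2]
    have st : σ t = t := by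
      rw [ht]
      simp only [map_div₀, map_pow, map_add, map_mul, map_ofNat, sd, h1, hb2, hb4, hb6]
    have sζ : σ ζ = ζ := by
      rw [hζ]
      simp only [map_div₀, map_sub, map_mul, map_ofNat, sd, h0, h1, h2]
    have sp : σ p = p := by
      rw [hp]; simp only [map_add, map_div₀, map_one, st]
    refine ⟨?_, ?_, ?_, ?_⟩
    · rw [hD, map_pow, sd]
    · rw [hr]; simp only [map_sub, map_div₀, map_one, st]
    · rw [hq, map_mul, sζ, sp]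
    · rw [hZ, map_pow, sζ]
  · have sd : σ d = -d := by rw [hd, map_sub, h1, h2]; ring
    have st : σ t = -(1 / t) := by
      rw [ht]
      simp only [map_div₀, map_pow, map_add, map_mul, map_ofNat, sd, h1, hb2, hb4, hb6]
      rw [← hd] at hprod
      generalize 4 * x1 ^ 3 + b2 * x1 ^ 2 + 2 * b4 * x1 + b6 = F1 at hprod hf1 ⊢
      generalize 4 * x2 ^ 3 + b2 * x2 ^ 2 + 2 * b4 * x2 + b6 = F2 at hprod hf2 ⊢
      field_simp
      linear_combination hprod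
    have sζ : σ ζ = -ζ := by
      rw [hζ]
      simp only [map_div₀, map_sub, map_mul, map_ofNat, sd, h0, h1, h2]
      field_simp
      ring
    have sp : σ p = -p := by
      rw [hp]; simp only [map_add, map_div₀, map_one, st]
      field_simp
      ring
    refine ⟨?_, ?_, ?_, ?_⟩
    · rw [hD, map_pow, sd]; ring
    · rw [hr]; simp only [map_sub, map_div₀, map_one, st]
      field_simp
      ring
    · rw [hq, map_mul, sζ, sp]; ring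
    · rw [hZ, map_pow, sζ]; ring

end Invariants

/-- S51 from the interfaces of the modules. -/
theorem main (hB : ModuleBStatement Qb) (hEnd : EndgameStatement)
    (W : WeierstrassCurve ℤ) (hΔ : W.Δ ≠ 0) (hW : W.IsSemistableModel)
    (h3 : ThreeTorsionFacts ((W.map (Int.castRingHom ℚ) : Affine ℚ)⁄Qb))
    (h5 : FiveTorsionFacts ((W.map (Int.castRingHom ℚ) : Affine ℚ)⁄Qb)) :
    W.ModRepIsIrreducible 3 ∨ W.ModRepIsIrreducible 5 := by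
  by_contra hcon
  push Not at hcon
  obtain ⟨n3, n5⟩ := hcon
  have : Fact (Nat.Prime 3) := ⟨by norm_num⟩
  have : Fact (Nat.Prime 5) := ⟨by norm_num⟩
  obtain ⟨P0, hP00, hP03, hP0σ⟩ := exists_point_of_reducible (p := 3) h3.exists_ne
    (by simpa using h3.card_le) n3
  obtain ⟨P1, hP10, hP15, hP1σ⟩ := exists_point_of_reducible (p := 5) h5.exists_ne
    (by simpa using h5.card_le) n5
  obtain ⟨x1, y1, x2, y2, hn1, hn2, e1, e2, H1, H2, hne, hf1, hf2⟩ := h5.data P1 hP10 hP15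
  have hx1 : xc P1 = x1 := by rw [e1]; rfl
  have hx2 : xc (2 • P1) = x2 := by rw [e2]; rfl
  obtain ⟨x0, y0, hn0, e0⟩ : ∃ (x0 y0 : Qb) (hn0 : _), P0 = Point.some x0 y0 hn0 := by
    cases P0 with
    | zero => exact absurd rfl hP00
    | some x y h => exact ⟨x, y, h, rfl⟩
  have hx0 : xc P0 = x0 := by rw [e0]; rfl
  have hpsi := h3.psi3 x0 y0 hn0 (e0 ▸ hP03)
  set V : WeierstrassCurve Qb := ((W.map (Int.castRingHom ℚ) : Affine ℚ)⁄Qb) with hV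
  -- the invariants
  obtain ⟨hprod, hc4, hDelta, hR2, hR3⟩ := hB V.b₂ V.b₄ V.b₆ V.b₈ V.c₄ V.Δ x0 x1 x2 V.b_relation rfl rfl
    hpsi H1 H2 hne hf1 hf2 _ _ _ _ _ _ _ _ rfl rfl rfl rfl rfl rfl rfl rfl
  have hfix : ∀ σ : Qb ≃ₐ[ℚ] Qb, _ := fun σ =>
    invariants_fixed (σ : Qb →+* Qb) V.b₂ V.b₄ V.b₆ x0 x1 x2
      (by rw [hV]; simp [WeierstrassCurve.baseChange])
      (by rw [hV]; simp [WeierstrassCurve.baseChange])
      (by rw [hV]; simp [WeierstrassCurve.baseChange])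
      (by have := xc_fixed_three hP03 σ (hP0σ σ); rwa [hx0] at this)
      (by have := xc_fixed_five hP15 σ (hP1σ σ); rwa [hx1, hx2] at this)
      hne hf1 hf2 hprod _ _ _ _ _ _ _ _ rfl rfl rfl rfl rfl rfl rfl rfl
  obtain ⟨D, hD⟩ := exists_rat_of_fixed _ (fun σ => (hfix σ).1)
  obtain ⟨r, hr⟩ := exists_rat_of_fixed _ (fun σ => (hfix σ).2.1)
  obtain ⟨q, hq⟩ := exists_rat_of_fixed _ (fun σ => (hfix σ).2.2.1)
  obtain ⟨Z, hZ⟩ := exists_rat_of_fixed _ (fun σ => (hfix σ).2.2.2)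
  rw [← hD, ← hr] at hc4 hDelta
  rw [← hr, ← hq, ← hZ] at hR2 hR3
  have hinj : Function.Injective (algebraMap ℚ Qb) := (algebraMap ℚ Qb).injective
  have hVc4 : V.c₄ = algebraMap ℚ Qb ((W.c₄ : ℤ) : ℚ) := by
    rw [hV]; simp [WeierstrassCurve.baseChange]
  have hVΔ : V.Δ = algebraMap ℚ Qb ((W.Δ : ℤ) : ℚ) := by
    rw [hV]; simp [WeierstrassCurve.baseChange]
  refine hEnd W.c₄ W.Δ hΔ (hW 5 (by norm_num)) D r q Z ?_ ?_ ?_ ?_
  · apply hinj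
    rw [← hVc4, hc4]
    simp only [map_mul, map_add, map_sub, map_pow, map_ofNat]
  · apply hinj
    rw [← hVΔ, hDelta]
    simp only [map_mul, map_add, map_sub, map_pow, map_ofNat]
  · apply hinj
    rw [_root_.map_zero, ← hR2]
    simp only [map_mul, map_add, map_sub, map_pow, map_ofNat, map_one, map_div₀]
  · apply hinj
    simp only [map_mul, map_add, map_sub, map_pow, map_ofNat]
    exact hR3

end Fermat.Agent.S51.Asm
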