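import Mathlib

set_option autoImplicit false

namespace Fermat.Agent.S51.Descent45

/-- `Sol n`: there are integers with `a² = b² + n²` and `a² = c² + 81 n²`. -/
def Sol (n : ℤ) : Prop := ∃ a b c : ℤ, a ^ 2 = b ^ 2 + n ^ 2 ∧ a ^ 2 = c ^ 2 + 81 * n ^ 2

theorem sq_parity (x : ℤ) : (x % 2 = 0 ∧ x ^ 2 % 4 = 0) ∨ (x % 2 = 1 ∧ x ^ 2 % 8 = 1) := by
  rcases Int.even_or_odd' x with ⟨m, rfl | rfl⟩
  · left
    refine ⟨by omega, ?_⟩
    have : (2 * m) ^ 2 = 4 * m ^ 2 := by ring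
    omega
  · right
    refine ⟨by omega, ?_⟩
    have h : (2 * m + 1) ^ 2 = 4 * (m * (m + 1)) + 1 := by ring
    have h2 : (m * (m + 1)) % 2 = 0 := Int.even_iff.mp (Int.even_mul_succ_self m)
    omega

theorem not_both_even {x y : ℤ} (h : IsCoprime x y) : ¬ (x % 2 = 0 ∧ y % 2 = 0) := by
  rintro ⟨hx, hy⟩
  have h2 : (2 : ℤ) ∣ 1 := by
    obtain ⟨u, v, huv⟩ := h
    rw [← huv]
    exact dvd_add (Dvd.dvd.mul_left (Int.dvd_of_emod_eq_zero hx) u)
      (Dvd.dvd.mul_left (Int.dvd_of_emod_eq_zero hy) v)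
  omega

theorem dvd_eighty {k : ℤ} (hk : k ∣ 80) :
    k = 1 ∨ k = -1 ∨ k = 2 ∨ k = -2 ∨ k = 4 ∨ k = -4 ∨ k = 5 ∨ k = -5 ∨ k = 8 ∨ k = -8 ∨
      k = 10 ∨ k = -10 ∨ k = 16 ∨ k = -16 ∨ k = 20 ∨ k = -20 ∨ k = 40 ∨ k = -40 ∨
      k = 80 ∨ k = -80 := by
  have hk' : k.natAbs ∈ Nat.divisors 80 := by
    rw [Nat.mem_divisors]
    exact ⟨by simpa using Int.natAbs_dvd_natAbs.mpr hk, by norm_num⟩
  have hdiv : Nat.divisors 80 = {1, 2, 4, 5, 8, 10, 16, 20, 40, 80} := by decide +kernel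
  rw [hdiv] at hk'
  simp only [Finset.mem_insert, Finset.mem_singleton] at hk'
  omega

theorem key_cases (α β γ δ k : ℤ) (e1 : γ ^ 2 - β ^ 2 = k * α ^ 2)
    (e2 : γ ^ 2 - 81 * β ^ 2 = k * δ ^ 2) (hk : k ∣ 80)
    (hαδ : IsCoprime α δ) (hβγ : IsCoprime β γ) : Sol α ∨ Sol β ∨ Sol γ ∨ Sol δ := by
  have p1 := sq_parity α
  have p2 := sq_parity β
  have p3 := sq_parity γ
  have p4 := sq_parity δ
  have q1 := not_both_even hαδ
  have q2 := not_both_even hβγ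
  rcases dvd_eighty hk with rfl | rfl | rfl | rfl | rfl | rfl | rfl | rfl | rfl | rfl | rfl | rfl |
    rfl | rfl | rfl | rfl | rfl | rfl | rfl | rfl
  · -- k = 1
    exact Or.inr (Or.inl ⟨γ, α, δ, by linarith, by linarith⟩)
  · -- k = -1
    exact Or.inr (Or.inr (Or.inl ⟨9 * β, δ, 9 * α, by nlinarith, by nlinarith⟩))
  · exfalso; omega
  · exfalso; omega
  · -- k = 4
    exact Or.inr (Or.inl ⟨γ, 2 * α, 2 * δ, by linarith, by linarith⟩)
  · -- k = -4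
    exact Or.inr (Or.inr (Or.inl ⟨9 * β, 2 * δ, 18 * α, by nlinarith, by nlinarith⟩))
  · -- k = 5
    exact Or.inr (Or.inr (Or.inr ⟨9 * α, 4 * γ, 36 * β, by nlinarith, by nlinarith⟩))
  · -- k = -5
    exact Or.inl ⟨δ, 4 * β, 4 * γ, by nlinarith, by nlinarith⟩
  · exfalso; omega
  · exfalso; omega
  · exfalso; omega
  · exfalso; omega
  · -- k = 16
    exact Or.inr (Or.inl ⟨γ, 4 * α, 4 * δ, by linarith, by linarith⟩)
  · -- k = -16
    exact Or.inr (Or.inr (Or.inl ⟨9 * β, 4 * δ, 36 * α, by nlinarith, by nlinarith⟩))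
  · -- k = 20
    exact Or.inr (Or.inr (Or.inr ⟨9 * α, 2 * γ, 18 * β, by nlinarith, by nlinarith⟩))
  · -- k = -20
    exact Or.inl ⟨δ, 2 * β, 2 * γ, by nlinarith, by nlinarith⟩
  · exfalso; omega
  · exfalso; omega
  · -- k = 80
    exact Or.inr (Or.inr (Or.inr ⟨9 * α, γ, 9 * β, by nlinarith, by nlinarith⟩))
  · -- k = -80
    exact Or.inl ⟨δ, β, γ, by nlinarith, by nlinarith⟩


theorem two_le_abs_mul {x y : ℤ} (hx : x ≠ 0) (hy : y ≠ 0) (hne : x ^ 2 ≠ y ^ 2) :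
    2 ≤ |x| * |y| := by
  have h1 : 1 ≤ |x| := Int.one_le_abs hx
  have h2 : 1 ≤ |y| := Int.one_le_abs hy
  by_contra h
  rw [not_le] at h
  have h3 : |x| = 1 := by nlinarith
  have h4 : |y| = 1 := by nlinarith
  apply hne
  rw [← sq_abs x, ← sq_abs y, h3, h4]

theorem bound_aux {x y z : ℤ} (hx : 0 ≤ x) (hy : 2 ≤ y) (hz : 1 ≤ z) : 2 * x ≤ x * y * z := by
  have h1 : 0 ≤ x * y := by positivity
  nlinarith [mul_le_mul_of_nonneg_left hy hx, mul_le_mul_of_nonneg_left hz h1]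

theorem key_lemma9 (r s t1 u : ℤ) (hrs : r * s ≠ 0) (hco : IsCoprime (9 * t1) u)
    (hprod : t1 * u = r * s) (hsq : r ^ 2 + s ^ 2 = (9 * t1) ^ 2 + u ^ 2) :
    ∃ n' : ℤ, n' ≠ 0 ∧ 2 * |n'| ≤ |r * s| ∧ Sol n' := by
  have hr : r ≠ 0 := left_ne_zero_of_mul hrs
  have hs : s ≠ 0 := right_ne_zero_of_mul hrs
  obtain ⟨α, γ, ⟨β, hβ⟩, ⟨δ, hδ⟩, hrαγ⟩ :=
    exists_dvd_and_dvd_of_dvd_mul (show r ∣ t1 * u from ⟨s, hprod⟩)
  have hsβδ : s = β * δ := by
    have : r * s = r * (β * δ) := by rw [← hprod, hβ, hδ, hrαγ]; ring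
    exact mul_left_cancel₀ hr this
  subst hβ hδ hrαγ hsβδ
  have hα : α ≠ 0 := left_ne_zero_of_mul hr
  have hγ : γ ≠ 0 := right_ne_zero_of_mul hr
  have hβ : β ≠ 0 := left_ne_zero_of_mul hs
  have hδ : δ ≠ 0 := right_ne_zero_of_mul hs
  have hαδ : IsCoprime α δ :=
    (hco.of_isCoprime_of_dvd_left ⟨9 * β, by ring⟩).of_isCoprime_of_dvd_right ⟨γ, by ring⟩
  have hβγ : IsCoprime β γ :=
    (hco.of_isCoprime_of_dvd_left ⟨9 * α, by ring⟩).of_isCoprime_of_dvd_right ⟨δ, by ring⟩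
  have heq : α ^ 2 * (γ ^ 2 - 81 * β ^ 2) = δ ^ 2 * (γ ^ 2 - β ^ 2) := by
    linear_combination hsq
  obtain ⟨k, hk⟩ : α ^ 2 ∣ γ ^ 2 - β ^ 2 :=
    (hαδ.pow (m := 2) (n := 2)).dvd_of_dvd_mul_left ⟨_, heq.symm⟩
  have e1 : γ ^ 2 - β ^ 2 = k * α ^ 2 := by rw [hk]; ring
  have e2 : γ ^ 2 - 81 * β ^ 2 = k * δ ^ 2 := by
    have : α ^ 2 * (γ ^ 2 - 81 * β ^ 2) = α ^ 2 * (k * δ ^ 2) := by rw [heq, hk]; ring
    exact mul_left_cancel₀ (pow_ne_zero 2 hα) this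
  have hk80 : k ∣ 80 := by
    obtain ⟨x, y, hxy⟩ := hβγ.pow (m := 2) (n := 2)
    have h1 : k ∣ 80 * β ^ 2 := ⟨α ^ 2 - δ ^ 2, by linear_combination e1 - e2⟩
    have h2 : k ∣ 80 * γ ^ 2 := ⟨81 * α ^ 2 - δ ^ 2, by linear_combination 81 * e1 - e2⟩
    have : (80 : ℤ) = x * (80 * β ^ 2) + y * (80 * γ ^ 2) := by linear_combination (-80) * hxy
    rw [this]
    exact dvd_add (h1.mul_left x) (h2.mul_left y)
  have hβ2 : β ^ 2 ≠ 0 := pow_ne_zero 2 hβ
  have hk0 : k ≠ 0 := by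
    rintro rfl
    apply hβ2
    linarith
  have hne1 : α ^ 2 ≠ δ ^ 2 := by
    intro h
    apply hβ2
    have : 80 * β ^ 2 = k * (α ^ 2 - δ ^ 2) := by linear_combination e1 - e2
    rw [h, sub_self, mul_zero] at this
    linarith
  have hne2 : β ^ 2 ≠ γ ^ 2 := by
    intro h
    have : k * α ^ 2 = 0 := by rw [← e1, h, sub_self]
    exact (mul_ne_zero hk0 (pow_ne_zero 2 hα)) this
  have b1 := two_le_abs_mul hα hδ hne1
  have b2 := two_le_abs_mul hβ hγ hne2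
  have a1 : 1 ≤ |α| := Int.one_le_abs hα
  have a2 : 1 ≤ |β| := Int.one_le_abs hβ
  have a3 : 1 ≤ |γ| := Int.one_le_abs hγ
  have a4 : 1 ≤ |δ| := Int.one_le_abs hδ
  have habs : |α * γ * (β * δ)| = |α| * |γ| * (|β| * |δ|) := by simp only [abs_mul]
  rw [habs]
  rcases key_cases α β γ δ k e1 e2 hk80 hαδ hβγ with h | h | h | h
  · refine ⟨α, hα, ?_, h⟩
    calc 2 * |α| ≤ |α| * (|β| * |γ|) * |δ| := bound_aux (abs_nonneg _) b2 a4
      _ = _ := by ring
  · refine ⟨β, hβ, ?_, h⟩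
    calc 2 * |β| ≤ |β| * (|α| * |δ|) * |γ| := bound_aux (abs_nonneg _) b1 a3
      _ = _ := by ring
  · refine ⟨γ, hγ, ?_, h⟩
    calc 2 * |γ| ≤ |γ| * (|α| * |δ|) * |β| := bound_aux (abs_nonneg _) b1 a2
      _ = _ := by ring
  · refine ⟨δ, hδ, ?_, h⟩
    calc 2 * |δ| ≤ |δ| * (|β| * |γ|) * |α| := bound_aux (abs_nonneg _) b2 a1
      _ = _ := by ring

theorem key_lemma (r s t u : ℤ) (hrs : r * s ≠ 0) (hco : IsCoprime t u)
    (hprod : t * u = 9 * (r * s)) (hsq : r ^ 2 + s ^ 2 = t ^ 2 + u ^ 2) :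
    ∃ n' : ℤ, n' ≠ 0 ∧ 2 * |n'| ≤ |r * s| ∧ Sol n' := by
  have h3 : (3 : ℤ) ∣ t * u := ⟨3 * (r * s), by rw [hprod]; ring⟩
  have hp3 : Prime (3 : ℤ) := Int.prime_three
  have h9 : (9 : ℤ) ∣ t * u := ⟨r * s, hprod⟩
  rcases hp3.dvd_or_dvd h3 with h | h
  · -- 3 ∣ t, hence 9 coprime to u
    have hc3 : IsCoprime (3 : ℤ) u := hco.of_isCoprime_of_dvd_left h
    have hc9 : IsCoprime (9 : ℤ) u := by
      have := hc3.pow_left (m := 2); norm_num at this; exact this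
    obtain ⟨t1, rfl⟩ := hc9.dvd_of_dvd_mul_right h9
    exact key_lemma9 r s t1 u hrs hco (by linarith) hsq
  · have hc3 : IsCoprime (3 : ℤ) t := hco.symm.of_isCoprime_of_dvd_left h
    have hc9 : IsCoprime (9 : ℤ) t := by
      have := hc3.pow_left (m := 2); norm_num at this; exact this
    obtain ⟨u1, rfl⟩ := hc9.dvd_of_dvd_mul_left h9
    exact key_lemma9 r s u1 t hrs hco.symm (by linarith) (by linarith)


theorem sq_mod3 (x : ℤ) : (x % 3 = 0 ∧ x ^ 2 % 3 = 0) ∨ (x % 3 ≠ 0 ∧ x ^ 2 % 3 = 1) := by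
  obtain ⟨m, hm⟩ : ∃ m, x = 3 * m + x % 3 := ⟨x / 3, by omega⟩
  rcases (by omega : x % 3 = 0 ∨ x % 3 = 1 ∨ x % 3 = 2) with h | h | h
  · left
    refine ⟨h, ?_⟩
    rw [h] at hm
    have : x ^ 2 = 3 * (3 * m ^ 2) := by rw [hm]; ring
    omega
  · right
    refine ⟨by omega, ?_⟩
    rw [h] at hm
    have : x ^ 2 = 3 * (3 * m ^ 2 + 2 * m) + 1 := by rw [hm]; ring
    omega
  · right
    refine ⟨by omega, ?_⟩
    rw [h] at hm
    have : x ^ 2 = 3 * (3 * m ^ 2 + 4 * m + 1) + 1 := by rw [hm]; ring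
    omega

theorem isCoprime_of_sq_eq {a b n m : ℤ} (hco : IsCoprime a n) (h : a ^ 2 = b ^ 2 + n * m) :
    IsCoprime b n := by
  have h1 : IsCoprime (a ^ 2) n := hco.pow_left
  rw [h] at h1
  exact (IsCoprime.pow_left_iff (by norm_num : 0 < 2)).mp h1.of_add_mul_left_left

theorem isCoprime_add_sub {t u : ℤ} (h : IsCoprime t u)
    (hpar : t % 2 = 0 ∧ u % 2 = 1 ∨ t % 2 = 1 ∧ u % 2 = 0) : IsCoprime (t + u) (t - u) := by
  have h1 : IsCoprime (t + u) t := by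
    have := h.symm.add_mul_left_left 1
    rwa [mul_one, add_comm] at this
  have h2 : IsCoprime (t + u) 2 := by
    obtain ⟨m, hm⟩ : ∃ m, t + u = 2 * m + 1 := ⟨(t + u) / 2, by omega⟩
    exact ⟨1, -m, by rw [hm]; ring⟩
  have h3 : IsCoprime (t + u) (2 * t) := h2.mul_right h1
  have h4 := h3.add_mul_left_right (-1)
  have h5 : 2 * t + (t + u) * -1 = t - u := by ring
  rwa [h5] at h4

theorem step_pos (a b c n : ℤ) (ha : 0 < a) (hn : n ≠ 0) (hco : IsCoprime a n)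
    (h1 : a ^ 2 = b ^ 2 + n ^ 2) (h2 : a ^ 2 = c ^ 2 + 81 * n ^ 2) :
    ∃ n' : ℤ, n' ≠ 0 ∧ |n'| < |n| ∧ Sol n' := by
  have hbn : IsCoprime b n := isCoprime_of_sq_eq hco (m := n) (by rw [h1]; ring)
  have h3a : ¬ (3 : ℤ) ∣ a := by
    intro h3
    have m1 := sq_mod3 a
    have m2 := sq_mod3 b
    have m3 := sq_mod3 n
    have h3n : (3 : ℤ) ∣ n := by omega
    have : (3 : ℤ) ∣ 1 := by
      obtain ⟨x, y, hxy⟩ := hco
      rw [← hxy]
      exact dvd_add (h3.mul_left x) (h3n.mul_left y)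
    omega
  have hc3 : IsCoprime a 3 := (Int.prime_three.coprime_iff_not_dvd.mpr h3a).symm
  have hc9 : IsCoprime a 9 := by
    have := hc3.pow_right (n := 2); norm_num at this; exact this
  have hco9 : IsCoprime a (9 * n) := hc9.mul_right hco
  have hcn : IsCoprime c (9 * n) := isCoprime_of_sq_eq hco9 (m := 9 * n) (by rw [h2]; ring)
  have hnpos : 0 < |n| := abs_pos.mpr hn
  rcases (by omega : n % 2 = 0 ∨ n % 2 = 1) with hpar | hpar
  · -- n even
    have hb2 : b % 2 = 1 := by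
      have := not_both_even hbn
      omega
    have hc2 : c % 2 = 1 := by
      have := not_both_even hcn
      omega
    have P1 : PythagoreanTriple b n a := by
      unfold PythagoreanTriple; linarith
    have P2 : PythagoreanTriple c (9 * n) a := by
      unfold PythagoreanTriple; linarith
    obtain ⟨r, s, -, hn1, ha1, -, -, -⟩ :=
      P1.coprime_classification' (Int.isCoprime_iff_gcd_eq_one.mp hbn) hb2 ha
    obtain ⟨t, u, -, hn2, ha2, hg, -, -⟩ :=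
      P2.coprime_classification' (Int.isCoprime_iff_gcd_eq_one.mp hcn) hc2 ha
    have hrs : r * s ≠ 0 := by
      intro h
      apply hn
      rw [hn1, mul_assoc, h, mul_zero]
    obtain ⟨n', hn'0, hn'b, hsol⟩ := key_lemma r s t u hrs (Int.isCoprime_iff_gcd_eq_one.mpr hg)
      (by linarith) (by linarith)
    refine ⟨n', hn'0, ?_, hsol⟩
    have : |n| = 2 * |r * s| := by
      rw [hn1, mul_assoc, abs_mul]; norm_num
    have h0 : 0 < |r * s| := abs_pos.mpr hrs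
    linarith [abs_nonneg n']
  · -- n odd
    have P1 : PythagoreanTriple n b a := by
      unfold PythagoreanTriple; linarith
    have P2 : PythagoreanTriple (9 * n) c a := by
      unfold PythagoreanTriple; linarith
    obtain ⟨r, s, hn1, -, ha1, -, -, -⟩ :=
      P1.coprime_classification' (Int.isCoprime_iff_gcd_eq_one.mp hbn.symm) hpar ha
    obtain ⟨t, u, hn2, -, ha2, hg, hpar2, -⟩ :=
      P2.coprime_classification' (Int.isCoprime_iff_gcd_eq_one.mp hcn.symm) (by omega) ha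
    have hnrs : (r + s) * (r - s) = n := by rw [hn1]; ring
    have hrs : (r + s) * (r - s) ≠ 0 := by rw [hnrs]; exact hn
    obtain ⟨n', hn'0, hn'b, hsol⟩ := key_lemma (r + s) (r - s) (t + u) (t - u) hrs
      (isCoprime_add_sub (Int.isCoprime_iff_gcd_eq_one.mpr hg) hpar2)
      (by rw [hnrs]; linarith) (by linarith)
    refine ⟨n', hn'0, ?_, hsol⟩
    rw [hnrs] at hn'b
    have h0 : 0 < |n'| := abs_pos.mpr hn'0
    linarith

theorem step (a b c n : ℤ) (hn : n ≠ 0) (hco : IsCoprime a n)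
    (h1 : a ^ 2 = b ^ 2 + n ^ 2) (h2 : a ^ 2 = c ^ 2 + 81 * n ^ 2) :
    ∃ n' : ℤ, n' ≠ 0 ∧ |n'| < |n| ∧ Sol n' := by
  have ha0 : a ≠ 0 := by
    rintro rfl
    have : 0 < n ^ 2 := by positivity
    nlinarith [sq_nonneg b]
  rcases lt_or_gt_of_ne ha0 with ha | ha
  · exact step_pos (-a) b c n (by linarith) hn hco.neg_left (by rw [neg_sq]; exact h1)
      (by rw [neg_sq]; exact h2)
  · exact step_pos a b c n ha hn hco h1 h2

theorem not_sol_aux : ∀ N : ℕ, ∀ n : ℤ, n.natAbs = N → n ≠ 0 → ¬ Sol n := by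
  intro N
  induction N using Nat.strong_induction_on with
  | _ N ih =>
    rintro n hN hn ⟨a, b, c, h1, h2⟩
    have hgpos : 0 < Int.gcd a n := Int.gcd_pos_of_ne_zero_right a hn
    obtain ⟨a0, n0, hg1, ha, hn'⟩ := Int.exists_gcd_one hgpos
    obtain ⟨g, hg⟩ : ∃ g : ℤ, g = (Int.gcd a n : ℤ) := ⟨_, rfl⟩
    rw [← hg] at ha hn'
    have hg0 : g ≠ 0 := by rw [hg]; exact_mod_cast hgpos.ne'
    have hgb : g ∣ b := by
      rw [← Int.pow_dvd_pow_iff (n := 2) (by norm_num)]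
      exact ⟨a0 ^ 2 - n0 ^ 2, by rw [ha, hn'] at h1; linear_combination -h1⟩
    have hgc : g ∣ c := by
      rw [← Int.pow_dvd_pow_iff (n := 2) (by norm_num)]
      exact ⟨a0 ^ 2 - 81 * n0 ^ 2, by rw [ha, hn'] at h2; linear_combination -h2⟩
    obtain ⟨b0, rfl⟩ := hgb
    obtain ⟨c0, rfl⟩ := hgc
    have hg2 : g ^ 2 ≠ 0 := pow_ne_zero 2 hg0
    have h1' : a0 ^ 2 = b0 ^ 2 + n0 ^ 2 := by
      apply mul_left_cancel₀ hg2
      rw [ha, hn'] at h1; linear_combination h1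
    have h2' : a0 ^ 2 = c0 ^ 2 + 81 * n0 ^ 2 := by
      apply mul_left_cancel₀ hg2
      rw [ha, hn'] at h2; linear_combination h2
    have hn0 : n0 ≠ 0 := by
      rintro rfl
      apply hn; rw [hn', zero_mul]
    obtain ⟨n', hn'0, hlt, hsol⟩ :=
      step a0 b0 c0 n0 hn0 (Int.isCoprime_iff_gcd_eq_one.mpr hg1) h1' h2'
    have hle : |n0| ≤ |n| := by
      rw [hn', abs_mul]
      have : 1 ≤ |g| := Int.one_le_abs hg0
      nlinarith [abs_nonneg n0]
    have hlt' : n'.natAbs < N := by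
      rw [← hN]
      have : |n'| < |n| := lt_of_lt_of_le hlt hle
      rw [Int.abs_eq_natAbs, Int.abs_eq_natAbs] at this
      exact_mod_cast this
    exact ih n'.natAbs hlt' n' rfl hn'0 hsol

/-- **Infinite descent**: no nontrivial integer solutions of `a² = b² + n² = c² + 81 n²`. -/
theorem no_sol (a b c n : ℤ) (hn : n ≠ 0) (h1 : a ^ 2 = b ^ 2 + n ^ 2)
    (h2 : a ^ 2 = c ^ 2 + 81 * n ^ 2) : False :=
  not_sol_aux n.natAbs n rfl hn ⟨a, b, c, h1, h2⟩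


/-- No rational numbers with `u₁² = u₂² + 1 = u₃² + 81`. -/
theorem no_rat_sol (u1 u2 u3 : ℚ) (h1 : u1 ^ 2 = u2 ^ 2 + 1) (h2 : u1 ^ 2 = u3 ^ 2 + 81) : False := by
  have d1 : (u1.den : ℚ) ≠ 0 := by exact_mod_cast u1.den_nz
  have d2 : (u2.den : ℚ) ≠ 0 := by exact_mod_cast u2.den_nz
  have d3 : (u3.den : ℚ) ≠ 0 := by exact_mod_cast u3.den_nz
  have e1 : u1 * u1.den = u1.num := Rat.mul_den_eq_num u1
  have e2 : u2 * u2.den = u2.num := Rat.mul_den_eq_num u2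
  have e3 : u3 * u3.den = u3.num := Rat.mul_den_eq_num u3
  apply no_sol (u1.num * u2.den * u3.den) (u2.num * u1.den * u3.den) (u3.num * u1.den * u2.den)
    ((u1.den : ℤ) * u2.den * u3.den)
  · have z1 : (u1.den : ℤ) ≠ 0 := by exact_mod_cast u1.den_nz
    have z2 : (u2.den : ℤ) ≠ 0 := by exact_mod_cast u2.den_nz
    have z3 : (u3.den : ℤ) ≠ 0 := by exact_mod_cast u3.den_nz
    exact mul_ne_zero (mul_ne_zero z1 z2) z3
  · have : ((u1.num * u2.den * u3.den : ℤ) : ℚ) ^ 2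
        = ((u2.num * u1.den * u3.den : ℤ) : ℚ) ^ 2 + (((u1.den : ℤ) * u2.den * u3.den : ℤ) : ℚ) ^ 2 := by
      push_cast
      rw [← e1, ← e2]
      linear_combination ((u1.den : ℚ) * u2.den * u3.den) ^ 2 * h1
    exact_mod_cast this
  · have : ((u1.num * u2.den * u3.den : ℤ) : ℚ) ^ 2
        = ((u3.num * u1.den * u2.den : ℤ) : ℚ) ^ 2
          + 81 * (((u1.den : ℤ) * u2.den * u3.den : ℤ) : ℚ) ^ 2 := by
      push_cast
      rw [← e1, ← e3]
      linear_combination ((u1.den : ℚ) * u2.den * u3.den) ^ 2 * h2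
    exact_mod_cast this

/-- Rational points of `15a2 : y² = x (x - 1) (x - 81)`: only the 2-torsion. -/
theorem ratPoints_E2 (x y : ℚ) (h : y ^ 2 = x * (x - 1) * (x - 81)) : y = 0 := by
  by_contra hy
  apply no_rat_sol ((x ^ 2 - 81) / (2 * y)) (((x - 1) ^ 2 + 80) / (2 * y))
    (((x - 81) ^ 2 - 6480) / (2 * y))
  · field_simp
    linear_combination (-4) * h
  · field_simp
    linear_combination (-324) * h

/-- Rational points of `15a1` in the form `y² = x (x - 9) (x - 25)`. -/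
theorem ratPoints_E1 (x y : ℚ) (h : y ^ 2 = x * (x - 9) * (x - 25)) :
    x = 0 ∨ x = 9 ∨ x = 25 ∨ x = 5 ∨ x = 45 := by
  by_cases h25 : x = 25
  · exact Or.inr (Or.inr (Or.inl h25))
  have hx : x - 25 ≠ 0 := sub_ne_zero.mpr h25
  have key := ratPoints_E2 (x * (x - 9) / (x - 25)) (y * ((x - 25) ^ 2 - 400) / (x - 25) ^ 2) (by
    field_simp
    linear_combination ((x - 25) ^ 2 - 400) ^ 2 * h)
  rw [div_eq_zero_iff] at key
  rcases key with key | key
  · rcases mul_eq_zero.mp key with hy | hq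
    · rw [hy] at h
      have h' : x * (x - 9) * (x - 25) = 0 := by linarith
      rcases mul_eq_zero.mp h' with h'' | h''
      · rcases mul_eq_zero.mp h'' with h3 | h3
        · exact Or.inl h3
        · exact Or.inr (Or.inl (by linarith))
      · exact absurd h'' hx
    · have : (x - 5) * (x - 45) = 0 := by linear_combination hq
      rcases mul_eq_zero.mp this with h3 | h3
      · exact Or.inr (Or.inr (Or.inr (Or.inl (by linarith))))
      · exact Or.inr (Or.inr (Or.inr (Or.inr (by linarith))))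
  · exact absurd key (pow_ne_zero 2 hx)

/-- **Module A** (helper3's normalisation of `X₀(15)`). -/
theorem moduleA (Y Z : ℚ) (h : Y ^ 2 = Z * (1 - 4 * Z) * (25 - 36 * Z)) :
    Z = 0 ∨ Z = 1 / 4 ∨ Z = 25 / 36 ∨ Z = 5 / 36 ∨ Z = 5 / 4 := by
  rcases ratPoints_E1 (36 * Z) (18 * Y) (by linear_combination 324 * h) with h | h | h | h | h
  · exact Or.inl (by linarith)
  · exact Or.inr (Or.inl (by linarith))
  · exact Or.inr (Or.inr (Or.inl (by linarith)))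
  · exact Or.inr (Or.inr (Or.inr (Or.inl (by linarith))))
  · exact Or.inr (Or.inr (Or.inr (Or.inr (by linarith))))

/-- The same in helper51's normalisation `Y² = X (X - 16) (X + 9)`. -/
theorem ratPoints_E1' (X Y : ℚ) (h : Y ^ 2 = X * (X - 16) * (X + 9)) :
    X = 0 ∨ X = 16 ∨ X = -9 ∨ X = 36 ∨ X = -4 := by
  rcases ratPoints_E1 (X + 9) Y (by linear_combination h) with h | h | h | h | h
  · exact Or.inr (Or.inr (Or.inl (by linarith)))
  · exact Or.inl (by linarith)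
  · exact Or.inr (Or.inl (by linarith))
  · exact Or.inr (Or.inr (Or.inr (Or.inr (by linarith))))
  · exact Or.inr (Or.inr (Or.inr (Or.inl (by linarith))))

end Fermat.Agent.S51.Descent45
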