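import Mathlib

set_option autoImplicit false

namespace Fermat.Agent.S51

theorem prime_five_int : Prime (5 : ℤ) :=
  Int.prime_iff_natAbs_prime.mpr (by norm_num)

/-- If `A c₄³ = 5 m Δ` or `A c₄³ = 25 m Δ` with `5 ∤ A`, `5 ∤ m` then `5 ∣ c₄` and `5 ∣ Δ`. -/
theorem five_dvd_both (c4 Δ A m : ℤ) (hA : ¬ (5 : ℤ) ∣ A) (hm : ¬ (5 : ℤ) ∣ m)
    (h : A * c4 ^ 3 = 5 * m * Δ ∨ A * c4 ^ 3 = 25 * m * Δ) :
    (5 : ℤ) ∣ c4 ∧ (5 : ℤ) ∣ Δ := by
  have h5 := prime_five_int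
  have hc : (5 : ℤ) ∣ c4 := by
    have h1 : (5 : ℤ) ∣ A * c4 ^ 3 := by
      rcases h with h | h
      · exact ⟨m * Δ, by rw [h]; ring⟩
      · exact ⟨5 * m * Δ, by rw [h]; ring⟩
    rcases h5.dvd_or_dvd h1 with h2 | h2
    · exact absurd h2 hA
    · exact h5.dvd_of_dvd_pow h2
  refine ⟨hc, ?_⟩
  obtain ⟨k, rfl⟩ := hc
  have h2 : (5 : ℤ) ∣ m * Δ := by
    rcases h with h | h
    · exact ⟨5 * A * k ^ 3, by linarith [h, show A * (5 * k) ^ 3 = 125 * (A * k ^ 3) by ring]⟩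
    · exact ⟨A * k ^ 3, by linarith [h, show A * (5 * k) ^ 3 = 125 * (A * k ^ 3) by ring]⟩
  rcases h5.dvd_or_dvd h2 with h3 | h3
  · exact absurd h3 hm
  · exact h3

/-- The relation between `c₄` and `Δ` once `r` is known. -/
theorem c4_cube_rel (c4 Δ D r : ℚ) (h1 : c4 = D * (r ^ 2 - 12 * r + 16))
    (h2 : Δ = D ^ 3 * (r - 11)) : c4 ^ 3 * (r - 11) = Δ * (r ^ 2 - 12 * r + 16) ^ 3 := by
  rw [h1, h2]; ring

/-- The point on `X₀(15)`. -/
theorem x015_point (r q Z : ℚ)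
    (h3 : (1 + 12 * Z) * r + (6 + 8 * Z) * q + 3 / 2 * (1 - 4 * Z) ^ 2 = 0)
    (h4 : q ^ 2 = Z * (r ^ 2 + 4)) :
    ((1 - 4 * Z) * (2 * (1 - 4 * Z) * q - 3 * Z * (6 + 8 * Z)) / (1 + 12 * Z)) ^ 2
      = Z * (1 - 4 * Z) * (25 - 36 * Z) := by
  have hZ0 : 0 ≤ Z := by
    by_contra hneg'
    have hneg : Z < 0 := not_le.mp hneg'
    nlinarith [sq_nonneg q, sq_nonneg r, mul_pos_of_neg_of_neg hneg (show -(r ^ 2 + 4) < 0 by nlinarith [sq_nonneg r])]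
  have hu : (1 + 12 * Z) ≠ 0 := by positivity
  have key : (1 - 4 * Z) ^ 2 * (2 * (1 - 4 * Z) * q - 3 * Z * (6 + 8 * Z)) ^ 2
      = Z * (1 - 4 * Z) * (25 - 36 * Z) * (1 + 12 * Z) ^ 2 := by
    linear_combination 4 * (1 - 4 * Z) * (1 + 12 * Z) ^ 2 * h4
      + 4 * (1 - 4 * Z) * Z * ((1 + 12 * Z) * r - (6 + 8 * Z) * q - 3 / 2 * (1 - 4 * Z) ^ 2) * h3
  rw [div_pow, div_eq_iff (pow_ne_zero 2 hu), mul_pow]
  exact key

/-- The possible values of `r`. -/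
theorem r_values
    (hA : ∀ Z Y : ℚ, Y ^ 2 = Z * (1 - 4 * Z) * (25 - 36 * Z) →
      Z = 0 ∨ Z = 1 / 4 ∨ Z = 25 / 36 ∨ Z = 5 / 36 ∨ Z = 5 / 4)
    (r q Z : ℚ)
    (h3 : (1 + 12 * Z) * r + (6 + 8 * Z) * q + 3 / 2 * (1 - 4 * Z) ^ 2 = 0)
    (h4 : q ^ 2 = Z * (r ^ 2 + 4)) :
    r = -3 / 2 ∨ r = 63 / 8 ∨ r = -29 ∨ r = 1 ∨ r = 11 := by
  rcases hA Z _ (x015_point r q Z h3 h4) with rfl | rfl | rfl | rfl | rfl
  · left
    have hq : q = 0 := by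
      have : q ^ 2 = 0 := by rw [h4]; ring
      exact pow_eq_zero_iff (two_ne_zero) |>.mp this
    rw [hq] at h3
    linarith
  · exfalso
    have hr : r = -2 * q := by linarith
    rw [hr] at h4
    nlinarith
  · right; left
    have hr : r = -(26 / 21) * q - 32 / 63 := by linarith
    have hq : (q + 325 / 48) ^ 2 = 0 := by
      rw [hr] at h4
      nlinarith
    have hq' : q = -325 / 48 := by
      have := pow_eq_zero_iff (two_ne_zero) |>.mp hq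
      linarith
    rw [hr, hq']; norm_num
  · have hr : r = -(8 / 3) * q - 1 / 9 := by linarith
    have hq : (q - 65 / 6) * (q + 25 / 6) = 0 := by
      rw [hr] at h4
      nlinarith
    rcases mul_eq_zero.mp hq with hq | hq
    · right; right; left
      have hq' : q = 65 / 6 := by linarith
      rw [hr, hq']; norm_num
    · right; right; right; right
      have hq' : q = -25 / 6 := by linarith
      rw [hr, hq']; norm_num
  · have hr : r = -q - 3 / 2 := by linarith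
    have hq : (q + 25 / 2) * (q + 5 / 2) = 0 := by
      rw [hr] at h4
      nlinarith
    rcases mul_eq_zero.mp hq with hq | hq
    · right; right; right; right
      have hq' : q = -25 / 2 := by linarith
      rw [hr, hq']; norm_num
    · right; right; right; left
      have hq' : q = -5 / 2 := by linarith
      rw [hr, hq']; norm_num

/-- **Module E.**  Endgame arithmetic, with the determination of the rational points of
`X₀(15)` as a hypothesis. -/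
theorem endgame_of_thmA
    (hA : ∀ Z Y : ℚ, Y ^ 2 = Z * (1 - 4 * Z) * (25 - 36 * Z) →
      Z = 0 ∨ Z = 1 / 4 ∨ Z = 25 / 36 ∨ Z = 5 / 36 ∨ Z = 5 / 4)
    (c4 Δ : ℤ) (hΔ : Δ ≠ 0) (hss : (5 : ℤ) ∣ Δ → ¬ (5 : ℤ) ∣ c4) (D r q Z : ℚ)
    (h1 : (c4 : ℚ) = D * (r ^ 2 - 12 * r + 16)) (h2 : (Δ : ℚ) = D ^ 3 * (r - 11))
    (h3 : (1 + 12 * Z) * r + (6 + 8 * Z) * q + 3 / 2 * (1 - 4 * Z) ^ 2 = 0)
    (h4 : q ^ 2 = Z * (r ^ 2 + 4)) : False := by
  have hrel := c4_cube_rel (c4 : ℚ) (Δ : ℚ) D r h1 h2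
  have fin : ∀ A m : ℤ, ¬ (5 : ℤ) ∣ A → ¬ (5 : ℤ) ∣ m →
      (A * c4 ^ 3 = 5 * m * Δ ∨ A * c4 ^ 3 = 25 * m * Δ) → False := by
    intro A m hA' hm h
    obtain ⟨hc, hd⟩ := five_dvd_both c4 Δ A m hA' hm h
    exact hss hd hc
  rcases r_values hA r q Z h3 h4 with rfl | rfl | rfl | rfl | rfl
  · refine fin (-32) (29 ^ 3) (by norm_num) (by norm_num) (Or.inl ?_)
    have : ((-32 : ℤ) : ℚ) * (c4 : ℚ) ^ 3 = 5 * ((29 : ℤ) : ℚ) ^ 3 * (Δ : ℚ) := by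
      push_cast
      linear_combination (64 / 25 : ℚ) * hrel
    exact_mod_cast this
  · refine fin 32768 (211 ^ 3) (by norm_num) (by norm_num) (Or.inl ?_)
    have : ((32768 : ℤ) : ℚ) * (c4 : ℚ) ^ 3 = 5 * ((211 : ℤ) : ℚ) ^ 3 * (Δ : ℚ) := by
      push_cast
      linear_combination (-262144 / 25 : ℚ) * hrel
    exact_mod_cast this
  · refine fin (-8) (241 ^ 3) (by norm_num) (by norm_num) (Or.inr ?_)
    have : ((-8 : ℤ) : ℚ) * (c4 : ℚ) ^ 3 = 25 * ((241 : ℤ) : ℚ) ^ 3 * (Δ : ℚ) := by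
      push_cast
      linear_combination (1 / 5 : ℚ) * hrel
    exact_mod_cast this
  · refine fin (-2) 1 (by norm_num) (by norm_num) (Or.inr ?_)
    have : ((-2 : ℤ) : ℚ) * (c4 : ℚ) ^ 3 = 25 * ((1 : ℤ) : ℚ) * (Δ : ℚ) := by
      push_cast
      linear_combination (1 / 5 : ℚ) * hrel
    exact_mod_cast this
  · apply hΔ
    have : (Δ : ℚ) = 0 := by rw [h2]; ring
    exact_mod_cast this

end Fermat.Agent.S51
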