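import Mathlib

set_option autoImplicit false

namespace Fermat.Agent.S51

section FieldAlg

variable {K : Type*} [Field K]

/-- `ψ₂²` as a function of `x`. -/
def fB (b2 b4 b6 x : K) : K := 4 * x ^ 3 + b2 * x ^ 2 + 2 * b4 * x + b6

/-- `ψ₃` as a function of `x`. -/
def psi3B (b2 b4 b6 b8 x : K) : K := 3 * x ^ 4 + b2 * x ^ 3 + 3 * b4 * x ^ 2 + 3 * b6 * x + b8

/-- `D = (x₂ - x₁)²`. -/
def DB (x1 x2 : K) : K := (x2 - x1) ^ 2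

/-- `r = d³ (1 / f x₁ - 1 / f x₂)`. -/
def rB (b2 b4 b6 x1 x2 : K) : K :=
  (x2 - x1) ^ 3 * (1 / fB b2 b4 b6 x1 - 1 / fB b2 b4 b6 x2)

/-- `q = (2 x₀ - x₁ - x₂) d² (1 / f x₁ + 1 / f x₂) / 2`. -/
def qB (b2 b4 b6 x0 x1 x2 : K) : K :=
  (2 * x0 - x1 - x2) * (x2 - x1) ^ 2 * (1 / fB b2 b4 b6 x1 + 1 / fB b2 b4 b6 x2) / 2

/-- `Z = ((2 x₀ - x₁ - x₂) / (2 d))²`. -/
def ZB (x0 x1 x2 : K) : K := ((2 * x0 - x1 - x2) / (2 * (x2 - x1))) ^ 2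

theorem DB_swap (x1 x2 : K) : DB x2 x1 = DB x1 x2 := by
  unfold DB; ring

theorem rB_swap (b2 b4 b6 x1 x2 : K) : rB b2 b4 b6 x2 x1 = rB b2 b4 b6 x1 x2 := by
  unfold rB; ring

theorem qB_swap (b2 b4 b6 x0 x1 x2 : K) : qB b2 b4 b6 x0 x2 x1 = qB b2 b4 b6 x0 x1 x2 := by
  unfold qB; ring

theorem ZB_swap (x0 x1 x2 : K) : ZB x0 x2 x1 = ZB x0 x1 x2 := by
  unfold ZB
  have h : (2 * x0 - x2 - x1) / (2 * (x1 - x2)) = -((2 * x0 - x1 - x2) / (2 * (x2 - x1))) := by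
    rw [← neg_div_neg_eq, ← neg_div]
    congr 1 <;> ring
  rw [h]; ring

theorem core_aux (B2 B4 B6 B8 d : K) (hd : d ≠ 0) (h6 : B6 ≠ 0)
    (h1 : B8 = -d * B6) (h2 : B6 = d ^ 3 - B4 * d) (h3 : 4 * B8 = B2 * B6 - B4 ^ 2) :
    B4 = (d ^ 3 - B6) / d ∧ B2 = (((d ^ 3 - B6) / d) ^ 2 - 4 * d * B6) / B6 := by
  have hB4 : B4 = (d ^ 3 - B6) / d := by
    field_simp
    linear_combination h2
  refine ⟨hB4, ?_⟩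
  rw [← hB4]
  field_simp
  linear_combination -h3 + 4 * h1

theorem core_F2 (B2 B4 B6 B8 d : K) (hd : d ≠ 0) (h6 : B6 ≠ 0)
    (h1 : B8 = -d * B6) (h2 : B6 = d ^ 3 - B4 * d) (h3 : 4 * B8 = B2 * B6 - B4 ^ 2) :
    B6 * (4 * d ^ 3 + B2 * d ^ 2 + 2 * B4 * d + B6) = d ^ 6 := by
  obtain ⟨hB4, hB2⟩ := core_aux B2 B4 B6 B8 d hd h6 h1 h2 h3
  rw [hB2, hB4]
  field_simp
  ring

theorem core_c4 (B2 B4 B6 B8 d : K) (hd : d ≠ 0) (h6 : B6 ≠ 0)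
    (h1 : B8 = -d * B6) (h2 : B6 = d ^ 3 - B4 * d) (h3 : 4 * B8 = B2 * B6 - B4 ^ 2) :
    B2 ^ 2 - 24 * B4 = d ^ 2 * ((d ^ 3 / B6 - B6 / d ^ 3) ^ 2 - 12 * (d ^ 3 / B6 - B6 / d ^ 3) + 16) := by
  obtain ⟨hB4, hB2⟩ := core_aux B2 B4 B6 B8 d hd h6 h1 h2 h3
  rw [hB2, hB4]
  field_simp
  ring

theorem core_Delta (B2 B4 B6 B8 d : K) (hd : d ≠ 0) (h6 : B6 ≠ 0)
    (h1 : B8 = -d * B6) (h2 : B6 = d ^ 3 - B4 * d) (h3 : 4 * B8 = B2 * B6 - B4 ^ 2) :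
    -B2 ^ 2 * B8 - 8 * B4 ^ 3 - 27 * B6 ^ 2 + 9 * B2 * B4 * B6
      = (d ^ 2) ^ 3 * ((d ^ 3 / B6 - B6 / d ^ 3) - 11) := by
  obtain ⟨hB4, hB2⟩ := core_aux B2 B4 B6 B8 d hd h6 h1 h2 h3
  rw [h1, hB2, hB4]
  field_simp
  ring

theorem core_R2 [CharZero K] (B2 B4 B6 B8 d X : K) (hd : d ≠ 0) (h6 : B6 ≠ 0)
    (h1 : B8 = -d * B6) (h2 : B6 = d ^ 3 - B4 * d) (h3 : 4 * B8 = B2 * B6 - B4 ^ 2)
    (h0 : 3 * X ^ 4 + B2 * X ^ 3 + 3 * B4 * X ^ 2 + 3 * B6 * X + B8 = 0) :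
    (1 + 12 * ((2 * X - d) / (2 * d)) ^ 2) * (d ^ 3 / B6 - B6 / d ^ 3)
      + (6 + 8 * ((2 * X - d) / (2 * d)) ^ 2) * (((2 * X - d) / (2 * d)) * (d ^ 3 / B6 + B6 / d ^ 3))
      + 3 / 2 * (1 - 4 * ((2 * X - d) / (2 * d)) ^ 2) ^ 2 = 0 := by
  obtain ⟨hB4, hB2⟩ := core_aux B2 B4 B6 B8 d hd h6 h1 h2 h3
  rw [h1, hB2, hB4] at h0
  field_simp at h0 ⊢
  linear_combination 256 * h0


/-- **Module B.**  Pure field algebra behind the `X₀(15)` parametrisation. -/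
theorem moduleB [CharZero K] (b2 b4 b6 b8 x0 x1 x2 : K)
    (hb8 : 4 * b8 = b2 * b6 - b4 ^ 2)
    (h0 : psi3B b2 b4 b6 b8 x0 = 0)
    (H1 : (x2 - x1) * fB b2 b4 b6 x1 = -psi3B b2 b4 b6 b8 x1)
    (H2 : (x1 - x2) * fB b2 b4 b6 x2 = -psi3B b2 b4 b6 b8 x2)
    (hne : x1 ≠ x2) (hf1 : fB b2 b4 b6 x1 ≠ 0) :
    fB b2 b4 b6 x1 * fB b2 b4 b6 x2 = (x2 - x1) ^ 6 ∧
    b2 ^ 2 - 24 * b4 = DB x1 x2 * (rB b2 b4 b6 x1 x2 ^ 2 - 12 * rB b2 b4 b6 x1 x2 + 16) ∧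
    -b2 ^ 2 * b8 - 8 * b4 ^ 3 - 27 * b6 ^ 2 + 9 * b2 * b4 * b6
      = DB x1 x2 ^ 3 * (rB b2 b4 b6 x1 x2 - 11) ∧
    (1 + 12 * ZB x0 x1 x2) * rB b2 b4 b6 x1 x2 + (6 + 8 * ZB x0 x1 x2) * qB b2 b4 b6 x0 x1 x2
      + 3 / 2 * (1 - 4 * ZB x0 x1 x2) ^ 2 = 0 ∧
    qB b2 b4 b6 x0 x1 x2 ^ 2 = ZB x0 x1 x2 * (rB b2 b4 b6 x1 x2 ^ 2 + 4) := by
  obtain ⟨d, hd⟩ : ∃ d, d = x2 - x1 := ⟨_, rfl⟩
  have hx2 : x2 = x1 + d := by rw [hd]; ring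
  have hd0 : d ≠ 0 := by rw [hd]; exact sub_ne_zero.mpr hne.symm
  obtain ⟨B2, hB2⟩ : ∃ B2, B2 = b2 + 12 * x1 := ⟨_, rfl⟩
  obtain ⟨B4, hB4⟩ : ∃ B4, B4 = b4 + b2 * x1 + 6 * x1 ^ 2 := ⟨_, rfl⟩
  obtain ⟨B6, hB6⟩ : ∃ B6, B6 = fB b2 b4 b6 x1 := ⟨_, rfl⟩
  obtain ⟨B8, hB8⟩ : ∃ B8, B8 = psi3B b2 b4 b6 b8 x1 := ⟨_, rfl⟩
  have h6 : B6 ≠ 0 := by rw [hB6]; exact hf1
  have h1 : B8 = -d * B6 := by
    rw [hB8, hB6, hd]; linear_combination H1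
  have hF2 : fB b2 b4 b6 x2 = 4 * d ^ 3 + B2 * d ^ 2 + 2 * B4 * d + B6 := by
    rw [hB2, hB4, hB6, hx2]; unfold fB; ring
  have hP2 : psi3B b2 b4 b6 b8 x2
      = 3 * d ^ 4 + B2 * d ^ 3 + 3 * B4 * d ^ 2 + 3 * B6 * d + B8 := by
    rw [hB2, hB4, hB6, hB8, hx2]; unfold fB psi3B; ring
  have h2 : B6 = d ^ 3 - B4 * d := by
    have h : d * (d ^ 3 - B4 * d - B6) = 0 := by
      have H2' : (x1 - x2) * fB b2 b4 b6 x2 = -psi3B b2 b4 b6 b8 x2 := H2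
      rw [hF2, hP2, hx2] at H2'
      linear_combination -H2' + h1
    rcases mul_eq_zero.mp h with h | h
    · exact absurd h hd0
    · linear_combination -h
  have h3 : 4 * B8 = B2 * B6 - B4 ^ 2 := by
    rw [hB2, hB4, hB6, hB8]; unfold fB psi3B; linear_combination hb8
  have hX0 : 3 * (x0 - x1) ^ 4 + B2 * (x0 - x1) ^ 3 + 3 * B4 * (x0 - x1) ^ 2
      + 3 * B6 * (x0 - x1) + B8 = 0 := by
    rw [hB2, hB4, hB6, hB8]; unfold fB psi3B; unfold psi3B at h0; linear_combination h0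
  have hFF : B6 * fB b2 b4 b6 x2 = d ^ 6 := by
    rw [hF2]; exact core_F2 B2 B4 B6 B8 d hd0 h6 h1 h2 h3
  have hf2 : fB b2 b4 b6 x2 ≠ 0 := by
    intro h; rw [h, mul_zero] at hFF; exact pow_ne_zero 6 hd0 hFF.symm
  have hinv : d ^ 3 * (1 / fB b2 b4 b6 x2) = B6 / d ^ 3 := by
    field_simp
    linear_combination -hFF
  have hr : rB b2 b4 b6 x1 x2 = d ^ 3 / B6 - B6 / d ^ 3 := by
    unfold rB; rw [← hd, ← hB6, mul_sub, hinv]; ring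
  have hZ : ZB x0 x1 x2 = ((2 * (x0 - x1) - d) / (2 * d)) ^ 2 := by
    unfold ZB; rw [← hd, hx2]; congr 2; ring
  have hq : qB b2 b4 b6 x0 x1 x2
      = ((2 * (x0 - x1) - d) / (2 * d)) * (d ^ 3 / B6 + B6 / d ^ 3) := by
    unfold qB; rw [← hd, ← hB6]
    have : (2 * x0 - x1 - x2) * d ^ 2 * (1 / B6 + 1 / fB b2 b4 b6 x2) / 2
        = (2 * x0 - x1 - x2) / (2 * d) * (d ^ 3 * (1 / B6) + d ^ 3 * (1 / fB b2 b4 b6 x2)) := by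
      field_simp
    rw [this, hinv, hx2]
    congr 1
    · congr 1; ring
    · ring
  have hD : DB x1 x2 = d ^ 2 := by unfold DB; rw [hd]
  refine ⟨?_, ?_, ?_, ?_, ?_⟩
  · rw [← hB6, ← hd]; exact hFF
  · rw [hD, hr, ← core_c4 B2 B4 B6 B8 d hd0 h6 h1 h2 h3, hB2, hB4]; ring
  · rw [hD, hr, ← core_Delta B2 B4 B6 B8 d hd0 h6 h1 h2 h3, hB2, hB4, hB6, hB8]
    unfold fB psi3B
    linear_combination (6 * b2 * x1 + 36 * x1 ^ 2) * hb8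
  · rw [hZ, hr, hq]; exact core_R2 B2 B4 B6 B8 d (x0 - x1) hd0 h6 h1 h2 h3 hX0
  · rw [hZ, hr, hq]
    field_simp
    ring

end FieldAlg

end Fermat.Agent.S51
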