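import Fermat.Agent.S51.FieldAlg

/-!
# S51: basic x-coordinate facts (doubling formula) for Weierstrass curves over a field
-/

set_option autoImplicit false

namespace Fermat.Agent.S51

open WeierstrassCurve WeierstrassCurve.Affine

variable {K : Type*} [Field K]

/-- `f(x) = 4x^3+b2x^2+2b4x+b6` (the two-torsion polynomial evaluated at `x`). -/
abbrev ff (W : WeierstrassCurve K) (x : K) : K := fB W.b₂ W.b₄ W.b₆ x

/-- `psi3(x) = 3x^4+b2x^3+3b4x^2+3b6x+b8`. -/
abbrev psi3 (W : WeierstrassCurve K) (x : K) : K := psi3B W.b₂ W.b₄ W.b₆ W.b₈ x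

theorem ff_eq_sq (W : Affine K) {x y : K} (h : W.Equation x y) :
    ff W x = (y - W.negY x y) ^ 2 := by
  rw [Affine.equation_iff] at h
  simp only [ff, fB, Affine.negY, WeierstrassCurve.b₂, WeierstrassCurve.b₄, WeierstrassCurve.b₆]
  linear_combination (-4) * h

theorem ff_ne_zero_iff (W : Affine K) {x y : K} (h : W.Equation x y) :
    ff W x ≠ 0 ↔ y ≠ W.negY x y := by
  rw [ff_eq_sq W h, ne_eq, pow_eq_zero_iff two_ne_zero, sub_eq_zero]

variable [DecidableEq K]

theorem addX_self_formula (W : Affine K) {x y : K} (h : W.Equation x y)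
    (hy : y ≠ W.negY x y) :
    (W.addX x x (W.slope x x y y) - x) * ff W x = - psi3 W x := by
  have hD : y - W.negY x y ≠ 0 := sub_ne_zero.mpr hy
  have key : ∀ (n D a b : K), D ≠ 0 →
      ((n / D) ^ 2 + a * (n / D) - b - x - x - x) * D ^ 2 = n ^ 2 + a * n * D - (b + 3 * x) * D ^ 2 := by
    intro n D a b hD
    field_simp
    ring
  rw [ff_eq_sq W h, Affine.slope_of_Y_ne rfl hy, Affine.addX, key _ _ _ _ hD]
  rw [Affine.equation_iff] at h
  simp only [Affine.negY, psi3, psi3B, WeierstrassCurve.b₂, WeierstrassCurve.b₄, WeierstrassCurve.b₆,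
    WeierstrassCurve.b₈]
  linear_combination (-W.a₁ ^ 2 - 4 * W.a₂ - 12 * x) * h

/-- Doubling formula on x-coordinates. -/
theorem two_nsmul_some (W : Affine K) {x y : K} (h : W.Nonsingular x y)
    (hy : y ≠ W.negY x y) :
    ∃ (x' y' : K) (h' : W.Nonsingular x' y'),
      (2 : ℕ) • (Point.some x y h) = Point.some x' y' h' ∧ (x' - x) * ff W x = - psi3 W x :=
  ⟨W.addX x x (W.slope x x y y), W.addY x x y (W.slope x x y y),
    Affine.nonsingular_add h h fun hxy => hy hxy.right,
    by rw [two_nsmul]; exact Point.add_self_of_Y_ne hy, addX_self_formula W h.1 hy⟩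

theorem two_nsmul_some_eq_zero_iff (W : Affine K) {x y : K} (h : W.Nonsingular x y) :
    (2 : ℕ) • (Point.some x y h) = 0 ↔ ff W x = 0 := by
  constructor
  · intro h2
    by_contra hne
    have hy := (ff_ne_zero_iff W h.1).mp hne
    obtain ⟨x', y', h', e, -⟩ := two_nsmul_some W h hy
    rw [e] at h2
    exact Point.some_ne_zero h' h2
  · intro h0
    have hy : y = W.negY x y := by
      by_contra hne
      exact (ff_ne_zero_iff W h.1).mpr hne h0
    rw [two_nsmul]; exact Point.add_self_of_Y_eq hy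

end Fermat.Agent.S51
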