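import Mathlib

set_option autoImplicit false

/-!
# S51 helper: duplication formula on `x`-coordinates and division-polynomial identities
-/

namespace Fermat.Agent.S51.T5

open WeierstrassCurve WeierstrassCurve.Affine

variable {K : Type*} [Field K] (W : WeierstrassCurve K)

/-- `ψ₂²` evaluated at `x`. -/
def ff (x : K) : K := 4 * x ^ 3 + W.b₂ * x ^ 2 + 2 * W.b₄ * x + W.b₆

/-- `ψ₃` evaluated at `x`. -/
def p3 (x : K) : K := 3 * x ^ 4 + W.b₂ * x ^ 3 + 3 * W.b₄ * x ^ 2 + 3 * W.b₆ * x + W.b₈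

/-- `ψ₄ / ψ₂` evaluated at `x`. -/
def pre4 (x : K) : K :=
  2 * x ^ 6 + W.b₂ * x ^ 5 + 5 * W.b₄ * x ^ 4 + 10 * W.b₆ * x ^ 3 + 10 * W.b₈ * x ^ 2 +
    (W.b₂ * W.b₈ - W.b₄ * W.b₆) * x + (W.b₄ * W.b₈ - W.b₆ ^ 2)

/-- `ψ₅` evaluated at `x`. -/
def p5 (x : K) : K := pre4 W x * ff W x ^ 2 - p3 W x ^ 3

theorem ff_eq_sq {x y : K} (h : W.toAffine.Equation x y) :
    ff W x = (y - W.toAffine.negY x y) ^ 2 := by
  rw [Affine.equation_iff] at h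
  simp only [ff, Affine.negY, WeierstrassCurve.b₂, WeierstrassCurve.b₄, WeierstrassCurve.b₆]
  linear_combination (-4 : K) * h

/-- Bezout identity for `ψ₂²` and `ψ₃`. -/
theorem bezout_ff_p3 (x : K) :
    (12 * x ^ 3 - W.b₂ * x ^ 2 - 10 * W.b₄ * x + W.b₂ * W.b₄ - 27 * W.b₆) * ff W x -
      (48 * x ^ 2 + 8 * W.b₂ * x + 32 * W.b₄ - W.b₂ ^ 2) * (x * ff W x - p3 W x) = W.Δ := by
  simp only [ff, p3, WeierstrassCurve.Δ]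
  linear_combination (12 * x ^ 2 + 2 * x * W.b₂ + 8 * W.b₄) * W.b_relation

theorem ff_ne_zero_or_p3_ne_zero (hΔ : W.Δ ≠ 0) (x : K) : ff W x ≠ 0 ∨ p3 W x ≠ 0 := by
  by_contra hcon
  push Not at hcon
  apply hΔ
  rw [← bezout_ff_p3 W x, hcon.1, hcon.2]
  ring

theorem identity_one (x : K) :
    4 * (x * ff W x - p3 W x) ^ 3 + W.b₂ * (x * ff W x - p3 W x) ^ 2 * ff W x +
      2 * W.b₄ * (x * ff W x - p3 W x) * ff W x ^ 2 + W.b₆ * ff W x ^ 3 = pre4 W x ^ 2 := by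
  simp only [ff, p3, pre4]
  linear_combination (-1*W.b₈^2 - 22*W.b₈*x^4 - 4*W.b₈*x^3*W.b₂ - 8*W.b₈*x^2*W.b₄ - 6*W.b₈*x*W.b₆ - 13*x^8 - 8*x^7*W.b₂ - 1*x^6*W.b₂^2 - 28*x^6*W.b₄ - 6*x^5*W.b₂*W.b₄ - 38*x^5*W.b₆ - 7*x^4*W.b₂*W.b₆ - 8*x^4*W.b₄^2 - 16*x^3*W.b₄*W.b₆ - 7*x^2*W.b₆^2) * W.b_relation

theorem identity_two (x : K) :
    (3 * (x * ff W x - p3 W x) ^ 4 + W.b₂ * (x * ff W x - p3 W x) ^ 3 * ff W x +
      3 * W.b₄ * (x * ff W x - p3 W x) ^ 2 * ff W x ^ 2 +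
      3 * W.b₆ * (x * ff W x - p3 W x) * ff W x ^ 3 + W.b₈ * ff W x ^ 4) +
      p3 W x * (4 * (x * ff W x - p3 W x) ^ 3 + W.b₂ * (x * ff W x - p3 W x) ^ 2 * ff W x +
      2 * W.b₄ * (x * ff W x - p3 W x) * ff W x ^ 2 + W.b₆ * ff W x ^ 3) = p3 W x * p5 W x := by
  simp only [ff, p3, pre4, p5]
  linear_combination (-16*W.b₈*x^8 - 8*W.b₈*x^7*W.b₂ - 1*W.b₈*x^6*W.b₂^2 - 16*W.b₈*x^6*W.b₄ - 4*W.b₈*x^5*W.b₂*W.b₄ - 8*W.b₈*x^5*W.b₆ - 2*W.b₈*x^4*W.b₂*W.b₆ - 4*W.b₈*x^4*W.b₄^2 - 4*W.b₈*x^3*W.b₄*W.b₆ - 1*W.b₈*x^2*W.b₆^2 - 48*x^12 - 40*x^11*W.b₂ - 11*x^10*W.b₂^2 - 96*x^10*W.b₄ - 1*x^9*W.b₂^3 - 52*x^9*W.b₂*W.b₄ - 72*x^9*W.b₆ - 7*x^8*W.b₂^2*W.b₄ - 38*x^8*W.b₂*W.b₆ - 60*x^8*W.b₄^2 - 5*x^7*W.b₂^2*W.b₆ - 16*x^7*W.b₂*W.b₄^2 - 84*x^7*W.b₄*W.b₆ - 22*x^6*W.b₂*W.b₄*W.b₆ - 12*x^6*W.b₄^3 - 27*x^6*W.b₆^2 - 7*x^5*W.b₂*W.b₆^2 - 24*x^5*W.b₄^2*W.b₆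 - 15*x^4*W.b₄*W.b₆^2 - 3*x^3*W.b₆^3) * W.b_relation

/-- If `x₂` is the `x`-coordinate of the double of a point with `x`-coordinate `x`, then
`ψ₂²(x₂) ψ₂²(x)³ = (ψ₄/ψ₂)(x)²`. -/
theorem ff_dup {x x₂ : K} (h : (x₂ - x) * ff W x = - p3 W x) :
    ff W x₂ * ff W x ^ 3 = pre4 W x ^ 2 := by
  have hN : x * ff W x - p3 W x = x₂ * ff W x := by linear_combination -h
  rw [← identity_one W x, hN]
  generalize ff W x = F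
  simp only [ff]
  ring

theorem p3_dup {x x₂ : K} (h : (x₂ - x) * ff W x = - p3 W x) :
    (p3 W x₂ + (x - x₂) * ff W x₂) * ff W x ^ 4 = p3 W x * p5 W x := by
  have hN : x * ff W x - p3 W x = x₂ * ff W x := by linear_combination -h
  have h3 : p3 W x = (x - x₂) * ff W x := by linear_combination h
  rw [← identity_two W x, hN]
  conv_rhs => rw [h3]
  generalize ff W x = F
  simp only [ff, p3]
  ring

variable [DecidableEq K]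

theorem addX_dup {x y : K} (h : W.toAffine.Equation x y) (hy : y ≠ W.toAffine.negY x y) :
    (W.toAffine.addX x x (W.toAffine.slope x x y y) - x) * ff W x = - p3 W x := by
  have hne : y - W.toAffine.negY x y ≠ 0 := sub_ne_zero.mpr hy
  rw [ff_eq_sq W h, Affine.slope_of_Y_ne rfl hy]
  rw [Affine.equation_iff] at h
  simp only [Affine.addX, p3, WeierstrassCurve.b₂, WeierstrassCurve.b₄, WeierstrassCurve.b₆,
    WeierstrassCurve.b₈]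
  field_simp
  simp only [Affine.negY]
  linear_combination (-(W.a₁^2 + 4*W.a₂ + 12*x)) * h

end Fermat.Agent.S51.T5
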