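import Mathlib
import Fermat.Agent.S51.T5Dup

set_option autoImplicit false

/-!
# S51 helper: 3- and 5-torsion points via `x`-coordinates
-/

namespace Fermat.Agent.S51.T5

open WeierstrassCurve WeierstrassCurve.Affine

variable {K : Type*} [Field K] [DecidableEq K] {W : WeierstrassCurve K}

theorem two_nsmul_some_of_ff_ne {x y : K} (h : W.toAffine.Nonsingular x y) (hf : ff W x ≠ 0) :
    ∃ (x' y' : K) (h' : W.toAffine.Nonsingular x' y'),
      (2 : ℕ) • (Point.some x y h) = Point.some x' y' h' ∧ (x' - x) * ff W x = - p3 W x := by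
  have hy : y ≠ W.toAffine.negY x y := by
    intro hy
    apply hf
    rw [ff_eq_sq W h.left, ← hy, sub_self]
    ring
  refine ⟨_, _, nonsingular_add h h (fun hxy => hy hxy.2), ?_, addX_dup W h.left hy⟩
  rw [two_nsmul, Point.add_self_of_Y_ne hy]

theorem two_nsmul_some_eq_zero_iff {x y : K} (h : W.toAffine.Nonsingular x y) :
    (2 : ℕ) • (Point.some x y h) = 0 ↔ ff W x = 0 := by
  constructor
  · intro h2
    by_contra hf
    obtain ⟨x', y', h', he, -⟩ := two_nsmul_some_of_ff_ne h hf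
    rw [he] at h2
    exact Point.some_ne_zero h' h2
  · intro hf
    rw [ff_eq_sq W h.left] at hf
    have hy : y = W.toAffine.negY x y := sub_eq_zero.mp (pow_eq_zero_iff (two_ne_zero) |>.mp hf)
    rw [two_nsmul, Point.add_self_of_Y_eq hy]

/-- `3`-torsion: a nonzero point is killed by `3` iff its `x`-coordinate is a root of `ψ₃`. -/
theorem three_nsmul_some_eq_zero_iff (hΔ : W.Δ ≠ 0) {x y : K} (h : W.toAffine.Nonsingular x y) :
    (3 : ℕ) • (Point.some x y h) = 0 ↔ p3 W x = 0 := by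
  constructor
  · intro h3
    have hf : ff W x ≠ 0 := by
      intro hf
      have h2 := (two_nsmul_some_eq_zero_iff h).mpr hf
      have : Point.some x y h = 0 := by
        have e : Point.some x y h = (3 : ℕ) • Point.some x y h - (2 : ℕ) • Point.some x y h := by
          rw [show (3 : ℕ) = 2 + 1 from rfl, add_nsmul, one_nsmul]; abel
        rw [e, h3, h2, sub_zero]
      exact Point.some_ne_zero h this
    obtain ⟨x', y', h', he, hx⟩ := two_nsmul_some_of_ff_ne h hf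
    have hneg : Point.some x' y' h' = - Point.some x y h := by
      rw [← he, eq_neg_iff_add_eq_zero, ← h3, show (3 : ℕ) = 2 + 1 from rfl, add_nsmul, one_nsmul]
    have hxx : x' = x := Point.X_eq_iff.mpr (Or.inr hneg)
    rw [hxx, sub_self, zero_mul] at hx
    exact neg_eq_zero.mp hx.symm
  · intro h3
    have hf : ff W x ≠ 0 := (ff_ne_zero_or_p3_ne_zero W hΔ x).resolve_right (not_not.mpr h3)
    obtain ⟨x', y', h', he, hx⟩ := two_nsmul_some_of_ff_ne h hf
    rw [h3, neg_zero] at hx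
    have hxx : x' = x := sub_eq_zero.mp ((mul_eq_zero.mp hx).resolve_right hf)
    rcases (Point.X_eq_iff (h₁ := h') (h₂ := h)).mp hxx with h1 | h1
    · exfalso
      rw [← he, two_nsmul] at h1
      exact Point.some_ne_zero h (by simp at h1)
    · rw [show (3 : ℕ) = 2 + 1 from rfl, add_nsmul, one_nsmul, he, h1, neg_add_cancel]

/-- The data attached to a nonzero `5`-torsion point. -/
theorem five_torsion_data {P : W.toAffine.Point} (hP : P ≠ 0) (h5 : (5 : ℕ) • P = 0) :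
    ∃ (x₁ y₁ x₂ y₂ : K) (h₁ : W.toAffine.Nonsingular x₁ y₁) (h₂ : W.toAffine.Nonsingular x₂ y₂),
      P = Point.some x₁ y₁ h₁ ∧ (2 : ℕ) • P = Point.some x₂ y₂ h₂ ∧
      (x₂ - x₁) * ff W x₁ = - p3 W x₁ ∧ (x₁ - x₂) * ff W x₂ = - p3 W x₂ ∧
      x₁ ≠ x₂ ∧ ff W x₁ ≠ 0 ∧ ff W x₂ ≠ 0 ∧ p3 W x₁ ≠ 0 ∧ p5 W x₁ = 0 := by
  rcases P with _ | ⟨x₁, y₁, h₁⟩
  · exact absurd rfl hP
  set P := Point.some x₁ y₁ h₁ with hPdef
  have h2ne : (2 : ℕ) • P ≠ 0 := by
    intro h2
    apply hP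
    have e : P = (5 : ℕ) • P - (2 : ℕ) • ((2 : ℕ) • P) := by
      rw [← mul_nsmul, show (5 : ℕ) = 2 * 2 + 1 from rfl, add_nsmul, one_nsmul]; abel
    rw [e, h5, h2, smul_zero, sub_zero]
  have hf1 : ff W x₁ ≠ 0 := fun hf => h2ne ((two_nsmul_some_eq_zero_iff h₁).mpr hf)
  obtain ⟨x₂, y₂, h₂, he2, hx2⟩ := two_nsmul_some_of_ff_ne h₁ hf1
  have h4 : (2 : ℕ) • ((2 : ℕ) • P) = - P := by
    rw [eq_neg_iff_add_eq_zero, ← h5, ← mul_nsmul, show (5 : ℕ) = 2 * 2 + 1 from rfl, add_nsmul,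
      one_nsmul]
  have h4ne : (2 : ℕ) • ((2 : ℕ) • P) ≠ 0 := by
    rw [h4]; exact neg_ne_zero.mpr hP
  have hf2 : ff W x₂ ≠ 0 := fun hf => h4ne (by
    rw [he2]; exact (two_nsmul_some_eq_zero_iff h₂).mpr hf)
  obtain ⟨x₄, y₄, h₄, he4, hx4⟩ := two_nsmul_some_of_ff_ne h₂ hf2
  have hx41 : x₄ = x₁ := by
    refine (Point.X_eq_iff (h₁ := h₄) (h₂ := h₁)).mpr (Or.inr ?_)
    rw [← he4, ← he2, h4]
  rw [hx41] at hx4
  have hne : x₁ ≠ x₂ := by
    intro hxx
    rcases (Point.X_eq_iff (h₁ := h₁) (h₂ := h₂)).mp hxx with h1 | h1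
    · rw [← he2, two_nsmul] at h1
      exact hP (by simpa using h1.symm)
    · -- `P = -2P`, so `3P = 0`, hence `P = 2*3P - 5P = 0`
      rw [← he2] at h1
      have h3 : (3 : ℕ) • P = 0 := by
        have h1' : P = -((2 : ℕ) • P) := h1
        rw [show (3 : ℕ) = 2 + 1 from rfl, add_nsmul, one_nsmul]
        nth_rewrite 2 [h1']
        abel
      apply hP
      have e : P = (2 : ℕ) • ((3 : ℕ) • P) - (5 : ℕ) • P := by
        rw [← mul_nsmul, show (3 * 2 : ℕ) = 5 + 1 from rfl, add_nsmul, one_nsmul]; abel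
      rw [e, h5, h3, smul_zero, sub_zero]
  have hp3 : p3 W x₁ ≠ 0 := by
    intro h0
    rw [h0, neg_zero] at hx2
    rcases mul_eq_zero.mp hx2 with h | h
    · exact hne (sub_eq_zero.mp h).symm
    · exact hf1 h
  have hp5 : p5 W x₁ = 0 := by
    have := p3_dup W hx2
    have h0 : p3 W x₂ + (x₁ - x₂) * ff W x₂ = 0 := by rw [hx4]; ring
    rw [h0, zero_mul] at this
    exact (mul_eq_zero.mp this.symm).resolve_left hp3
  exact ⟨x₁, y₁, x₂, y₂, h₁, h₂, rfl, he2, hx2, hx4, hne, hf1, hf2, hp3, hp5⟩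

end Fermat.Agent.S51.T5
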