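import Mathlib
import Fermat.Agent.S51.T5Tors

set_option autoImplicit false

/-!
# S51 helper: existence and counting of 3- and 5-torsion points
-/

namespace Fermat.Agent.S51.T5

open WeierstrassCurve WeierstrassCurve.Affine Polynomial

variable {K : Type*} [Field K] {W : WeierstrassCurve K}

theorem eval_Ψ₃ (x : K) : (W.Ψ₃).eval x = p3 W x := by
  simp [WeierstrassCurve.Ψ₃, p3]

theorem eval_Ψ₂Sq (x : K) : (W.Ψ₂Sq).eval x = ff W x := by
  simp [WeierstrassCurve.Ψ₂Sq, ff]

theorem eval_preΨ₄ (x : K) : (W.preΨ₄).eval x = pre4 W x := by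
  simp [WeierstrassCurve.preΨ₄, pre4]

theorem preΨ'_five : W.preΨ' 5 = W.preΨ₄ * W.Ψ₂Sq ^ 2 - W.Ψ₃ ^ 3 := by
  have := W.preΨ'_odd 0
  simpa using this

theorem eval_preΨ'_five (x : K) : (W.preΨ' 5).eval x = p5 W x := by
  rw [preΨ'_five]
  simp [eval_Ψ₃, eval_Ψ₂Sq, eval_preΨ₄, p5]

theorem exists_nonsingular [IsAlgClosed K] [CharZero K] (hΔ : W.Δ ≠ 0) (x : K) :
    ∃ y : K, W.toAffine.Nonsingular x y := by
  obtain ⟨s, hs⟩ := IsAlgClosed.exists_pow_nat_eq (ff W x) (n := 2) (by norm_num)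
  refine ⟨(s - W.a₁ * x - W.a₃) / 2, (equation_iff_nonsingular_of_Δ_ne_zero hΔ).mp ?_⟩
  rw [Affine.equation_iff]
  simp only [ff, WeierstrassCurve.b₂, WeierstrassCurve.b₄, WeierstrassCurve.b₆] at hs
  field_simp
  linear_combination hs

variable [DecidableEq K]

theorem exists_three_torsion [IsAlgClosed K] [CharZero K] (hΔ : W.Δ ≠ 0) :
    ∃ P : W.toAffine.Point, P ≠ 0 ∧ (3 : ℕ) • P = 0 := by
  have hdeg : (W.Ψ₃).degree ≠ 0 := by
    have h3 : (3 : K) ≠ 0 := by norm_num
    rw [Polynomial.degree_eq_natDegree (W.Ψ₃_ne_zero h3), W.natDegree_Ψ₃ h3]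
    norm_num
  obtain ⟨x, hx⟩ := IsAlgClosed.exists_root _ hdeg
  rw [IsRoot.def, eval_Ψ₃] at hx
  obtain ⟨y, hy⟩ := exists_nonsingular hΔ x
  exact ⟨Point.some x y hy, Point.some_ne_zero hy, (three_nsmul_some_eq_zero_iff hΔ hy).mpr hx⟩

theorem exists_five_torsion [IsAlgClosed K] [CharZero K] (hΔ : W.Δ ≠ 0) :
    ∃ P : W.toAffine.Point, P ≠ 0 ∧ (5 : ℕ) • P = 0 := by
  have h5 : ((5 : ℕ) : K) ≠ 0 := by norm_num
  have hdeg : (W.preΨ' 5).degree ≠ 0 := by
    rw [Polynomial.degree_eq_natDegree (W.preΨ'_ne_zero h5), W.natDegree_preΨ' h5]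
    norm_num
  obtain ⟨x₁, hx⟩ := IsAlgClosed.exists_root _ hdeg
  rw [IsRoot.def, eval_preΨ'_five] at hx
  obtain ⟨y₁, h₁⟩ := exists_nonsingular hΔ x₁
  -- `ff x₁ ≠ 0`
  have hf1 : ff W x₁ ≠ 0 := by
    intro hf
    have h3 : p3 W x₁ = 0 := by
      rw [p5, hf] at hx
      have : p3 W x₁ ^ 3 = 0 := by linear_combination -hx
      exact pow_eq_zero_iff (three_ne_zero) |>.mp this
    rcases ff_ne_zero_or_p3_ne_zero W hΔ x₁ with h | h
    · exact h hf
    · exact h h3
  obtain ⟨x₂, y₂, h₂, he2, hx2⟩ := two_nsmul_some_of_ff_ne h₁ hf1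
  have hd := ff_dup W hx2
  -- `p3 x₁ ≠ 0`
  have hp3 : p3 W x₁ ≠ 0 := by
    intro h3
    have hxx : x₂ = x₁ := by
      rw [h3, neg_zero] at hx2
      exact sub_eq_zero.mp ((mul_eq_zero.mp hx2).resolve_right hf1)
    have h4 : pre4 W x₁ = 0 := by
      rw [p5, h3] at hx
      have : pre4 W x₁ * ff W x₁ ^ 2 = 0 := by linear_combination hx
      exact (mul_eq_zero.mp this).resolve_right (pow_ne_zero 2 hf1)
    rw [hxx, h4] at hd
    have : ff W x₁ ^ 4 = 0 := by linear_combination hd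
    exact hf1 (pow_eq_zero_iff (four_ne_zero) |>.mp this)
  -- `ff x₂ ≠ 0`
  have hf2 : ff W x₂ ≠ 0 := by
    intro hf
    rw [hf, zero_mul] at hd
    have h4 : pre4 W x₁ = 0 := pow_eq_zero_iff (two_ne_zero) |>.mp hd.symm
    rw [p5, h4] at hx
    have : p3 W x₁ ^ 3 = 0 := by linear_combination -hx
    exact hp3 (pow_eq_zero_iff (three_ne_zero) |>.mp this)
  obtain ⟨x₄, y₄, h₄, he4, hx4⟩ := two_nsmul_some_of_ff_ne h₂ hf2
  have hx41 : x₄ = x₁ := by
    have h := p3_dup W hx2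
    rw [hx, mul_zero] at h
    have h0 : p3 W x₂ + (x₁ - x₂) * ff W x₂ = 0 :=
      (mul_eq_zero.mp h).resolve_right (pow_ne_zero 4 hf1)
    have : (x₄ - x₁) * ff W x₂ = 0 := by linear_combination hx4 - h0
    exact sub_eq_zero.mp ((mul_eq_zero.mp this).resolve_right hf2)
  set P := Point.some x₁ y₁ h₁ with hPdef
  have hP : P ≠ 0 := Point.some_ne_zero h₁
  refine ⟨P, hP, ?_⟩
  have h4P : (4 : ℕ) • P = Point.some x₄ y₄ h₄ := by
    rw [← he4, ← he2, ← mul_nsmul]
  rcases (Point.X_eq_iff (h₁ := h₄) (h₂ := h₁)).mp hx41 with h | h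
  · -- `4P = P`, so `3P = 0`, contradiction with `p3 x₁ ≠ 0`
    exfalso
    apply hp3
    apply (three_nsmul_some_eq_zero_iff hΔ h₁).mp
    rw [← h4P] at h
    have h' : (4 : ℕ) • P = P := h
    have e : (3 : ℕ) • P = (4 : ℕ) • P - P := by
      rw [show (4 : ℕ) = 3 + 1 from rfl, add_nsmul, one_nsmul]; abel
    show (3 : ℕ) • P = 0
    rw [e, h', sub_self]
  · rw [← h4P] at h
    have h' : (4 : ℕ) • P = - P := h
    rw [show (5 : ℕ) = 4 + 1 from rfl, add_nsmul, one_nsmul, h', neg_add_cancel]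

end Fermat.Agent.S51.T5

namespace Fermat.Agent.S51.T5

open WeierstrassCurve WeierstrassCurve.Affine Polynomial

variable {K : Type*} [Field K] [DecidableEq K] {W : WeierstrassCurve K}

open Classical in
/-- A set of points whose `x`-coordinates are roots of a nonzero polynomial `p` is contained in a
finset with at most `2 * deg p + 1` elements. -/
theorem exists_finset_of_roots (p : K[X]) (T : Set W.toAffine.Point)
    (hp : p ≠ 0)
    (hT : ∀ (x y : K) (h : W.toAffine.Nonsingular x y), Point.some x y h ∈ T → p.eval x = 0) :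
    ∃ S : Finset W.toAffine.Point, S.card ≤ 2 * p.natDegree + 1 ∧ ∀ P ∈ T, P ∈ S := by
  let Pt : K → W.toAffine.Point := fun x =>
    if h : ∃ y, W.toAffine.Nonsingular x y then Point.some x h.choose h.choose_spec else 0
  refine ⟨insert 0 (p.roots.toFinset.image Pt ∪ p.roots.toFinset.image (fun x => - Pt x)), ?_, ?_⟩
  · have h1 : p.roots.toFinset.card ≤ p.natDegree :=
      (Multiset.toFinset_card_le _).trans (Polynomial.card_roots' p)
    calc _ ≤ (p.roots.toFinset.image Pt ∪ p.roots.toFinset.image (fun x => - Pt x)).card + 1 :=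
          Finset.card_insert_le _ _
      _ ≤ ((p.roots.toFinset.image Pt).card + (p.roots.toFinset.image (fun x => - Pt x)).card) + 1 :=
          Nat.add_le_add_right (Finset.card_union_le _ _) 1
      _ ≤ (p.natDegree + p.natDegree) + 1 :=
          Nat.add_le_add_right (Nat.add_le_add (Finset.card_image_le.trans h1)
            (Finset.card_image_le.trans h1)) 1
      _ = 2 * p.natDegree + 1 := by ring
  · rintro (_ | ⟨x, y, h⟩) hP
    · exact Finset.mem_insert_self _ _
    · have hx : x ∈ p.roots.toFinset := by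
        rw [Multiset.mem_toFinset, Polynomial.mem_roots hp]
        exact hT x y h hP
      have hex : ∃ y, W.toAffine.Nonsingular x y := ⟨y, h⟩
      have hPt : Pt x = Point.some x hex.choose hex.choose_spec := dif_pos hex
      apply Finset.mem_insert_of_mem
      rw [Finset.mem_union]
      rcases (Point.X_eq_iff (h₁ := h) (h₂ := hex.choose_spec)).mp rfl with h1 | h1
      · left
        exact Finset.mem_image.mpr ⟨x, hx, by rw [hPt, h1]⟩
      · right
        exact Finset.mem_image.mpr ⟨x, hx, by rw [hPt, h1]⟩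

theorem card_torsionBy_le_of_finset {n : ℤ} {c : ℕ} (S : Finset W.toAffine.Point)
    (hS : S.card ≤ c) (hmem : ∀ P : W.toAffine.Point, n • P = 0 → P ∈ S) :
    Finite (Submodule.torsionBy ℤ W.toAffine.Point n) ∧
      Nat.card (Submodule.torsionBy ℤ W.toAffine.Point n) ≤ c := by
  have hinj : Function.Injective
      (fun P : Submodule.torsionBy ℤ W.toAffine.Point n =>
        (⟨P.1, hmem P.1 ((Submodule.mem_torsionBy_iff _ _).mp P.2)⟩ : S)) := by
    intro P Q h
    exact Subtype.ext (congrArg (fun z : S => (z : W.toAffine.Point)) h)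
  refine ⟨Finite.of_injective _ hinj, ?_⟩
  calc Nat.card (Submodule.torsionBy ℤ W.toAffine.Point n) ≤ Nat.card S :=
        Nat.card_le_card_of_injective _ hinj
    _ = S.card := by simp
    _ ≤ c := hS

theorem card_three_torsion_le [CharZero K] (hΔ : W.Δ ≠ 0) :
    Finite (Submodule.torsionBy ℤ W.toAffine.Point ((3 : ℕ) : ℤ)) ∧
      Nat.card (Submodule.torsionBy ℤ W.toAffine.Point ((3 : ℕ) : ℤ)) ≤ 9 := by
  have h3 : (3 : K) ≠ 0 := by norm_num
  obtain ⟨S, hS, hmem⟩ := exists_finset_of_roots (W := W) W.Ψ₃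
    {P | (3 : ℕ) • P = 0} (W.Ψ₃_ne_zero h3) (by
      intro x y h hP
      rw [eval_Ψ₃]
      exact (three_nsmul_some_eq_zero_iff hΔ h).mp hP)
  refine card_torsionBy_le_of_finset S (hS.trans ?_) (fun P hP => hmem P ?_)
  · have := W.natDegree_Ψ₃_le
    omega
  · show (3 : ℕ) • P = 0
    rw [← natCast_zsmul]; exact hP

theorem card_five_torsion_le [CharZero K] :
    Finite (Submodule.torsionBy ℤ W.toAffine.Point ((5 : ℕ) : ℤ)) ∧
      Nat.card (Submodule.torsionBy ℤ W.toAffine.Point ((5 : ℕ) : ℤ)) ≤ 25 := by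
  have h5 : ((5 : ℕ) : K) ≠ 0 := by norm_num
  obtain ⟨S, hS, hmem⟩ := exists_finset_of_roots (W := W) (W.preΨ' 5)
    {P | (5 : ℕ) • P = 0} (W.preΨ'_ne_zero h5) (by
      intro x y h hP
      rw [eval_preΨ'_five]
      obtain ⟨x₁, y₁, x₂, y₂, h₁, h₂, he, -, -, -, -, -, -, -, hp5⟩ :=
        five_torsion_data (Point.some_ne_zero h) hP
      have : x = x₁ := by
        injection he
      rw [this]; exact hp5)
  refine card_torsionBy_le_of_finset S (hS.trans ?_) (fun P hP => hmem P ?_)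
  · have := W.natDegree_preΨ'_le 5
    have h12 : (5 ^ 2 - if Even 5 then 4 else 1) / 2 = 12 := by
      rw [if_neg (by decide)]; norm_num
    rw [h12] at this
    omega
  · show (5 : ℕ) • P = 0
    rw [← natCast_zsmul]; exact hP

end Fermat.Agent.S51.T5
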