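import Mathlib
import Fermat.Agent.S51.Basic
import Fermat.Agent.S51.T5Count

set_option autoImplicit false

/-!
# S51: the 5-torsion package (interface in the notation of `Basic.lean`)
-/

namespace Fermat.Agent.S51

open WeierstrassCurve WeierstrassCurve.Affine

/-- In a `ZMod p`-vector space with at most `p ^ 2` elements, a proper subspace containing a
nonzero vector `v` consists of the multiples of `v`. -/
theorem zmod_line {p : ℕ} [Fact p.Prime] {V : Type*} [AddCommGroup V] [Module (ZMod p) V]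
    [Finite V] (hcard : Nat.card V ≤ p ^ 2) (N : Submodule (ZMod p) V) (htop : N ≠ ⊤)
    {v : V} (hv : v ∈ N) (hv0 : v ≠ 0) : ∀ w ∈ N, ∃ c : ℕ, c < p ∧ w = c • v := by
  have hp : p.Prime := Fact.out
  have : Module.Finite (ZMod p) V := Module.Finite.of_finite
  have h1 : Nat.card V = p ^ Module.finrank (ZMod p) V := by
    have := Module.natCard_eq_pow_finrank (K := ZMod p) (V := V)
    rwa [Nat.card_zmod] at this
  have h2 : Module.finrank (ZMod p) V ≤ 2 := by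
    rw [h1] at hcard
    exact (Nat.pow_le_pow_iff_right hp.one_lt).mp hcard
  have h3 : Module.finrank (ZMod p) N < Module.finrank (ZMod p) V := Submodule.finrank_lt htop
  have h4 : 0 < Module.finrank (ZMod p) N := by
    have : Nontrivial N := ⟨⟨⟨v, hv⟩, 0, fun h => hv0 (congrArg Subtype.val h)⟩⟩
    exact Module.finrank_pos
  have h5 : Module.finrank (ZMod p) N = 1 := by omega
  intro w hw
  have hv' : (⟨v, hv⟩ : N) ≠ 0 := fun h => hv0 (congrArg Subtype.val h)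
  obtain ⟨c, hc⟩ := (finrank_eq_one_iff_of_nonzero' (⟨v, hv⟩ : N) hv').mp h5 ⟨w, hw⟩
  have : NeZero p := ⟨hp.ne_zero⟩
  refine ⟨c.val, ZMod.val_lt c, ?_⟩
  have hc' : c • v = w := congrArg Subtype.val hc
  rw [← hc', ← Nat.cast_smul_eq_nsmul (ZMod p), ZMod.natCast_zmod_val]

variable {K : Type*} [Field K] [DecidableEq K]

/-- The data attached to a nonzero `5`-torsion point. -/
theorem five_torsion_data (W : Affine K) {P : W.Point} (hP : P ≠ 0) (h5 : (5 : ℕ) • P = 0) :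
    ∃ (x₁ y₁ x₂ y₂ : K) (h₁ : W.Nonsingular x₁ y₁) (h₂ : W.Nonsingular x₂ y₂),
      P = Point.some x₁ y₁ h₁ ∧ (2 : ℕ) • P = Point.some x₂ y₂ h₂ ∧
      (x₂ - x₁) * ff W x₁ = - psi3 W x₁ ∧ (x₁ - x₂) * ff W x₂ = - psi3 W x₂ ∧
      x₁ ≠ x₂ ∧ ff W x₁ ≠ 0 ∧ ff W x₂ ≠ 0 := by
  obtain ⟨x₁, y₁, x₂, y₂, h₁, h₂, e1, e2, H1, H2, hne, hf1, hf2, -, -⟩ :=
    T5.five_torsion_data (W := W) hP h5
  exact ⟨x₁, y₁, x₂, y₂, h₁, h₂, e1, e2, H1, H2, hne, hf1, hf2⟩

theorem exists_five_torsion (W : Affine K) [IsAlgClosed K] [CharZero K] (hΔ : W.Δ ≠ 0) :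
    ∃ P : W.Point, P ≠ 0 ∧ (5 : ℕ) • P = 0 :=
  T5.exists_five_torsion (W := W) hΔ

theorem card_five_torsion_le (W : Affine K) [CharZero K] :
    Finite (Submodule.torsionBy ℤ W.Point ((5 : ℕ) : ℤ)) ∧
      Nat.card (Submodule.torsionBy ℤ W.Point ((5 : ℕ) : ℤ)) ≤ 25 :=
  T5.card_five_torsion_le (W := W)

/-- A proper subgroup of the `5`-torsion containing a nonzero point `P` is `{0, ±P, ±2P}`. -/
theorem five_line (W : Affine K) [CharZero K] (H : AddSubgroup W.Point)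
    (hH : ∀ Q ∈ H, (5 : ℕ) • Q = 0) (R : W.Point) (hR : (5 : ℕ) • R = 0) (hRH : R ∉ H)
    (P : W.Point) (hP : P ∈ H) (hP0 : P ≠ 0) :
    ∀ Q ∈ H, Q = 0 ∨ Q = P ∨ Q = -P ∨ Q = (2 : ℕ) • P ∨ Q = -((2 : ℕ) • P) := by
  have : Fact (Nat.Prime 5) := ⟨by norm_num⟩
  obtain ⟨hfin, hcard⟩ := card_five_torsion_le W
  set V := Submodule.torsionBy ℤ W.Point ((5 : ℕ) : ℤ) with hV
  have hmem : ∀ Q : W.Point, (5 : ℕ) • Q = 0 → Q ∈ V := fun Q hQ => by
    rw [hV, Submodule.mem_torsionBy_iff, natCast_zsmul]; exact hQ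
  let _ : Module (ZMod 5) V := AddCommGroup.zmodModule fun x => by
    rw [← Nat.cast_smul_eq_nsmul ℤ 5 x]
    exact Submodule.smul_torsionBy _ x
  let N : Submodule (ZMod 5) V :=
    AddSubgroup.toZModSubmodule 5 (H.comap V.subtype.toAddMonoidHom)
  have hN : ∀ x : V, x ∈ N ↔ (x : W.Point) ∈ H := fun x => Iff.rfl
  have htop : N ≠ ⊤ := by
    intro h
    have : (⟨R, hmem R hR⟩ : V) ∈ N := h ▸ Submodule.mem_top
    exact hRH ((hN _).mp this)
  intro Q hQ
  obtain ⟨c, hc, hcQ⟩ := zmod_line (p := 5) (by simpa using hcard) N htop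
    (v := ⟨P, hmem P (hH P hP)⟩) ((hN _).mpr hP) (fun h => hP0 (congrArg Subtype.val h))
    ⟨Q, hmem Q (hH Q hQ)⟩ ((hN _).mpr hQ)
  have hcQ' : Q = c • P := congrArg Subtype.val hcQ
  have h5 := hH P hP
  interval_cases c
  · left; rw [hcQ', zero_nsmul]
  · right; left; rw [hcQ', one_nsmul]
  · right; right; right; left; exact hcQ'
  · right; right; right; right
    rw [hcQ', eq_neg_iff_add_eq_zero, ← add_nsmul]; exact h5
  · right; right; left
    rw [hcQ', eq_neg_iff_add_eq_zero]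
    nth_rewrite 2 [← one_nsmul P]
    rw [← add_nsmul]; exact h5

end Fermat.Agent.S51
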