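import Fermat.Agent.S51.Basic

/-!
# S51: the 3-torsion of a Weierstrass curve over a field
-/

set_option autoImplicit false
set_option linter.unusedSectionVars false

namespace Fermat.Agent.S51

open WeierstrassCurve WeierstrassCurve.Affine Polynomial

variable {K : Type*} [Field K] [DecidableEq K]

/-- the x-coordinate of a point (junk value `0` at the origin). -/
def xc {W : Affine K} : W.Point → K
  | .zero => 0
  | .some x _ _ => x

@[simp] theorem xc_some {W : Affine K} {x y : K} (h : W.Nonsingular x y) :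
    xc (Point.some x y h) = x := rfl

theorem xc_neg {W : Affine K} (P : W.Point) : xc (-P) = xc P := by
  cases P <;> rfl

theorem eq_or_eq_neg_of_xc_eq {W : Affine K} {P Q : W.Point} (hP : P ≠ 0) (hQ : Q ≠ 0)
    (h : xc P = xc Q) : P = Q ∨ P = -Q := by
  match P, Q with
  | .zero, _ => exact absurd rfl hP
  | _, .zero => exact absurd rfl hQ
  | .some x₁ y₁ h₁, .some x₂ y₂ h₂ => exact Point.X_eq_iff.mp h

theorem three_torsion_data {W : Affine K} {P : W.Point} (hP : P ≠ 0) (h3 : (3 : ℕ) • P = 0) :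
    ∃ (x y : K) (h : W.Nonsingular x y), P = Point.some x y h ∧ psi3 W x = 0 ∧ ff W x ≠ 0 := by
  match P, hP, h3 with
  | .zero, hP, _ => exact absurd rfl hP
  | .some x y h, hP, h3 =>
    have h2 : (2 : ℕ) • Point.some x y h = - Point.some x y h := by
      rw [eq_neg_iff_add_eq_zero, ← succ_nsmul]; exact h3
    have hf : ff W x ≠ 0 := by
      intro h0
      have := (two_nsmul_some_eq_zero_iff W h).mpr h0
      rw [this] at h2
      exact hP (neg_eq_zero.mp h2.symm)
    have hy := (ff_ne_zero_iff W h.1).mp hf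
    obtain ⟨x', y', h', e, hx⟩ := two_nsmul_some W h hy
    rw [e, Point.neg_some] at h2
    have hxx : x' = x := (Point.some.inj h2).1
    rw [hxx, sub_self, zero_mul] at hx
    exact ⟨x, y, h, rfl, by simpa using hx.symm, hf⟩

theorem psi3_xc_eq_zero {W : Affine K} {P : W.Point} (hP : P ≠ 0) (h3 : (3 : ℕ) • P = 0) :
    psi3 W (xc P) = 0 := by
  obtain ⟨x, y, h, rfl, h0, -⟩ := three_torsion_data hP h3
  exact h0

/-- the polynomial `psi3`. -/
noncomputable def psi3Poly (W : Affine K) : K[X] :=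
  C 3 * X ^ 4 + C W.b₂ * X ^ 3 + C (3 * W.b₄) * X ^ 2 + C (3 * W.b₆) * X + C W.b₈

theorem psi3Poly_eval (W : Affine K) (x : K) : (psi3Poly W).eval x = psi3 W x := by
  simp only [psi3Poly, psi3, psi3B, eval_add, eval_mul, eval_C, eval_pow, eval_X]

theorem psi3Poly_natDegree (W : Affine K) (h3 : (3 : K) ≠ 0) : (psi3Poly W).natDegree = 4 := by
  unfold psi3Poly
  compute_degree!

theorem psi3Poly_ne_zero (W : Affine K) (h3 : (3 : K) ≠ 0) : psi3Poly W ≠ 0 := by
  intro h
  have := psi3Poly_natDegree W h3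
  rw [h] at this
  simp at this

theorem three_line {W : Affine K} (h3K : (3 : K) ≠ 0) (H : AddSubgroup W.Point)
    (hH : ∀ Q ∈ H, (3 : ℕ) • Q = 0) (R : W.Point) (hR : (3 : ℕ) • R = 0) (hRH : R ∉ H)
    (P : W.Point) (hP : P ∈ H) (hP0 : P ≠ 0) :
    ∀ Q ∈ H, Q = 0 ∨ Q = P ∨ Q = -P := by
  intro Q hQ
  by_contra hcon
  simp only [not_or] at hcon
  obtain ⟨hQ0, hQP, hQnP⟩ := hcon
  have h3P := hH P hP
  have h3Q := hH Q hQ
  have hR0 : R ≠ 0 := fun h => hRH (h ▸ H.zero_mem)
  -- two-divisibility facts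
  have two_ne : ∀ S : W.Point, (3 : ℕ) • S = 0 → (2 : ℕ) • S = 0 → S = 0 := by
    intro S h3 h2
    have : (3 : ℕ) • S = (2 : ℕ) • S + S := succ_nsmul S 2
    rw [h3, h2, zero_add] at this
    exact this.symm
  have neg_two : ∀ S : W.Point, (3 : ℕ) • S = 0 → (2 : ℕ) • S = -S := by
    intro S h3
    rw [eq_neg_iff_add_eq_zero, ← succ_nsmul]; exact h3
  have hPQ : P + Q ∈ H := H.add_mem hP hQ
  have hPmQ : P - Q ∈ H := H.sub_mem hP hQ
  have hPQ0 : P + Q ≠ 0 := fun h => hQnP (by rw [eq_neg_iff_add_eq_zero, add_comm]; exact h)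
  have hPmQ0 : P - Q ≠ 0 := fun h => hQP (sub_eq_zero.mp h).symm
  -- the five x-coordinates are roots
  have hroot : ∀ S : W.Point, S ≠ 0 → (3 : ℕ) • S = 0 → xc S ∈ (psi3Poly W).roots.toFinset := by
    intro S hS h3S
    rw [Multiset.mem_toFinset, mem_roots (psi3Poly_ne_zero W h3K), IsRoot.def, psi3Poly_eval]
    exact psi3_xc_eq_zero hS h3S
  have hcard : (psi3Poly W).roots.toFinset.card ≤ 4 := by
    calc (psi3Poly W).roots.toFinset.card ≤ Multiset.card (psi3Poly W).roots :=
          Multiset.toFinset_card_le _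
      _ ≤ (psi3Poly W).natDegree := card_roots' _
      _ = 4 := psi3Poly_natDegree W h3K
  -- pairwise distinctness
  have d1 : xc P ≠ xc Q := by
    intro h
    rcases eq_or_eq_neg_of_xc_eq hP0 hQ0 h with h | h
    · exact hQP h.symm
    · exact hQnP (by rw [h, neg_neg])
  have d2 : xc P ≠ xc (P + Q) := by
    intro h
    rcases eq_or_eq_neg_of_xc_eq hP0 hPQ0 h with h | h
    · exact hQ0 (by simpa using h.symm)
    · apply hQP
      have e : Q = -((2 : ℕ) • P) := by
        rw [two_nsmul]
        have : P + (P + Q) = 0 := by rw [eq_neg_iff_add_eq_zero] at h; exact h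
        rw [eq_neg_iff_add_eq_zero]
        rw [← this]; abel
      rw [e, neg_two P h3P, neg_neg]
  have d3 : xc P ≠ xc (P - Q) := by
    intro h
    rcases eq_or_eq_neg_of_xc_eq hP0 hPmQ0 h with h | h
    · exact hQ0 (by simpa using h.symm)
    · apply hQnP
      have e : Q = (2 : ℕ) • P := by
        rw [two_nsmul]
        have : P + (P - Q) = 0 := by rw [eq_neg_iff_add_eq_zero] at h; exact h
        rw [← sub_eq_zero, ← neg_eq_zero, ← this]; abel
      rw [e, neg_two P h3P]
  have d4 : xc Q ≠ xc (P + Q) := by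
    intro h
    rcases eq_or_eq_neg_of_xc_eq hQ0 hPQ0 h with h | h
    · exact hP0 (by simpa using h.symm)
    · apply hQP
      have e : P = -((2 : ℕ) • Q) := by
        rw [two_nsmul]
        have : Q + (P + Q) = 0 := by rw [eq_neg_iff_add_eq_zero] at h; exact h
        rw [eq_neg_iff_add_eq_zero]
        rw [← this]; abel
      rw [e, neg_two Q h3Q, neg_neg]
  have d5 : xc Q ≠ xc (P - Q) := by
    intro h
    rcases eq_or_eq_neg_of_xc_eq hQ0 hPmQ0 h with h | h
    · apply hQnP
      have e : P = (2 : ℕ) • Q := by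
        rw [two_nsmul]
        have : Q = P - Q := h
        rw [eq_sub_iff_add_eq] at this
        exact this.symm
      rw [e, neg_two Q h3Q, neg_neg]
    · apply hP0
      have : Q + (P - Q) = 0 := by rw [eq_neg_iff_add_eq_zero] at h; exact h
      simpa using this
  have d6 : xc (P + Q) ≠ xc (P - Q) := by
    intro h
    rcases eq_or_eq_neg_of_xc_eq hPQ0 hPmQ0 h with h | h
    · apply hQ0
      apply two_ne Q h3Q
      rw [two_nsmul]
      have : P + Q - (P - Q) = 0 := sub_eq_zero.mpr h
      rw [← this]; abel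
    · apply hP0
      apply two_ne P h3P
      rw [two_nsmul]
      have : P + Q + (P - Q) = 0 := by rw [eq_neg_iff_add_eq_zero] at h; exact h
      rw [← this]; abel
  have dR : ∀ S ∈ H, S ≠ 0 → xc S ≠ xc R := by
    intro S hS hS0 h
    rcases eq_or_eq_neg_of_xc_eq hS0 hR0 h with h | h
    · exact hRH (h ▸ hS)
    · exact hRH (by have := H.neg_mem hS; rw [h, neg_neg] at this; exact this)
  have hsub : ({xc P, xc Q, xc (P + Q), xc (P - Q), xc R} : Finset K) ⊆
      (psi3Poly W).roots.toFinset := by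
    intro z hz
    simp only [Finset.mem_insert, Finset.mem_singleton] at hz
    rcases hz with rfl | rfl | rfl | rfl | rfl
    · exact hroot P hP0 h3P
    · exact hroot Q hQ0 h3Q
    · exact hroot _ hPQ0 (hH _ hPQ)
    · exact hroot _ hPmQ0 (hH _ hPmQ)
    · exact hroot R hR0 hR
  have hfive : ({xc P, xc Q, xc (P + Q), xc (P - Q), xc R} : Finset K).card = 5 := by
    rw [Finset.card_insert_of_notMem, Finset.card_insert_of_notMem, Finset.card_insert_of_notMem,
      Finset.card_insert_of_notMem, Finset.card_singleton]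
    · simp only [Finset.mem_singleton]; exact dR _ hPmQ hPmQ0
    · simp only [Finset.mem_insert, Finset.mem_singleton, not_or]
      exact ⟨d6, dR _ hPQ hPQ0⟩
    · simp only [Finset.mem_insert, Finset.mem_singleton, not_or]
      exact ⟨d4, d5, dR _ hQ hQ0⟩
    · simp only [Finset.mem_insert, Finset.mem_singleton, not_or]
      exact ⟨d1, d2, d3, dR _ hP hP0⟩
  have := Finset.card_le_card hsub
  omega

theorem exists_three_torsion {W : Affine K} [IsAlgClosed K] (h3K : (3 : K) ≠ 0) (hΔ : W.Δ ≠ 0) :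
    ∃ P : W.Point, P ≠ 0 ∧ (3 : ℕ) • P = 0 := by
  -- a root of psi3
  obtain ⟨x, hx⟩ := IsAlgClosed.exists_root (psi3Poly W) (by
    rw [degree_eq_natDegree (psi3Poly_ne_zero W h3K), psi3Poly_natDegree W h3K]; norm_num)
  rw [IsRoot.def, psi3Poly_eval] at hx
  -- a y-coordinate
  obtain ⟨y, hy⟩ := IsAlgClosed.exists_root
    (X ^ 2 + C (W.a₁ * x + W.a₃) * X - C (x ^ 3 + W.a₂ * x ^ 2 + W.a₄ * x + W.a₆) : K[X]) (by
      have : (X ^ 2 + C (W.a₁ * x + W.a₃) * X - C (x ^ 3 + W.a₂ * x ^ 2 + W.a₄ * x + W.a₆)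
          : K[X]).degree = 2 := by compute_degree!
      rw [this]; norm_num)
  simp only [IsRoot.def, eval_sub, eval_add, eval_mul, eval_C, eval_pow, eval_X] at hy
  have heq : W.Equation x y := by
    rw [Affine.equation_iff]; linear_combination hy
  have hns : W.Nonsingular x y := (W.equation_iff_nonsingular_of_Δ_ne_zero hΔ).mp heq
  have hyne : y ≠ W.negY x y := by
    intro hD
    have h2 := (Affine.nonsingular_iff _ _).mp hns
    rcases h2.2 with h | h
    · apply h
      have heq' := (Affine.equation_iff _ _).mp heq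
      have hD' : 2 * y + W.a₁ * x + W.a₃ = 0 := by
        rw [Affine.negY] at hD; linear_combination hD
      have hsq : (3 * x ^ 2 + 2 * W.a₂ * x + W.a₄ - W.a₁ * y) ^ 2 = 0 := by
        simp only [psi3, psi3B, WeierstrassCurve.b₂, WeierstrassCurve.b₄, WeierstrassCurve.b₆,
          WeierstrassCurve.b₈] at hx
        linear_combination (-W.a₁ ^ 2 - 4 * W.a₂ - 12 * x) * heq' - hx
          - (W.a₁ * (3 * x ^ 2 + 2 * W.a₂ * x + W.a₄ - W.a₁ * y)
              - (W.a₂ + 3 * x) * (2 * y + W.a₁ * x + W.a₃)) * hD'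
      have := pow_eq_zero_iff (two_ne_zero) |>.mp hsq
      linear_combination -this
    · exact h hD
  obtain ⟨x', y', h', e, hxx⟩ := two_nsmul_some W hns hyne
  have hf : ff W x ≠ 0 := (ff_ne_zero_iff W heq).mpr hyne
  rw [hx, neg_zero, mul_eq_zero] at hxx
  have hx' : x' = x := by
    rcases hxx with h | h
    · exact sub_eq_zero.mp h
    · exact absurd h hf
  refine ⟨Point.some x y hns, Point.some_ne_zero hns, ?_⟩
  rw [succ_nsmul, e]
  rcases (Point.X_eq_iff (h₁ := h') (h₂ := hns)).mp hx' with h | h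
  · exfalso
    rw [h] at e
    rw [two_nsmul] at e
    simp at e
  · rw [h]; simp

end Fermat.Agent.S51
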