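import Mathlib

set_option autoImplicit false

namespace Fermat.Agent.S51.D52

lemma dvd_eighty (k : ℤ) (h : k ∣ 80) :
    k = 1 ∨ k = 4 ∨ k = 16 ∨ k = -1 ∨ k = -4 ∨ k = -16 ∨ k = 5 ∨ k = 20 ∨ k = 80 ∨
    k = -5 ∨ k = -20 ∨ k = -80 ∨ k = 2 ∨ k = -2 ∨ k = 10 ∨ k = -10 ∨
    k = 8 ∨ k = -8 ∨ k = 40 ∨ k = -40 := by
  have h1 : k ≤ 80 := Int.le_of_dvd (by norm_num) h
  have h2 : -k ≤ 80 := Int.le_of_dvd (by norm_num) ((neg_dvd).mpr h)
  have h3 : -80 ≤ k := by omega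
  interval_cases k <;> first | omega | (exfalso; revert h; decide)

lemma sq_mod_four (x : ℤ) : (x % 2 = 0 ∧ x ^ 2 % 4 = 0) ∨ (x % 2 = 1 ∧ x ^ 2 % 4 = 1) := by
  rcases Int.even_or_odd' x with ⟨q, hq | hq⟩
  · left
    subst hq
    refine ⟨by omega, ?_⟩
    have : (2 * q) ^ 2 = 4 * q ^ 2 := by ring
    rw [this]; omega
  · right
    subst hq
    refine ⟨by omega, ?_⟩
    have : (2 * q + 1) ^ 2 = 4 * (q ^ 2 + q) + 1 := by ring
    rw [this]; omega

lemma not_both_even {x y : ℤ} (h : IsCoprime x y) : ¬ (x % 2 = 0 ∧ y % 2 = 0) := by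
  rintro ⟨hx, hy⟩
  have h2x : (2 : ℤ) ∣ x := Int.dvd_of_emod_eq_zero hx
  have h2y : (2 : ℤ) ∣ y := Int.dvd_of_emod_eq_zero hy
  have := h.isUnit_of_dvd' h2x h2y
  rw [Int.isUnit_iff] at this
  omega

lemma two_le_abs_mul (x y : ℤ) (hx : x ≠ 0) (hy : y ≠ 0) (hne : x ^ 2 ≠ y ^ 2) :
    2 ≤ |x| * |y| := by
  have hx1 := Int.one_le_abs hx
  have hy1 := Int.one_le_abs hy
  by_contra hlt
  rw [not_le] at hlt
  have h1 : |x| = 1 := by nlinarith
  have h2 : |y| = 1 := by nlinarith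
  apply hne
  rw [← sq_abs x, ← sq_abs y, h1, h2]

lemma size_aux (x y z : ℤ) (hx : 0 ≤ x) (hy : 2 ≤ y) (hz : 1 ≤ z) : 2 * x ≤ x * y * z := by
  have h1 : 0 ≤ x * (y - 2) := mul_nonneg hx (by linarith)
  have h2 : 0 ≤ (x * y) * (z - 1) := mul_nonneg (mul_nonneg hx (by linarith)) (by linarith)
  nlinarith


lemma parity_aux (A B C D a b c d : ℤ) (pα : a % 2 = 0 ∧ A % 4 = 0 ∨ a % 2 = 1 ∧ A % 4 = 1)
    (pβ : b % 2 = 0 ∧ B % 4 = 0 ∨ b % 2 = 1 ∧ B % 4 = 1)
    (pγ : c % 2 = 0 ∧ C % 4 = 0 ∨ c % 2 = 1 ∧ C % 4 = 1)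
    (pδ : d % 2 = 0 ∧ D % 4 = 0 ∨ d % 2 = 1 ∧ D % 4 = 1)
    (n1 : ¬ (a % 2 = 0 ∧ d % 2 = 0)) (n2 : ¬ (b % 2 = 0 ∧ c % 2 = 0)) (k : ℤ)
    (hk : k = 2 ∨ k = -2 ∨ k = 10 ∨ k = -10 ∨ k = 8 ∨ k = -8 ∨ k = 40 ∨ k = -40)
    (h1 : C - B = k * A) (h2 : C - 81 * B = k * D) : False := by
  rcases hk with rfl | rfl | rfl | rfl | rfl | rfl | rfl | rfl <;> omega

lemma core (α β γ δ k : ℤ) (hα : α ≠ 0) (hβ : β ≠ 0) (hγ : γ ≠ 0) (hδ : δ ≠ 0)
    (hαδ : IsCoprime α δ) (hβγ : IsCoprime β γ)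
    (h1 : γ ^ 2 - β ^ 2 = k * α ^ 2) (h2 : γ ^ 2 - 81 * β ^ 2 = k * δ ^ 2) :
    ∃ a' b' c' n' : ℤ, n' ≠ 0 ∧ 2 * |n'| ≤ |α * β * γ * δ| ∧ a' ^ 2 = b' ^ 2 + n' ^ 2 ∧
      a' ^ 2 = c' ^ 2 + 81 * n' ^ 2 := by
  have hβ2 : β ^ 2 ≠ 0 := pow_ne_zero 2 hβ
  have hα2 : α ^ 2 ≠ 0 := pow_ne_zero 2 hα
  have h3 : 80 * β ^ 2 = k * (α ^ 2 - δ ^ 2) := by linear_combination h1 - h2
  have h4 : 80 * γ ^ 2 = k * (81 * α ^ 2 - δ ^ 2) := by linear_combination 81 * h1 - h2
  have hk0 : k ≠ 0 := by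
    rintro rfl
    apply hβ2
    linarith
  have hk80 : k ∣ 80 := by
    obtain ⟨u, v, huv⟩ := (hβγ.pow (m := 2) (n := 2))
    have : (80 : ℤ) = k * (u * (α ^ 2 - δ ^ 2) + v * (81 * α ^ 2 - δ ^ 2)) := by
      linear_combination (-80) * huv + u * h3 + v * h4
    exact Dvd.intro _ this.symm
  have hαδne : α ^ 2 ≠ δ ^ 2 := by
    intro h
    apply hβ2
    rw [h] at h3
    linarith
  have hβγne : β ^ 2 ≠ γ ^ 2 := by
    intro h
    rw [h] at h1
    have : k * α ^ 2 = 0 := by linarith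
    exact (mul_ne_zero hk0 hα2) this
  have hAD := two_le_abs_mul α δ hα hδ hαδne
  have hBC := two_le_abs_mul β γ hβ hγ hβγne
  have hA := Int.one_le_abs hα
  have hB := Int.one_le_abs hβ
  have hC := Int.one_le_abs hγ
  have hD := Int.one_le_abs hδ
  have sβ : 2 * |β| ≤ |α * β * γ * δ| := by
    have := size_aux |β| (|α| * |δ|) |γ| (abs_nonneg _) hAD hC
    calc 2 * |β| ≤ |β| * (|α| * |δ|) * |γ| := this
      _ = |α * β * γ * δ| := by simp only [abs_mul]; ring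
  have sγ : 2 * |γ| ≤ |α * β * γ * δ| := by
    have := size_aux |γ| (|α| * |δ|) |β| (abs_nonneg _) hAD hB
    calc 2 * |γ| ≤ |γ| * (|α| * |δ|) * |β| := this
      _ = |α * β * γ * δ| := by simp only [abs_mul]; ring
  have sδ : 2 * |δ| ≤ |α * β * γ * δ| := by
    have := size_aux |δ| (|β| * |γ|) |α| (abs_nonneg _) hBC hA
    calc 2 * |δ| ≤ |δ| * (|β| * |γ|) * |α| := this
      _ = |α * β * γ * δ| := by simp only [abs_mul]; ring
  have sα : 2 * |α| ≤ |α * β * γ * δ| := by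
    have := size_aux |α| (|β| * |γ|) |δ| (abs_nonneg _) hBC hD
    calc 2 * |α| ≤ |α| * (|β| * |γ|) * |δ| := this
      _ = |α * β * γ * δ| := by simp only [abs_mul]; ring
  have pα := sq_mod_four α
  have pβ := sq_mod_four β
  have pγ := sq_mod_four γ
  have pδ := sq_mod_four δ
  have nαδ := not_both_even hαδ
  have nβγ := not_both_even hβγ
  rcases dvd_eighty k hk80 with rfl | rfl | rfl | rfl | rfl | rfl | rfl | rfl | rfl | rfl | rfl |
    rfl | rfl | rfl | rfl | rfl | rfl | rfl | rfl | rfl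
  · exact ⟨γ, α, δ, β, hβ, sβ, by linear_combination h1, by linear_combination h2⟩
  · exact ⟨γ, 2 * α, 2 * δ, β, hβ, sβ, by linear_combination h1, by linear_combination h2⟩
  · exact ⟨γ, 4 * α, 4 * δ, β, hβ, sβ, by linear_combination h1, by linear_combination h2⟩
  · exact ⟨9 * β, δ, 9 * α, γ, hγ, sγ, by linear_combination -h2, by linear_combination (-81) * h1⟩
  · exact ⟨9 * β, 2 * δ, 18 * α, γ, hγ, sγ, by linear_combination -h2,
      by linear_combination (-81) * h1⟩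
  · exact ⟨9 * β, 4 * δ, 36 * α, γ, hγ, sγ, by linear_combination -h2,
      by linear_combination (-81) * h1⟩
  · refine ⟨9 * α, 4 * γ, 36 * β, δ, hδ, sδ, ?_, ?_⟩ <;> linarith
  · refine ⟨9 * α, 2 * γ, 18 * β, δ, hδ, sδ, ?_, ?_⟩ <;> linarith
  · refine ⟨9 * α, γ, 9 * β, δ, hδ, sδ, ?_, ?_⟩ <;> linarith
  · refine ⟨δ, 4 * β, 4 * γ, α, hα, sα, ?_, ?_⟩ <;> linarith
  · refine ⟨δ, 2 * β, 2 * γ, α, hα, sα, ?_, ?_⟩ <;> linarith
  · refine ⟨δ, β, γ, α, hα, sα, ?_, ?_⟩ <;> linarith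
  all_goals exact (parity_aux _ _ _ _ _ _ _ _ pα pβ pγ pδ nαδ nβγ _ (by simp) h1 h2).elim


lemma key9 (r s t₁ u : ℤ) (hrs : r * s ≠ 0) (hcop : IsCoprime (9 * t₁) u) (hmul : t₁ * u = r * s)
    (hsq : r ^ 2 + s ^ 2 = (9 * t₁) ^ 2 + u ^ 2) :
    ∃ a' b' c' n' : ℤ, n' ≠ 0 ∧ 2 * |n'| ≤ |r * s| ∧ a' ^ 2 = b' ^ 2 + n' ^ 2 ∧
      a' ^ 2 = c' ^ 2 + 81 * n' ^ 2 := by
  have hr : r ≠ 0 := left_ne_zero_of_mul hrs
  have hs : s ≠ 0 := right_ne_zero_of_mul hrs
  have hdvd : r ∣ t₁ * u := ⟨s, hmul⟩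
  obtain ⟨α, γ, ⟨β, hβ⟩, ⟨δ, hδ⟩, hr'⟩ := exists_dvd_and_dvd_of_dvd_mul hdvd
  subst hβ hδ hr'
  have hα : α ≠ 0 := left_ne_zero_of_mul hr
  have hγ : γ ≠ 0 := right_ne_zero_of_mul hr
  have hs' : s = β * δ := by
    have : (α * γ) * s = (α * γ) * (β * δ) := by linear_combination -hmul
    exact mul_left_cancel₀ hr this
  subst hs'
  have hβ : β ≠ 0 := left_ne_zero_of_mul hs
  have hδ : δ ≠ 0 := right_ne_zero_of_mul hs
  have hc1 : IsCoprime (α * β) (γ * δ) := hcop.of_mul_left_right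
  have hαδ : IsCoprime α δ := hc1.of_mul_left_left.of_mul_right_right
  have hβγ : IsCoprime β γ := hc1.of_mul_left_right.of_mul_right_left
  have heq : α ^ 2 * (γ ^ 2 - 81 * β ^ 2) = δ ^ 2 * (γ ^ 2 - β ^ 2) := by
    linear_combination hsq
  have hdv : α ^ 2 ∣ γ ^ 2 - β ^ 2 := by
    have h1 : α ^ 2 ∣ δ ^ 2 * (γ ^ 2 - β ^ 2) := ⟨_, heq.symm⟩
    exact (hαδ.pow (m := 2) (n := 2)).dvd_of_dvd_mul_left h1
  obtain ⟨k, hk⟩ := hdv
  have h1 : γ ^ 2 - β ^ 2 = k * α ^ 2 := by rw [hk]; ring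
  have h2 : γ ^ 2 - 81 * β ^ 2 = k * δ ^ 2 := by
    have hα2 : α ^ 2 ≠ 0 := pow_ne_zero 2 hα
    have : α ^ 2 * (γ ^ 2 - 81 * β ^ 2) = α ^ 2 * (k * δ ^ 2) := by
      rw [heq, h1]; ring
    exact mul_left_cancel₀ hα2 this
  obtain ⟨a', b', c', n', hn', hsz, e1, e2⟩ := core α β γ δ k hα hβ hγ hδ hαδ hβγ h1 h2
  refine ⟨a', b', c', n', hn', ?_, e1, e2⟩
  have : α * γ * (β * δ) = α * β * γ * δ := by ring
  rw [this]; exact hsz

lemma nine_dvd (t u m : ℤ) (hc : IsCoprime t u) (h : t * u = 9 * m) : 9 ∣ t ∨ 9 ∣ u := by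
  have h3 : (3 : ℤ) ∣ t * u := ⟨3 * m, by rw [h]; ring⟩
  have h9 : (9 : ℤ) ∣ t * u := ⟨m, h⟩
  have hp : Prime (3 : ℤ) := Int.prime_three
  rcases hp.dvd_or_dvd h3 with ht | hu
  · left
    have c3 : IsCoprime (3 : ℤ) u := hc.of_isCoprime_of_dvd_left ht
    have c9 : IsCoprime (9 : ℤ) u := by
      have := c3.pow_left (m := 2)
      norm_num at this
      exact this
    exact c9.dvd_of_dvd_mul_right h9
  · right
    have c3 : IsCoprime (3 : ℤ) t := hc.symm.of_isCoprime_of_dvd_left hu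
    have c9 : IsCoprime (9 : ℤ) t := by
      have := c3.pow_left (m := 2)
      norm_num at this
      exact this
    exact c9.dvd_of_dvd_mul_left h9

lemma key (r s t u : ℤ) (hrs : r * s ≠ 0) (hcop : IsCoprime t u) (hmul : t * u = 9 * (r * s))
    (hsq : r ^ 2 + s ^ 2 = t ^ 2 + u ^ 2) :
    ∃ a' b' c' n' : ℤ, n' ≠ 0 ∧ 2 * |n'| ≤ |r * s| ∧ a' ^ 2 = b' ^ 2 + n' ^ 2 ∧
      a' ^ 2 = c' ^ 2 + 81 * n' ^ 2 := by
  rcases nine_dvd t u _ hcop hmul with ⟨t₁, rfl⟩ | ⟨u₁, rfl⟩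
  · exact key9 r s t₁ u hrs hcop (by linarith) hsq
  · exact key9 r s u₁ t hrs hcop.symm (by linarith) (by linarith)

lemma coprime_add_sub (t u : ℤ) (hc : IsCoprime t u) (hodd : (t + u) % 2 = 1) :
    IsCoprime (t + u) (t - u) := by
  obtain ⟨x, y, hxy⟩ := hc
  obtain ⟨m, hm⟩ : ∃ m, t + u = 2 * m + 1 := ⟨(t + u) / 2, by omega⟩
  refine ⟨1 - m * (x + y), -m * (x - y), ?_⟩
  linear_combination (-2 * m) * hxy + hm


lemma sq_mod_three (x : ℤ) : (x % 3 = 0 ∧ x ^ 2 % 3 = 0) ∨ (x % 3 ≠ 0 ∧ x ^ 2 % 3 = 1) := by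
  obtain ⟨q, hq⟩ : ∃ q, x = 3 * q + x % 3 := ⟨x / 3, by omega⟩
  have h3 : x % 3 = 0 ∨ x % 3 = 1 ∨ x % 3 = 2 := by omega
  rcases h3 with h | h | h
  · left
    refine ⟨h, ?_⟩
    rw [h] at hq
    have : x ^ 2 = 3 * (3 * q ^ 2) := by rw [hq]; ring
    rw [this]; omega
  · right
    refine ⟨by omega, ?_⟩
    rw [h] at hq
    have : x ^ 2 = 3 * (3 * q ^ 2 + 2 * q) + 1 := by rw [hq]; ring
    rw [this]; omega
  · right
    refine ⟨by omega, ?_⟩
    rw [h] at hq
    have : x ^ 2 = 3 * (3 * q ^ 2 + 4 * q + 1) + 1 := by rw [hq]; ring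
    rw [this]; omega

lemma coprime_of_sq_eq (a b n k : ℤ) (h : a ^ 2 = b ^ 2 + k * n ^ 2) (hc : IsCoprime a n) :
    IsCoprime b n := by
  have h1 : IsCoprime (a ^ 2) n := hc.pow_left
  rw [h] at h1
  have h2 : b ^ 2 + k * n ^ 2 = b ^ 2 + n * (k * n) := by ring
  rw [h2] at h1
  have h3 : IsCoprime (b ^ 2) n := (IsCoprime.add_mul_left_left_iff).mp h1
  exact (IsCoprime.pow_left_iff (by norm_num)).mp h3

theorem no_sol_aux (m : ℕ) : ∀ (a b c n : ℤ), n.natAbs = m → n ≠ 0 → a ^ 2 = b ^ 2 + n ^ 2 →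
    a ^ 2 = c ^ 2 + 81 * n ^ 2 → False := by
  induction m using Nat.strong_induction_on with
  | _ m ih =>
    intro a b c n hm hn h1 h2
    by_cases hg : Int.gcd a n = 1
    · have hcop : IsCoprime a n := Int.isCoprime_iff_gcd_eq_one.mpr hg
      have ha : a ≠ 0 := by
        rintro rfl
        have : n ^ 2 = 0 := by nlinarith [sq_nonneg b, sq_nonneg n]
        exact hn (pow_eq_zero_iff (by norm_num) |>.mp this)
      have hz : 0 < |a| := abs_pos.mpr ha
      have hzz : |a| * |a| = a ^ 2 := by rw [abs_mul_abs_self]; ring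
      have hbn : IsCoprime b n := coprime_of_sq_eq a b n 1 (by linarith) hcop
      have hcn : IsCoprime c n := coprime_of_sq_eq a c n 81 h2 hcop
      have hc3 : IsCoprime c 3 := by
        rw [isCoprime_comm, Int.prime_three.irreducible.coprime_iff_not_dvd]
        intro h3c
        have pa := sq_mod_three a
        have pb := sq_mod_three b
        have pc := sq_mod_three c
        have pn := sq_mod_three n
        have hc0 : c % 3 = 0 := Int.emod_eq_zero_of_dvd h3c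
        have han : a % 3 = 0 ∧ n % 3 = 0 := by
          generalize a ^ 2 = A at *
          generalize b ^ 2 = B at *
          generalize c ^ 2 = C at *
          generalize n ^ 2 = N at *
          omega
        have := hcop.isUnit_of_dvd' (Int.dvd_of_emod_eq_zero han.1) (Int.dvd_of_emod_eq_zero han.2)
        rw [Int.isUnit_iff] at this
        omega
      have hc9n : IsCoprime c (9 * n) := by
        have : IsCoprime c (3 ^ 2) := hc3.pow_right
        norm_num at this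
        exact this.mul_right hcn
      rcases Int.emod_two_eq_zero_or_one n with hpar | hpar
      · -- n even
        have hb1 : b % 2 = 1 := by
          have := not_both_even hbn
          omega
        have hc1 : c % 2 = 1 := by
          have := not_both_even hcn
          omega
        have T1 : PythagoreanTriple b n |a| := by
          unfold PythagoreanTriple; rw [hzz, h1]; ring
        have T2 : PythagoreanTriple c (9 * n) |a| := by
          unfold PythagoreanTriple; rw [hzz, h2]; ring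
        obtain ⟨r, s, -, hn', ha', -, -, -⟩ :=
          T1.coprime_classification' (Int.isCoprime_iff_gcd_eq_one.mp hbn) hb1 hz
        obtain ⟨t, u, -, hn'', ha'', htu, -, -⟩ :=
          T2.coprime_classification' (Int.isCoprime_iff_gcd_eq_one.mp hc9n) hc1 hz
        have hrs : r * s ≠ 0 := by
          intro h0
          apply hn
          rw [hn', mul_assoc, h0, mul_zero]
        obtain ⟨a', b', c', n', hn0, hsz, e1, e2⟩ := key r s t u hrs
          (Int.isCoprime_iff_gcd_eq_one.mpr htu) (by linarith) (by linarith)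
        refine ih n'.natAbs ?_ a' b' c' n' rfl hn0 e1 e2
        have hnabs : |n| = 2 * |r * s| := by
          rw [hn', mul_assoc, abs_mul]; norm_num
        have hpos : 0 < |n'| := abs_pos.mpr hn0
        rw [← hm]
        have h5 : |n'| < |n| := by linarith
        rw [Int.abs_eq_natAbs, Int.abs_eq_natAbs] at h5
        exact_mod_cast h5
      · -- n odd
        have T1 : PythagoreanTriple n b |a| := by
          unfold PythagoreanTriple; rw [hzz, h1]; ring
        have T2 : PythagoreanTriple (9 * n) c |a| := by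
          unfold PythagoreanTriple; rw [hzz, h2]; ring
        obtain ⟨r, s, hn', -, ha', -, -, -⟩ :=
          T1.coprime_classification' (Int.isCoprime_iff_gcd_eq_one.mp hbn.symm) hpar hz
        obtain ⟨t, u, hn'', -, ha'', htu, hpar', -⟩ :=
          T2.coprime_classification' (Int.isCoprime_iff_gcd_eq_one.mp hc9n.symm) (by omega) hz
        have hprod : (r + s) * (r - s) = n := by rw [hn']; ring
        have hrs : (r + s) * (r - s) ≠ 0 := by rw [hprod]; exact hn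
        obtain ⟨a', b', c', n', hn0, hsz, e1, e2⟩ := key (r + s) (r - s) (t + u) (t - u) hrs
          (coprime_add_sub t u (Int.isCoprime_iff_gcd_eq_one.mpr htu) (by omega))
          (by rw [hprod]; linarith) (by linarith)
        refine ih n'.natAbs ?_ a' b' c' n' rfl hn0 e1 e2
        rw [hprod] at hsz
        have hpos : 0 < |n'| := abs_pos.mpr hn0
        rw [← hm]
        have h5 : |n'| < |n| := by linarith
        rw [Int.abs_eq_natAbs, Int.abs_eq_natAbs] at h5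
        exact_mod_cast h5
    · -- not coprime: divide out
      set g : ℤ := (Int.gcd a n : ℤ) with hgdef
      have hg0 : g ≠ 0 := by
        rw [hgdef]
        exact_mod_cast (Int.gcd_pos_of_ne_zero_right a hn).ne'
      have hg2 : 2 ≤ g := by
        have h0 : 0 < Int.gcd a n := Int.gcd_pos_of_ne_zero_right a hn
        have : 2 ≤ Int.gcd a n := by omega
        rw [hgdef]; exact_mod_cast this
      obtain ⟨a', ha'⟩ : g ∣ a := Int.gcd_dvd_left a n
      obtain ⟨n', hn'⟩ : g ∣ n := Int.gcd_dvd_right a n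
      have hb : g ∣ b := by
        rw [← Int.pow_dvd_pow_iff (n := 2) (by norm_num)]
        exact ⟨a' ^ 2 - n' ^ 2, by rw [ha', hn'] at h1; linear_combination -h1⟩
      have hc : g ∣ c := by
        rw [← Int.pow_dvd_pow_iff (n := 2) (by norm_num)]
        exact ⟨a' ^ 2 - 81 * n' ^ 2, by rw [ha', hn'] at h2; linear_combination -h2⟩
      obtain ⟨b', hb'⟩ := hb
      obtain ⟨c', hc'⟩ := hc
      have hg2' : g ^ 2 ≠ 0 := pow_ne_zero 2 hg0
      have hn0 : n' ≠ 0 := by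
        rintro rfl
        exact hn (by rw [hn', mul_zero])
      have e1 : a' ^ 2 = b' ^ 2 + n' ^ 2 := by
        apply mul_left_cancel₀ hg2'
        rw [ha', hb', hn'] at h1
        linear_combination h1
      have e2 : a' ^ 2 = c' ^ 2 + 81 * n' ^ 2 := by
        apply mul_left_cancel₀ hg2'
        rw [ha', hc', hn'] at h2
        linear_combination h2
      refine ih n'.natAbs ?_ a' b' c' n' rfl hn0 e1 e2
      rw [← hm, hn', Int.natAbs_mul]
      have h6 : 0 < n'.natAbs := Int.natAbs_pos.mpr hn0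
      have h7 : 2 ≤ g.natAbs := by omega
      nlinarith

theorem no_sol (a b c n : ℤ) (hn : n ≠ 0) (h1 : a ^ 2 = b ^ 2 + n ^ 2)
    (h2 : a ^ 2 = c ^ 2 + 81 * n ^ 2) : False :=
  no_sol_aux _ a b c n rfl hn h1 h2


lemma no_rat (u1 u2 u3 : ℚ) (h1 : u1 ^ 2 = u2 ^ 2 + 1) (h2 : u1 ^ 2 = u3 ^ 2 + 81) : False := by
  set n : ℤ := (u1.den : ℤ) * u2.den * u3.den with hn
  set a : ℤ := u1.num * u2.den * u3.den with ha
  set b : ℤ := u2.num * u1.den * u3.den with hb
  set c : ℤ := u3.num * u1.den * u2.den with hc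
  have hn0 : n ≠ 0 := by
    rw [hn]
    have d1 : (u1.den : ℤ) ≠ 0 := by exact_mod_cast u1.den_nz
    have d2 : (u2.den : ℤ) ≠ 0 := by exact_mod_cast u2.den_nz
    have d3 : (u3.den : ℤ) ≠ 0 := by exact_mod_cast u3.den_nz
    exact mul_ne_zero (mul_ne_zero d1 d2) d3
  have qa : (a : ℚ) = u1 * n := by
    rw [ha, hn]; push_cast
    rw [← Rat.mul_den_eq_num u1]; ring
  have qb : (b : ℚ) = u2 * n := by
    rw [hb, hn]; push_cast
    rw [← Rat.mul_den_eq_num u2]; ring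
  have qc : (c : ℚ) = u3 * n := by
    rw [hc, hn]; push_cast
    rw [← Rat.mul_den_eq_num u3]; ring
  have e1 : a ^ 2 = b ^ 2 + n ^ 2 := by
    have : (a : ℚ) ^ 2 = (b : ℚ) ^ 2 + (n : ℚ) ^ 2 := by
      rw [qa, qb]; linear_combination (n : ℚ) ^ 2 * h1
    exact_mod_cast this
  have e2 : a ^ 2 = c ^ 2 + 81 * n ^ 2 := by
    have : (a : ℚ) ^ 2 = (c : ℚ) ^ 2 + 81 * (n : ℚ) ^ 2 := by
      rw [qa, qc]; linear_combination (n : ℚ) ^ 2 * h2
    exact_mod_cast this
  exact no_sol a b c n hn0 e1 e2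

theorem ratPoints_E2 (x y : ℚ) (h : y ^ 2 = x * (x - 1) * (x - 81)) : y = 0 := by
  by_contra hy
  apply no_rat ((x ^ 2 - 81) / (2 * y)) (((x - 1) ^ 2 + 80) / (2 * y))
    (((x - 81) ^ 2 - 6480) / (2 * y))
  · field_simp
    linear_combination (-4) * h
  · field_simp
    linear_combination (-324) * h

theorem ratPoints_E1 (X Y : ℚ) (h : Y ^ 2 = X * (X - 16) * (X + 9)) :
    X = 0 ∨ X = 16 ∨ X = -9 ∨ X = 36 ∨ X = -4 := by
  by_cases hx : X - 16 = 0
  · right; left; linarith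
  · have key := ratPoints_E2 (X * (X + 9) / (X - 16)) (Y * (400 - (X - 16) ^ 2) / (X - 16) ^ 2) (by
      field_simp
      linear_combination (400 - (X - 16) ^ 2) ^ 2 * h)
    rw [div_eq_zero_iff] at key
    rcases key with key | key
    · rcases mul_eq_zero.mp key with hY | hX
      · rw [hY] at h
        have h0 : X * (X - 16) * (X + 9) = 0 := by linarith
        rcases mul_eq_zero.mp h0 with h0 | h0
        · rcases mul_eq_zero.mp h0 with h0 | h0
          · left; exact h0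
          · exact absurd h0 hx
        · right; right; left; linarith
      · have : (X - 36) * (X + 4) = 0 := by linear_combination -hX
        rcases mul_eq_zero.mp this with h0 | h0
        · right; right; right; left; linarith
        · right; right; right; right; linarith
    · exact absurd (pow_eq_zero_iff (by norm_num) |>.mp key) hx

theorem thmA (Z Y : ℚ) (h : Y ^ 2 = Z * (1 - 4 * Z) * (25 - 36 * Z)) :
    Z = 0 ∨ Z = 1 / 4 ∨ Z = 25 / 36 ∨ Z = 5 / 36 ∨ Z = 5 / 4 := by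
  have := ratPoints_E1 (36 * Z - 9) (18 * Y) (by linear_combination 324 * h)
  rcases this with h0 | h0 | h0 | h0 | h0
  · right; left; linarith
  · right; right; left; linarith
  · left; linarith
  · right; right; right; right; linarith
  · right; right; right; left; linarith

end Fermat.Agent.S51.D52
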