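import Fermat.Agent.S51.Three

/-!
# S51: the 5-torsion of a Weierstrass curve over a field: data and line structure
-/

set_option autoImplicit false
set_option linter.unusedSectionVars false

namespace Fermat.Agent.S51.F51

open WeierstrassCurve WeierstrassCurve.Affine Polynomial
open Fermat.Agent.S51

section Alg

variable {K : Type*} [Field K]

/-- the 5-division polynomial in terms of the `b`-invariants. -/
def psi5B (b2 b4 b6 b8 x : K) : K :=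
  5 * x ^ 12 + (5 * b2) * x ^ 11 + (b2 ^ 2 + 31 * b4) * x ^ 10 + (10 * b2 * b4 + 95 * b6) * x ^ 9
  + (38 * b2 * b6 + 7 * b4 ^ 2 + 133 * b8) * x ^ 8
  + (3 * b2 ^ 2 * b6 - 3 * b2 * b4 ^ 2 + 78 * b2 * b8 + 30 * b4 * b6) * x ^ 7
  + (15 * b2 ^ 2 * b8 - 8 * b2 * b4 * b6 - 7 * b4 ^ 3 + 122 * b4 * b8 - 15 * b6 ^ 2) * x ^ 6
  + (b2 ^ 3 * b8 - b2 ^ 2 * b4 * b6 + 46 * b2 * b4 * b8 - 14 * b2 * b6 ^ 2 - 37 * b4 ^ 2 * b6
      + 26 * b6 * b8) * x ^ 5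
  + (5 * b2 ^ 2 * b4 * b8 - b2 ^ 2 * b6 ^ 2 - 4 * b2 * b4 ^ 2 * b6 + 10 * b2 * b6 * b8
      + 29 * b4 ^ 2 * b8 - 60 * b4 * b6 ^ 2 - 9 * b8 ^ 2) * x ^ 4
  + (2 * b2 ^ 2 * b6 * b8 + 8 * b2 * b4 ^ 2 * b8 - 6 * b2 * b4 * b6 ^ 2 - 3 * b2 * b8 ^ 2
      - 4 * b4 ^ 3 * b6 - 6 * b4 * b6 * b8 - 25 * b6 ^ 3) * x ^ 3
  + (6 * b2 * b4 * b6 * b8 - 2 * b2 * b6 ^ 3 + 4 * b4 ^ 3 * b8 - 8 * b4 ^ 2 * b6 ^ 2
      - 9 * b4 * b8 ^ 2 - 17 * b6 ^ 2 * b8) * x ^ 2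
  + (b2 * b6 ^ 2 * b8 + 4 * b4 ^ 2 * b6 * b8 - 5 * b4 * b6 ^ 3 - 9 * b6 * b8 ^ 2) * x
  + (b4 * b6 ^ 2 * b8 - b6 ^ 4 - b8 ^ 3)

theorem aux_G (b2 b4 b6 b8 x1 x2 F : K) :
    F ^ 4 * ((x1 - x2) * fB b2 b4 b6 x2 + psi3B b2 b4 b6 b8 x2) =
      (x1 * F - x2 * F) * (4 * (x2 * F) ^ 3 + b2 * (x2 * F) ^ 2 * F + 2 * b4 * (x2 * F) * F ^ 2
          + b6 * F ^ 3)
        + (3 * (x2 * F) ^ 4 + b2 * (x2 * F) ^ 3 * F + 3 * b4 * (x2 * F) ^ 2 * F ^ 2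
          + 3 * b6 * (x2 * F) * F ^ 3 + b8 * F ^ 4) := by
  unfold fB psi3B; ring

theorem psi5_key (b2 b4 b6 b8 x1 x2 : K) (hb8 : 4 * b8 = b2 * b6 - b4 ^ 2)
    (H1 : (x2 - x1) * fB b2 b4 b6 x1 = -psi3B b2 b4 b6 b8 x1)
    (H2 : (x1 - x2) * fB b2 b4 b6 x2 = -psi3B b2 b4 b6 b8 x2)
    (hne : x1 ≠ x2) (hf1 : fB b2 b4 b6 x1 ≠ 0) : psi5B b2 b4 b6 b8 x1 = 0 := by
  have hp3 : psi3B b2 b4 b6 b8 x1 ≠ 0 := by
    intro h0
    rw [h0, neg_zero, mul_eq_zero] at H1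
    rcases H1 with h | h
    · exact hne (sub_eq_zero.mp h).symm
    · exact hf1 h
  have hu : x2 * fB b2 b4 b6 x1 = x1 * fB b2 b4 b6 x1 - psi3B b2 b4 b6 b8 x1 := by
    linear_combination H1
  have e1 := aux_G b2 b4 b6 b8 x1 x2 (fB b2 b4 b6 x1)
  rw [hu] at e1
  have h0 : (x1 - x2) * fB b2 b4 b6 x2 + psi3B b2 b4 b6 b8 x2 = 0 := by linear_combination H2
  rw [h0, mul_zero] at e1
  have e2 : psi3B b2 b4 b6 b8 x1 * psi5B b2 b4 b6 b8 x1 = 0 := by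
    unfold fB psi3B at e1
    unfold psi3B psi5B
    linear_combination (-1 : K) * e1 - (-b2 ^ 3 * x1 ^ 9 - 7 * b2 ^ 2 * b4 * x1 ^ 8 - 5 * b2 ^ 2 * b6 * x1 ^ 7 - b2 ^ 2 * b8 * x1 ^ 6 - 11 * b2 ^ 2 * x1 ^ 10 - 16 * b2 * b4 ^ 2 * x1 ^ 7 - 22 * b2 * b4 * b6 * x1 ^ 6 - 4 * b2 * b4 * b8 * x1 ^ 5 - 52 * b2 * b4 * x1 ^ 9 - 7 * b2 * b6 ^ 2 * x1 ^ 5 - 2 * b2 * b6 * b8 * x1 ^ 4 - 38 * b2 * b6 * x1 ^ 8 - 8 * b2 * b8 * x1 ^ 7 - 40 * b2 * x1 ^ 11 - 12 * b4 ^ 3 * x1 ^ 6 - 24 * b4 ^ 2 * b6 * x1 ^ 5 - 4 * b4 ^ 2 * b8 * x1 ^ 4 - 60 * b4 ^ 2 * x1 ^ 8 - 15 * b4 * b6 ^ 2 * x1 ^ 4 - 4 * b4 * b6 * b8 * x1 ^ 3 - 84 * b4 * b6 * x1 ^ 7 - 16 * b4 * b8 * x1 ^ 6 - 96 * b4 * x1 ^ 10 - 3 * b6 ^ 3 * x1 ^ 3 - b6 ^ 2 * b8 * x1 ^ 2 - 27 * b6 ^ 2 * x1 ^ 6 - 8 * b6 * b8 * x1 ^ 5 - 72 * b6 * x1 ^ 9 - 16 * b8 * x1 ^ 8 - 48 * x1 ^ 12) * hb8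
  exact (mul_eq_zero.mp e2).resolve_left hp3

/-- the polynomial `psi5`. -/
noncomputable def psi5Poly (b2 b4 b6 b8 : K) : K[X] :=
  C 5 * X ^ 12 + C (5 * b2) * X ^ 11 + C (b2 ^ 2 + 31 * b4) * X ^ 10
  + C (10 * b2 * b4 + 95 * b6) * X ^ 9
  + C (38 * b2 * b6 + 7 * b4 ^ 2 + 133 * b8) * X ^ 8
  + C (3 * b2 ^ 2 * b6 - 3 * b2 * b4 ^ 2 + 78 * b2 * b8 + 30 * b4 * b6) * X ^ 7
  + C (15 * b2 ^ 2 * b8 - 8 * b2 * b4 * b6 - 7 * b4 ^ 3 + 122 * b4 * b8 - 15 * b6 ^ 2) * X ^ 6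
  + C (b2 ^ 3 * b8 - b2 ^ 2 * b4 * b6 + 46 * b2 * b4 * b8 - 14 * b2 * b6 ^ 2 - 37 * b4 ^ 2 * b6
      + 26 * b6 * b8) * X ^ 5
  + C (5 * b2 ^ 2 * b4 * b8 - b2 ^ 2 * b6 ^ 2 - 4 * b2 * b4 ^ 2 * b6 + 10 * b2 * b6 * b8
      + 29 * b4 ^ 2 * b8 - 60 * b4 * b6 ^ 2 - 9 * b8 ^ 2) * X ^ 4
  + C (2 * b2 ^ 2 * b6 * b8 + 8 * b2 * b4 ^ 2 * b8 - 6 * b2 * b4 * b6 ^ 2 - 3 * b2 * b8 ^ 2
      - 4 * b4 ^ 3 * b6 - 6 * b4 * b6 * b8 - 25 * b6 ^ 3) * X ^ 3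
  + C (6 * b2 * b4 * b6 * b8 - 2 * b2 * b6 ^ 3 + 4 * b4 ^ 3 * b8 - 8 * b4 ^ 2 * b6 ^ 2
      - 9 * b4 * b8 ^ 2 - 17 * b6 ^ 2 * b8) * X ^ 2
  + C (b2 * b6 ^ 2 * b8 + 4 * b4 ^ 2 * b6 * b8 - 5 * b4 * b6 ^ 3 - 9 * b6 * b8 ^ 2) * X
  + C (b4 * b6 ^ 2 * b8 - b6 ^ 4 - b8 ^ 3)

theorem psi5Poly_eval (b2 b4 b6 b8 x : K) :
    (psi5Poly b2 b4 b6 b8).eval x = psi5B b2 b4 b6 b8 x := by
  simp only [psi5Poly, psi5B, eval_add, eval_mul, eval_C, eval_pow, eval_X]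

theorem psi5Poly_natDegree (b2 b4 b6 b8 : K) (h5 : (5 : K) ≠ 0) :
    (psi5Poly b2 b4 b6 b8).natDegree = 12 := by
  unfold psi5Poly
  compute_degree!

theorem psi5Poly_ne_zero (b2 b4 b6 b8 : K) (h5 : (5 : K) ≠ 0) : psi5Poly b2 b4 b6 b8 ≠ 0 := by
  intro h
  have := psi5Poly_natDegree b2 b4 b6 b8 h5
  rw [h] at this
  simp at this

end Alg

variable {K : Type*} [Field K] [DecidableEq K]

theorem five_torsion_data {W : Affine K} {P : W.Point} (hP : P ≠ 0) (h5 : (5 : ℕ) • P = 0) :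
    ∃ (x1 y1 : K) (h1 : W.Nonsingular x1 y1) (x2 y2 : K) (h2 : W.Nonsingular x2 y2),
      P = Point.some x1 y1 h1 ∧ (2 : ℕ) • P = Point.some x2 y2 h2 ∧
      (x2 - x1) * ff W x1 = - psi3 W x1 ∧ (x1 - x2) * ff W x2 = - psi3 W x2 ∧
      x1 ≠ x2 ∧ ff W x1 ≠ 0 ∧ ff W x2 ≠ 0 := by
  match P, hP, h5 with
  | .zero, hP, _ => exact absurd rfl hP
  | .some x1 y1 h1, hP, h5 =>
    set P : W.Point := Point.some x1 y1 h1 with hPdef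
    have h2P : (2 : ℕ) • P ≠ 0 := by
      intro h
      apply hP
      have : (5 : ℕ) • P = (2 : ℕ) • ((2 : ℕ) • P) + P := by
        rw [← mul_nsmul', ← succ_nsmul]
      rw [h5, h, nsmul_zero, zero_add] at this
      exact this.symm
    have hf1 : ff W x1 ≠ 0 := fun h0 => h2P ((two_nsmul_some_eq_zero_iff W h1).mpr h0)
    obtain ⟨x2, y2, h2, e2, H1⟩ := two_nsmul_some W h1 ((ff_ne_zero_iff W h1.1).mp hf1)
    have h4 : (2 : ℕ) • ((2 : ℕ) • P) = -P := by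
      rw [eq_neg_iff_add_eq_zero, ← mul_nsmul', ← succ_nsmul]; exact h5
    have h4ne : (2 : ℕ) • ((2 : ℕ) • P) ≠ 0 := by
      rw [h4]; exact neg_ne_zero.mpr hP
    have hf2 : ff W x2 ≠ 0 := by
      intro h0
      apply h4ne
      rw [e2]
      exact (two_nsmul_some_eq_zero_iff W h2).mpr h0
    obtain ⟨x', y', h', e4, H2⟩ := two_nsmul_some W h2 ((ff_ne_zero_iff W h2.1).mp hf2)
    have hx' : x' = x1 := by
      have : Point.some x' y' h' = -P := by rw [← e4, ← e2, h4]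
      rw [hPdef, Point.neg_some] at this
      exact (Point.some.inj this).1
    rw [hx'] at H2
    have hne : x1 ≠ x2 := by
      intro hx
      rcases (Point.X_eq_iff (h₁ := h1) (h₂ := h2)).mp hx with h | h
      · -- P = 2P
        apply hP
        have : P = (2 : ℕ) • P := by rw [e2]; exact h
        rw [two_nsmul] at this
        simpa using this.symm
      · -- P = -2P, so 3P = 0
        apply hP
        have h3 : (2 : ℕ) • P = -P := by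
          rw [e2]; rw [hPdef, h, neg_neg]
        have : (2 : ℕ) • ((2 : ℕ) • P) = -((2 : ℕ) • P) := by
          rw [h3, neg_nsmul, h3]
        rw [h4, h3, neg_neg] at this
        -- -P = P, and 2P = -P
        have h2z : (2 : ℕ) • P = 0 := by
          rw [two_nsmul]
          nth_rewrite 1 [← this]
          simp
        exact absurd h2z h2P
    exact ⟨x1, y1, h1, x2, y2, h2, rfl, e2, H1, H2, hne, hf1, hf2⟩

theorem psi5_xc_eq_zero {W : Affine K} {P : W.Point} (hP : P ≠ 0) (h5 : (5 : ℕ) • P = 0) :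
    psi5B W.b₂ W.b₄ W.b₆ W.b₈ (xc P) = 0 := by
  obtain ⟨x1, y1, h1, x2, y2, h2, rfl, -, H1, H2, hne, hf1, -⟩ := five_torsion_data hP h5
  exact psi5_key _ _ _ _ x1 x2 (by have := W.b_relation; linear_combination this) H1 H2 hne hf1

section Indep

variable {A : Type*} [AddCommGroup A]

theorem exists_mul_zsmul_eq {S : A} (h5 : (5 : ℕ) • S = 0) {c : ℤ} (hc : ¬ (5 : ℤ) ∣ c) :
    ∃ m : ℤ, (m * c) • S = S := by
  have hp : Prime (5 : ℤ) := by norm_num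
  have hcop : IsCoprime (5 : ℤ) c := (hp.coprime_iff_not_dvd).mpr hc
  obtain ⟨u, v, huv⟩ := hcop
  refine ⟨v, ?_⟩
  have e : v * c = 1 - u * 5 := by linarith
  have h5' : (5 : ℤ) • S = 0 := by exact_mod_cast h5
  rw [e, sub_smul, one_smul, mul_smul, h5', smul_zero, sub_zero]

theorem zsmul_eq_zero_of_dvd {S : A} (h5 : (5 : ℕ) • S = 0) {c : ℤ} (hc : (5 : ℤ) ∣ c) :
    c • S = 0 := by
  obtain ⟨k, rfl⟩ := hc
  have h5' : (5 : ℤ) • S = 0 := by exact_mod_cast h5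
  rw [mul_comm, mul_smul, h5', smul_zero]

theorem zsmul_mem_five {P : A} (h5 : (5 : ℕ) • P = 0) (n : ℤ) :
    n • P = 0 ∨ n • P = P ∨ n • P = -P ∨ n • P = (2 : ℕ) • P ∨ n • P = -((2 : ℕ) • P) := by
  have h5' : (5 : ℤ) • P = 0 := by exact_mod_cast h5
  have e : n • P = (n % 5) • P := by
    conv_lhs => rw [← Int.emod_add_mul_ediv n 5]
    rw [add_smul, mul_comm, mul_smul, h5', smul_zero, add_zero]
  have h0 : 0 ≤ n % 5 := Int.emod_nonneg _ (by norm_num)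
  have h1 : n % 5 < 5 := Int.emod_lt_of_pos _ (by norm_num)
  have h2 : ((2 : ℕ) • P : A) = (2 : ℤ) • P := by norm_cast
  rw [e, h2]
  generalize n % 5 = r at h0 h1
  interval_cases r
  · left; simp
  · right; left; simp
  · right; right; right; left; rfl
  · right; right; right; right
    rw [eq_neg_iff_add_eq_zero, ← add_smul]; exact h5'
  · right; right; left
    rw [eq_neg_iff_add_eq_zero]
    have : (4 : ℤ) • P + P = (5 : ℤ) • P := by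
      rw [show (5 : ℤ) = 4 + 1 by norm_num, add_smul, one_smul]
    rw [this]; exact h5'

theorem indep (H : AddSubgroup A) (hH : ∀ Q ∈ H, (5 : ℕ) • Q = 0) (R : A)
    (hR : (5 : ℕ) • R = 0) (hRH : R ∉ H) (P : A) (hP : P ∈ H) (hP0 : P ≠ 0) (Q : A) (hQ : Q ∈ H)
    (hQn : ¬ (Q = 0 ∨ Q = P ∨ Q = -P ∨ Q = (2 : ℕ) • P ∨ Q = -((2 : ℕ) • P)))
    (a b c : ℤ) (h : a • P + b • Q + c • R = 0) : (5 : ℤ) ∣ a ∧ (5 : ℤ) ∣ b ∧ (5 : ℤ) ∣ c := by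
  have hc : (5 : ℤ) ∣ c := by
    by_contra hc
    obtain ⟨m, hm⟩ := exists_mul_zsmul_eq hR hc
    apply hRH
    have : R = -(m • (a • P + b • Q)) := by
      rw [eq_neg_iff_add_eq_zero, ← hm, mul_smul, ← smul_add, add_comm, h, smul_zero]
    rw [this]
    exact H.neg_mem (H.zsmul_mem (H.add_mem (H.zsmul_mem hP _) (H.zsmul_mem hQ _)) _)
  rw [zsmul_eq_zero_of_dvd hR hc, add_zero] at h
  have hb : (5 : ℤ) ∣ b := by
    by_contra hb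
    obtain ⟨m, hm⟩ := exists_mul_zsmul_eq (hH Q hQ) hb
    apply hQn
    have : Q = (-(m * a)) • P := by
      rw [neg_smul, eq_neg_iff_add_eq_zero, ← hm, mul_smul, mul_smul, ← smul_add, add_comm, h,
        smul_zero]
    rw [this]
    exact zsmul_mem_five (hH P hP) _
  rw [zsmul_eq_zero_of_dvd (hH Q hQ) hb, add_zero] at h
  have ha : (5 : ℤ) ∣ a := by
    by_contra ha
    obtain ⟨m, hm⟩ := exists_mul_zsmul_eq (hH P hP) ha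
    apply hP0
    rw [← hm, mul_smul, h, smul_zero]
  exact ⟨ha, hb, hc⟩

end Indep

/-- coefficient vectors of 13 points, pairwise distinct up to sign modulo 5. -/
def va : Fin 13 → ℤ := ![1, 0, 0, 1, 1, 1, 1, 0, 0, 1, 1, 1, 1]
def vb : Fin 13 → ℤ := ![0, 1, 0, 1, -1, 0, 0, 1, 1, 1, 1, -1, -1]
def vc : Fin 13 → ℤ := ![0, 0, 1, 0, 0, 1, -1, 1, -1, 1, -1, 1, -1]

theorem vec_ne_zero : ∀ i : Fin 13, ¬ ((5 : ℤ) ∣ va i ∧ (5 : ℤ) ∣ vb i ∧ (5 : ℤ) ∣ vc i) := by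
  decide

theorem vec_sub : ∀ i j : Fin 13,
    ((5 : ℤ) ∣ va i - va j ∧ (5 : ℤ) ∣ vb i - vb j ∧ (5 : ℤ) ∣ vc i - vc j) → i = j := by
  decide

theorem vec_add : ∀ i j : Fin 13,
    ¬ ((5 : ℤ) ∣ va i + va j ∧ (5 : ℤ) ∣ vb i + vb j ∧ (5 : ℤ) ∣ vc i + vc j) := by
  decide

theorem five_line {W : Affine K} (h5K : (5 : K) ≠ 0) (H : AddSubgroup W.Point)
    (hH : ∀ Q ∈ H, (5 : ℕ) • Q = 0) (R : W.Point) (hR : (5 : ℕ) • R = 0) (hRH : R ∉ H)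
    (P : W.Point) (hP : P ∈ H) (hP0 : P ≠ 0) :
    ∀ Q ∈ H, Q = 0 ∨ Q = P ∨ Q = -P ∨ Q = (2 : ℕ) • P ∨ Q = -((2 : ℕ) • P) := by
  intro Q hQ
  by_contra hQn
  have hind := indep H hH R hR hRH P hP hP0 Q hQ hQn
  set pt : Fin 13 → W.Point := fun i => va i • P + vb i • Q + vc i • R with hpt
  have hpt5 : ∀ i, (5 : ℕ) • pt i = 0 := by
    intro i
    simp only [hpt, nsmul_add]
    rw [smul_comm (5 : ℕ) (va i) P, smul_comm (5 : ℕ) (vb i) Q, smul_comm (5 : ℕ) (vc i) R,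
      hH P hP, hH Q hQ, hR]
    simp
  have hpt0 : ∀ i, pt i ≠ 0 := fun i h => vec_ne_zero i (hind _ _ _ h)
  set p := psi5Poly W.b₂ W.b₄ W.b₆ W.b₈ with hp
  have hp0 : p ≠ 0 := psi5Poly_ne_zero _ _ _ _ h5K
  have hroot : ∀ i, xc (pt i) ∈ p.roots.toFinset := by
    intro i
    rw [Multiset.mem_toFinset, mem_roots hp0, IsRoot.def, hp, psi5Poly_eval]
    exact psi5_xc_eq_zero (hpt0 i) (hpt5 i)
  have hinj : Function.Injective (fun i => xc (pt i)) := by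
    intro i j hij
    rcases eq_or_eq_neg_of_xc_eq (hpt0 i) (hpt0 j) hij with h | h
    · apply vec_sub i j
      apply hind
      have : pt i - pt j = 0 := sub_eq_zero.mpr h
      rw [← this]
      simp only [hpt, sub_smul]
      abel
    · exfalso
      apply vec_add i j
      apply hind
      have : pt i + pt j = 0 := by rw [h]; simp
      rw [← this]
      simp only [hpt, add_smul]
      abel
  have hcard : p.roots.toFinset.card ≤ 12 := by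
    calc p.roots.toFinset.card ≤ Multiset.card p.roots := Multiset.toFinset_card_le _
      _ ≤ p.natDegree := card_roots' _
      _ = 12 := psi5Poly_natDegree _ _ _ _ h5K
  have h13 : (Finset.univ.image (fun i : Fin 13 => xc (pt i))).card = 13 := by
    rw [Finset.card_image_of_injective _ hinj]; simp
  have hsub : Finset.univ.image (fun i : Fin 13 => xc (pt i)) ⊆ p.roots.toFinset := by
    intro z hz
    obtain ⟨i, -, rfl⟩ := Finset.mem_image.mp hz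
    exact hroot i
  have := Finset.card_le_card hsub
  omega

end Fermat.Agent.S51.F51
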