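import Mathlib
import Fermat.Agent.S51.FieldAlg

set_option autoImplicit false
set_option linter.unusedSectionVars false

open WeierstrassCurve WeierstrassCurve.Affine Polynomial

namespace Fermat.Agent.S51.H60

variable {K : Type*} [Field K] [DecidableEq K] (W : WeierstrassCurve.Affine K)

/-- `ψ₂²(x)`. -/
def F (x : K) : K := fB W.b₂ W.b₄ W.b₆ x

/-- `ψ₃(x)`. -/
def P3 (x : K) : K := psi3B W.b₂ W.b₄ W.b₆ W.b₈ x

/-- `ψ₄ / ψ₂ (x)`. -/
def P4 (x : K) : K :=
  2 * x ^ 6 + W.b₂ * x ^ 5 + 5 * W.b₄ * x ^ 4 + 10 * W.b₆ * x ^ 3 + 10 * W.b₈ * x ^ 2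
    + (W.b₂ * W.b₈ - W.b₄ * W.b₆) * x + (W.b₄ * W.b₈ - W.b₆ ^ 2)

/-- `ψ₅(x)`. -/
def P5 (x : K) : K := P4 W x * F W x ^ 2 - P3 W x ^ 3

omit [DecidableEq K] in
theorem F_eq_sq {x y : K} (h : W.Equation x y) : F W x = (y - W.negY x y) ^ 2 := by
  rw [Affine.equation_iff] at h
  unfold F fB Affine.negY WeierstrassCurve.b₂ WeierstrassCurve.b₄ WeierstrassCurve.b₆
  linear_combination -4 * h

theorem dup_X {x y : K} (h : W.Equation x y) (hy : y ≠ W.negY x y) :
    (W.addX x x (W.slope x x y y) - x) * F W x = - P3 W x := by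
  have hd : y - W.negY x y ≠ 0 := sub_ne_zero.mpr hy
  rw [Affine.slope_of_Y_ne rfl hy, F_eq_sq W h]
  unfold Affine.addX
  have h' := h
  rw [Affine.equation_iff] at h'
  field_simp
  unfold P3 psi3B Affine.negY WeierstrassCurve.b₂ WeierstrassCurve.b₄ WeierstrassCurve.b₆
    WeierstrassCurve.b₈
  linear_combination (-(W.a₁ ^ 2 + 4 * W.a₂ + 12 * x)) * h'

theorem two_nsmul_some {x y : K} (h : W.Nonsingular x y) (hy : y ≠ W.negY x y) :
    ∃ (x' y' : K) (h' : W.Nonsingular x' y'),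
      (2 : ℕ) • (Point.some x y h) = Point.some x' y' h' ∧ (x' - x) * F W x = - P3 W x := by
  refine ⟨_, _, Affine.nonsingular_add h h (fun hxy => hy hxy.right), ?_, dup_X W h.left hy⟩
  rw [two_nsmul, Point.add_self_of_Y_ne hy]

theorem two_nsmul_some_of_Y_eq {x y : K} (h : W.Nonsingular x y) (hy : y = W.negY x y) :
    (2 : ℕ) • (Point.some x y h) = 0 := by
  rw [two_nsmul, Point.add_self_of_Y_eq hy]

theorem F_ne_zero {x y : K} (h : W.Equation x y) (hy : y ≠ W.negY x y) : F W x ≠ 0 := by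
  rw [F_eq_sq W h]
  exact pow_ne_zero 2 (sub_ne_zero.mpr hy)

/-- Two affine points with the same `x`-coordinate are equal or opposite. -/
theorem eq_or_eq_neg_of_X_eq {x y y' : K} (h : W.Nonsingular x y) (h' : W.Nonsingular x y') :
    Point.some x y h = Point.some x y' h' ∨ Point.some x y h = - Point.some x y' h' := by
  rcases Affine.Y_eq_of_X_eq h.left h'.left rfl with hy | hy
  · left; subst hy; rfl
  · right; subst hy; rw [Point.neg_some]

section identities

variable [CharZero K]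

omit [DecidableEq K] in
theorem b8_eq : W.b₈ = (W.b₂ * W.b₆ - W.b₄ ^ 2) / 4 := by
  have := W.b_relation
  linear_combination (1 / 4 : K) * this

omit [DecidableEq K] in
/-- `f(x)³ f(x₂) = ψ₄'(x)²` when `x₂ f(x) = x f(x) - ψ₃(x)`. -/
theorem I1 (x x2 : K) (h : (x2 - x) * F W x = - P3 W x) :
    F W x ^ 3 * F W x2 = P4 W x ^ 2 := by
  have hN : x2 * F W x = x ^ 4 - W.b₄ * x ^ 2 - 2 * W.b₆ * x - W.b₈ := by
    have : x2 * F W x = x * F W x - P3 W x := by linear_combination h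
    rw [this]; unfold F P3 fB psi3B; ring
  have e : F W x ^ 3 * F W x2 = 4 * (x2 * F W x) ^ 3 + W.b₂ * (x2 * F W x) ^ 2 * F W x
      + 2 * W.b₄ * (x2 * F W x) * F W x ^ 2 + W.b₆ * F W x ^ 3 := by
    conv_lhs => rw [show F W x2 = 4 * x2 ^ 3 + W.b₂ * x2 ^ 2 + 2 * W.b₄ * x2 + W.b₆ from rfl]
    ring
  rw [e, hN]
  unfold F P4 fB
  rw [b8_eq W]
  ring

omit [DecidableEq K] in
/-- `f(x)⁴ (ψ₃(x₂) + (x - x₂) f(x₂)) = ψ₃(x) ψ₅(x)` when `x₂ f(x) = x f(x) - ψ₃(x)`. -/
theorem I2 (x x2 : K) (h : (x2 - x) * F W x = - P3 W x) :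
    F W x ^ 4 * (P3 W x2 + (x - x2) * F W x2) = P3 W x * P5 W x := by
  have hN : x2 * F W x = x ^ 4 - W.b₄ * x ^ 2 - 2 * W.b₆ * x - W.b₈ := by
    have : x2 * F W x = x * F W x - P3 W x := by linear_combination h
    rw [this]; unfold F P3 fB psi3B; ring
  have e1 : F W x ^ 4 * P3 W x2 = 3 * (x2 * F W x) ^ 4 + W.b₂ * (x2 * F W x) ^ 3 * F W x
      + 3 * W.b₄ * (x2 * F W x) ^ 2 * F W x ^ 2 + 3 * W.b₆ * (x2 * F W x) * F W x ^ 3
      + W.b₈ * F W x ^ 4 := by
    conv_lhs => rw [show P3 W x2 = 3 * x2 ^ 4 + W.b₂ * x2 ^ 3 + 3 * W.b₄ * x2 ^ 2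
      + 3 * W.b₆ * x2 + W.b₈ from rfl]
    ring
  have e2 : F W x ^ 4 * ((x - x2) * F W x2) = P3 W x * P4 W x ^ 2 := by
    rw [← I1 W x x2 h]
    linear_combination (- F W x ^ 3 * F W x2) * h
  rw [mul_add, e1, e2, hN]
  unfold P5 F P4 P3 fB psi3B
  rw [b8_eq W]
  ring

end identities

section torsion

variable [CharZero K] {W}

/-- Data attached to a nonzero `5`-torsion point. -/
theorem five_torsion_data (P : W.Point) (hP : (5 : ℕ) • P = 0) (hP0 : P ≠ 0) :
    ∃ (x1 y1 : K) (h1 : W.Nonsingular x1 y1) (x2 y2 : K) (h2 : W.Nonsingular x2 y2),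
      P = Point.some x1 y1 h1 ∧ (2 : ℕ) • P = Point.some x2 y2 h2 ∧
      (x2 - x1) * F W x1 = - P3 W x1 ∧ (x1 - x2) * F W x2 = - P3 W x2 ∧
      x1 ≠ x2 ∧ F W x1 ≠ 0 ∧ F W x2 ≠ 0 ∧ P5 W x1 = 0 := by
  rcases P with _ | ⟨x1, y1, h1⟩
  · exact absurd rfl hP0
  set P : W.Point := Point.some x1 y1 h1 with hPdef
  have hy1 : y1 ≠ W.negY x1 y1 := by
    intro hy
    have h2 : (2 : ℕ) • P = 0 := two_nsmul_some_of_Y_eq W h1 hy
    apply hP0
    have : (5 : ℕ) • P = (2 : ℕ) • ((2 : ℕ) • P) + P := by abel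
    rw [this, h2, smul_zero, zero_add] at hP
    exact hP
  obtain ⟨x2, y2, h2, hP2, H1⟩ := two_nsmul_some W h1 hy1
  have hy2 : y2 ≠ W.negY x2 y2 := by
    intro hy
    have h4 : (2 : ℕ) • ((2 : ℕ) • P) = 0 := by
      rw [hP2]; exact two_nsmul_some_of_Y_eq W h2 hy
    apply hP0
    have : (5 : ℕ) • P = (2 : ℕ) • ((2 : ℕ) • P) + P := by abel
    rw [this, h4, zero_add] at hP
    exact hP
  obtain ⟨x4, y4, h4, hP4, H2'⟩ := two_nsmul_some W h2 hy2
  have h4P : (2 : ℕ) • ((2 : ℕ) • P) = - P := by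
    have : (5 : ℕ) • P = (2 : ℕ) • ((2 : ℕ) • P) + P := by abel
    rw [this] at hP
    exact eq_neg_of_add_eq_zero_left hP
  have hx4 : x4 = x1 := by
    rw [hP2, hP4, hPdef, Point.neg_some] at h4P
    injection h4P
  subst hx4
  have hne : x4 ≠ x2 := by
    intro hx
    subst hx
    rcases eq_or_eq_neg_of_X_eq W h2 h1 with h | h
    · -- 2P = P
      apply hP0
      rw [← hP2, ← hPdef, two_nsmul] at h
      exact add_eq_left.mp h
    · -- 2P = -P
      apply hP0
      rw [← hP2, ← hPdef] at h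
      have h3 : (3 : ℕ) • P = 0 := by
        have : (3 : ℕ) • P = (2 : ℕ) • P + P := by abel
        rw [this, h, neg_add_cancel]
      have : (5 : ℕ) • P = (2 : ℕ) • ((3 : ℕ) • P) - P := by abel
      rw [this, h3, smul_zero, zero_sub, neg_eq_zero] at hP
      exact hP
  have hF1 : F W x4 ≠ 0 := F_ne_zero W h1.left hy1
  have hF2 : F W x2 ≠ 0 := F_ne_zero W h2.left hy2
  refine ⟨x4, y1, h1, x2, y2, h2, rfl, hP2, H1, H2', hne, hF1, hF2, ?_⟩
  have hI2 := I2 W x4 x2 H1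
  have h0 : P3 W x2 + (x4 - x2) * F W x2 = 0 := by linear_combination H2'
  rw [h0, mul_zero] at hI2
  have hP3 : P3 W x4 ≠ 0 := by
    intro h
    rw [h, neg_zero] at H1
    rcases mul_eq_zero.mp H1 with h | h
    · exact hne (sub_eq_zero.mp h).symm
    · exact hF1 h
  exact (mul_eq_zero.mp hI2.symm).resolve_left hP3

end torsion

section count

variable [CharZero K]

theorem preΨ'_five : W.preΨ' 5 = W.preΨ₄ * W.Ψ₂Sq ^ 2 - W.Ψ₃ ^ 3 := by
  have h := W.preΨ'_odd 0
  simpa using h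

theorem eval_preΨ'_five (x : K) : (W.preΨ' 5).eval x = P5 W x := by
  rw [preΨ'_five]
  unfold P5 P4 P3 F fB psi3B WeierstrassCurve.preΨ₄ WeierstrassCurve.Ψ₂Sq WeierstrassCurve.Ψ₃
  simp only [eval_sub, eval_mul, eval_pow, eval_add, eval_C, eval_X, eval_ofNat]

theorem preΨ'_five_ne_zero : W.preΨ' 5 ≠ 0 :=
  W.preΨ'_ne_zero (n := 5) (by norm_num)

theorem natDegree_preΨ'_five_le : (W.preΨ' 5).natDegree ≤ 12 := by
  have h := W.natDegree_preΨ'_le 5
  rw [if_neg (by decide)] at h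
  exact h

/-- The points with a given `x`-coordinate lie in a finset with at most two elements. -/
theorem exists_fiber (x : K) :
    ∃ s : Finset W.Point, s.card ≤ 2 ∧ ∀ (y : K) (h : W.Nonsingular x y), Point.some x y h ∈ s := by
  by_cases hne : ∃ y : K, W.Nonsingular x y
  · obtain ⟨y0, h0⟩ := hne
    refine ⟨{Point.some x y0 h0, - Point.some x y0 h0}, Finset.card_le_two, fun y h => ?_⟩
    rcases eq_or_eq_neg_of_X_eq W h h0 with e | e
    · rw [e]; exact Finset.mem_insert_self _ _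
    · rw [e]; exact Finset.mem_insert_of_mem (Finset.mem_singleton_self _)
  · exact ⟨∅, by simp, fun y h => absurd ⟨y, h⟩ hne⟩

/-- `E[5]` has at most `25` elements. -/
theorem exists_finset_five_torsion :
    ∃ T : Finset W.Point, T.card ≤ 25 ∧ ∀ P : W.Point, (5 : ℕ) • P = 0 → P ∈ T := by
  choose s hs1 hs2 using exists_fiber W
  refine ⟨insert 0 ((W.preΨ' 5).roots.toFinset.biUnion s), ?_, fun P hP => ?_⟩
  · have h1 : ((W.preΨ' 5).roots.toFinset.biUnion s).card ≤ (W.preΨ' 5).roots.toFinset.card * 2 :=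
      Finset.card_biUnion_le_card_mul _ _ _ (fun x _ => hs1 x)
    have h2 : (W.preΨ' 5).roots.toFinset.card ≤ 12 :=
      ((W.preΨ' 5).roots.toFinset_card_le).trans
        (((W.preΨ' 5).card_roots').trans (natDegree_preΨ'_five_le W))
    have h3 := Finset.card_insert_le (0 : W.Point) ((W.preΨ' 5).roots.toFinset.biUnion s)
    omega
  · by_cases hP0 : P = 0
    · rw [hP0]; exact Finset.mem_insert_self _ _
    · obtain ⟨x1, y1, h1, x2, y2, h2, rfl, -, -, -, -, -, -, h5⟩ := five_torsion_data P hP hP0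
      refine Finset.mem_insert_of_mem (Finset.mem_biUnion.mpr ⟨x1, ?_, hs2 x1 y1 h1⟩)
      rw [Multiset.mem_toFinset, mem_roots (preΨ'_five_ne_zero W), IsRoot.def, eval_preΨ'_five]
      exact h5

end count

section exist

variable [CharZero K]

/-- On the curve, `ψ₃(x) = -(n² + a₁ n d - (a₂ + 3 x) d²)`. -/
theorem P3_eq {x y : K} (h : W.Equation x y) :
    P3 W x = -((3 * x ^ 2 + 2 * W.a₂ * x + W.a₄ - W.a₁ * y) ^ 2
      + W.a₁ * (3 * x ^ 2 + 2 * W.a₂ * x + W.a₄ - W.a₁ * y) * (y - W.negY x y)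
      - (W.a₂ + 3 * x) * (y - W.negY x y) ^ 2) := by
  rw [Affine.equation_iff] at h
  unfold P3 psi3B Affine.negY WeierstrassCurve.b₂ WeierstrassCurve.b₄ WeierstrassCurve.b₆
    WeierstrassCurve.b₈
  linear_combination (-(W.a₁ ^ 2 + 4 * W.a₂ + 12 * x)) * h

/-- `ψ₂²` and `ψ₃` have no common zero at the `x`-coordinate of a nonsingular point. -/
theorem F_ne_zero_or_P3_ne_zero {x y : K} (h : W.Nonsingular x y) : F W x ≠ 0 ∨ P3 W x ≠ 0 := by
  by_contra hcon
  push Not at hcon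
  obtain ⟨hF, hP⟩ := hcon
  rw [F_eq_sq W h.left] at hF
  have hd : y - W.negY x y = 0 := pow_eq_zero_iff (two_ne_zero) |>.mp hF
  rw [P3_eq W h.left, hd] at hP
  have hn : 3 * x ^ 2 + 2 * W.a₂ * x + W.a₄ - W.a₁ * y = 0 := by
    have : (3 * x ^ 2 + 2 * W.a₂ * x + W.a₄ - W.a₁ * y) ^ 2 = 0 := by linear_combination -hP
    exact pow_eq_zero_iff (two_ne_zero) |>.mp this
  rcases ((W.nonsingular_iff x y).mp h).right with h1 | h1
  · exact h1 (by linear_combination -hn)
  · exact h1 (by unfold Affine.negY at hd; linear_combination hd)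

/-- Over an algebraically closed field every `x` is the `x`-coordinate of a point. -/
theorem exists_Y [IsAlgClosed K] (x : K) : ∃ y : K, W.Equation x y := by
  obtain ⟨s, hs⟩ := IsAlgClosed.exists_pow_nat_eq (F W x) (n := 2) (by norm_num)
  refine ⟨(s - W.a₁ * x - W.a₃) / 2, ?_⟩
  rw [Affine.equation_iff]
  unfold F fB WeierstrassCurve.b₂ WeierstrassCurve.b₄ WeierstrassCurve.b₆ at hs
  field_simp
  linear_combination hs

/-- Existence of a nonzero `5`-torsion point. -/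
theorem exists_five_torsion [IsAlgClosed K] (hΔ : W.Δ ≠ 0) :
    ∃ P : W.Point, P ≠ 0 ∧ (5 : ℕ) • P = 0 := by
  have hdeg : (W.preΨ' 5).degree ≠ 0 := by
    have h := W.natDegree_preΨ'_pos (n := 5) (by norm_num) (by norm_num)
    intro h0
    rw [natDegree_eq_of_degree_eq_some h0] at h
    exact lt_irrefl _ h
  obtain ⟨x1, hx1⟩ := IsAlgClosed.exists_root (W.preΨ' 5) hdeg
  rw [IsRoot.def, eval_preΨ'_five] at hx1
  obtain ⟨y1, he1⟩ := exists_Y W x1
  have h1 : W.Nonsingular x1 y1 := (W.equation_iff_nonsingular_of_Δ_ne_zero hΔ).mp he1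
  have hF1 : F W x1 ≠ 0 := by
    intro hF
    rcases F_ne_zero_or_P3_ne_zero W h1 with h | h
    · exact h hF
    · apply h
      unfold P5 at hx1
      rw [hF] at hx1
      have : P3 W x1 ^ 3 = 0 := by linear_combination -hx1
      exact pow_eq_zero_iff (three_ne_zero) |>.mp this
  have hy1 : y1 ≠ W.negY x1 y1 := by
    intro hy
    apply hF1
    rw [F_eq_sq W he1, sub_eq_zero.mpr hy]; ring
  obtain ⟨x2, y2, h2, hP2, H1⟩ := two_nsmul_some W h1 hy1
  have hI1 := I1 W x1 x2 H1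
  have hP3 : P3 W x1 ≠ 0 := by
    intro h3
    have hx : x2 = x1 := by
      rw [h3, neg_zero] at H1
      exact sub_eq_zero.mp ((mul_eq_zero.mp H1).resolve_right hF1)
    have h4 : P4 W x1 = 0 := by
      unfold P5 at hx1
      rw [h3] at hx1
      have : P4 W x1 * F W x1 ^ 2 = 0 := by linear_combination hx1
      exact (mul_eq_zero.mp this).resolve_right (pow_ne_zero 2 hF1)
    rw [h4, hx] at hI1
    have : F W x1 ^ 4 = 0 := by linear_combination hI1
    exact hF1 (pow_eq_zero_iff (by norm_num) |>.mp this)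
  have hP4 : P4 W x1 ≠ 0 := by
    intro h4
    unfold P5 at hx1
    rw [h4] at hx1
    have : P3 W x1 ^ 3 = 0 := by linear_combination -hx1
    exact hP3 (pow_eq_zero_iff (three_ne_zero) |>.mp this)
  have hF2 : F W x2 ≠ 0 := by
    intro hF
    rw [hF, mul_zero] at hI1
    exact hP4 (pow_eq_zero_iff (two_ne_zero) |>.mp hI1.symm)
  have hy2 : y2 ≠ W.negY x2 y2 := by
    intro hy
    apply hF2
    rw [F_eq_sq W h2.left, sub_eq_zero.mpr hy]; ring
  obtain ⟨x4, y4, h4, hP4', H2⟩ := two_nsmul_some W h2 hy2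
  have hI2 := I2 W x1 x2 H1
  rw [hx1, mul_zero] at hI2
  have h0 : P3 W x2 + (x1 - x2) * F W x2 = 0 :=
    (mul_eq_zero.mp hI2).resolve_left (pow_ne_zero 4 hF1)
  have hx4 : x4 = x1 := by
    have : (x4 - x1) * F W x2 = 0 := by linear_combination H2 - h0
    exact sub_eq_zero.mp ((mul_eq_zero.mp this).resolve_right hF2)
  subst hx4
  have hne : x2 ≠ x4 := by
    intro hx
    rw [hx, sub_self, zero_mul] at H1
    exact hP3 (neg_eq_zero.mp H1.symm)
  refine ⟨Point.some x4 y1 h1, Point.some_ne_zero h1, ?_⟩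
  set P : W.Point := Point.some x4 y1 h1 with hPdef
  have h4P : (2 : ℕ) • ((2 : ℕ) • P) = Point.some x4 y4 h4 := by rw [hP2, hP4']
  rcases eq_or_eq_neg_of_X_eq W h4 h1 with h | h
  · -- 4P = P, so 2P = -P, contradiction
    exfalso
    rw [← h4P, ← hPdef] at h
    have h3 : (2 : ℕ) • P = - P := by
      have e : (2 : ℕ) • ((2 : ℕ) • P) = (2 : ℕ) • P + P + P := by abel
      rw [e] at h
      have : (2 : ℕ) • P + P = 0 := add_eq_right.mp h
      exact eq_neg_of_add_eq_zero_left this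
    rw [hP2, hPdef, Point.neg_some] at h3
    injection h3 with hx
    exact hne hx
  · rw [← h4P, ← hPdef] at h
    have e : (5 : ℕ) • P = (2 : ℕ) • ((2 : ℕ) • P) + P := by abel
    rw [e, h, neg_add_cancel]

end exist

section three

variable [CharZero K]

variable {W} in
/-- Data attached to a nonzero `3`-torsion point. -/
theorem three_torsion_data (P : W.Point) (hP : (3 : ℕ) • P = 0) (hP0 : P ≠ 0) :
    ∃ (x y : K) (h : W.Nonsingular x y), P = Point.some x y h ∧ P3 W x = 0 ∧ F W x ≠ 0 := by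
  rcases P with _ | ⟨x, y, h⟩
  · exact absurd rfl hP0
  set P : W.Point := Point.some x y h with hPdef
  have hy : y ≠ W.negY x y := by
    intro hy
    have h2 : (2 : ℕ) • P = 0 := two_nsmul_some_of_Y_eq W h hy
    apply hP0
    have : (3 : ℕ) • P = (2 : ℕ) • P + P := by abel
    rw [this, h2, zero_add] at hP
    exact hP
  obtain ⟨x2, y2, h2, hP2, H1⟩ := two_nsmul_some W h hy
  have h2P : (2 : ℕ) • P = - P := by
    have : (3 : ℕ) • P = (2 : ℕ) • P + P := by abel
    rw [this] at hP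
    exact eq_neg_of_add_eq_zero_left hP
  have hx : x2 = x := by
    rw [hP2, hPdef, Point.neg_some] at h2P
    injection h2P
  refine ⟨x, y, h, rfl, ?_, F_ne_zero W h.left hy⟩
  rw [hx, sub_self, zero_mul] at H1
  exact neg_eq_zero.mp H1.symm

theorem eval_Ψ₃ (x : K) : W.Ψ₃.eval x = P3 W x := by
  unfold P3 psi3B WeierstrassCurve.Ψ₃
  simp only [eval_mul, eval_pow, eval_add, eval_C, eval_X, eval_ofNat]

/-- `E[3]` has at most `9` elements. -/
theorem exists_finset_three_torsion :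
    ∃ T : Finset W.Point, T.card ≤ 9 ∧ ∀ P : W.Point, (3 : ℕ) • P = 0 → P ∈ T := by
  choose s hs1 hs2 using exists_fiber W
  refine ⟨insert 0 (W.Ψ₃.roots.toFinset.biUnion s), ?_, fun P hP => ?_⟩
  · have h1 : (W.Ψ₃.roots.toFinset.biUnion s).card ≤ W.Ψ₃.roots.toFinset.card * 2 :=
      Finset.card_biUnion_le_card_mul _ _ _ (fun x _ => hs1 x)
    have h2 : W.Ψ₃.roots.toFinset.card ≤ 4 :=
      (W.Ψ₃.roots.toFinset_card_le).trans ((W.Ψ₃.card_roots').trans W.natDegree_Ψ₃_le)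
    have h3 := Finset.card_insert_le (0 : W.Point) (W.Ψ₃.roots.toFinset.biUnion s)
    omega
  · by_cases hP0 : P = 0
    · rw [hP0]; exact Finset.mem_insert_self _ _
    · obtain ⟨x, y, h, rfl, h3, -⟩ := three_torsion_data P hP hP0
      refine Finset.mem_insert_of_mem (Finset.mem_biUnion.mpr ⟨x, ?_, hs2 x y h⟩)
      rw [Multiset.mem_toFinset, mem_roots (W.Ψ₃_ne_zero (by norm_num)), IsRoot.def, eval_Ψ₃]
      exact h3

/-- Existence of a nonzero `3`-torsion point. -/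
theorem exists_three_torsion [IsAlgClosed K] (hΔ : W.Δ ≠ 0) :
    ∃ P : W.Point, P ≠ 0 ∧ (3 : ℕ) • P = 0 := by
  have hdeg : W.Ψ₃.degree ≠ 0 := by
    have h := W.natDegree_Ψ₃_pos (by norm_num)
    intro h0
    rw [natDegree_eq_of_degree_eq_some h0] at h
    exact lt_irrefl _ h
  obtain ⟨x, hx⟩ := IsAlgClosed.exists_root W.Ψ₃ hdeg
  rw [IsRoot.def, eval_Ψ₃] at hx
  obtain ⟨y, he⟩ := exists_Y W x
  have h : W.Nonsingular x y := (W.equation_iff_nonsingular_of_Δ_ne_zero hΔ).mp he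
  have hF : F W x ≠ 0 := (F_ne_zero_or_P3_ne_zero W h).resolve_right (not_not.mpr hx)
  have hy : y ≠ W.negY x y := by
    intro hy
    apply hF
    rw [F_eq_sq W he, sub_eq_zero.mpr hy]; ring
  obtain ⟨x2, y2, h2, hP2, H1⟩ := two_nsmul_some W h hy
  have hx2 : x2 = x := by
    rw [hx, neg_zero] at H1
    exact sub_eq_zero.mp ((mul_eq_zero.mp H1).resolve_right hF)
  subst hx2
  refine ⟨Point.some x2 y h, Point.some_ne_zero h, ?_⟩
  set P : W.Point := Point.some x2 y h with hPdef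
  have e : (3 : ℕ) • P = (2 : ℕ) • P + P := by abel
  rcases eq_or_eq_neg_of_X_eq W h2 h with h' | h'
  · exfalso
    rw [← hP2, ← hPdef, two_nsmul] at h'
    exact Point.some_ne_zero h (add_eq_left.mp h')
  · rw [← hP2, ← hPdef] at h'
    rw [e, h', neg_add_cancel]

end three

/-- A proper nonzero subspace of an `𝔽_p`-vector space with at most `p²` elements is a line. -/
theorem line_of_card_le {p : ℕ} [Fact p.Prime] {V : Type*} [AddCommGroup V] [Module (ZMod p) V]
    [Finite V] (hcard : Nat.card V ≤ p ^ 2) (N : Submodule (ZMod p) V) (h1 : N ≠ ⊤)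
    (P : V) (hP : P ∈ N) (hP0 : P ≠ 0) : ∀ Q ∈ N, ∃ c : ZMod p, Q = c • P := by
  have hp : p.Prime := Fact.out
  have hV : Module.finrank (ZMod p) V ≤ 2 := by
    have h := Module.natCard_eq_pow_finrank (K := ZMod p) (V := V)
    rw [Nat.card_zmod] at h
    rw [h] at hcard
    exact (Nat.pow_le_pow_iff_right hp.one_lt).mp hcard
  have hN : Module.finrank (ZMod p) N < Module.finrank (ZMod p) V := Submodule.finrank_lt h1
  have hN0 : 0 < Module.finrank (ZMod p) N := by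
    rw [Module.finrank_pos_iff_exists_ne_zero]
    exact ⟨⟨P, hP⟩, fun h => hP0 (congrArg Subtype.val h)⟩
  have hN1 : Module.finrank (ZMod p) N = 1 := by omega
  intro Q hQ
  obtain ⟨c, hc⟩ := (finrank_eq_one_iff_of_nonzero' (⟨P, hP⟩ : N)
    (fun h => hP0 (congrArg Subtype.val h))).mp hN1 ⟨Q, hQ⟩
  exact ⟨c, (congrArg Subtype.val hc).symm⟩

end Fermat.Agent.S51.H60
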