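import Mathlib

set_option autoImplicit false

namespace Fermat.Agent.S51

section Generic

variable {A : Type*} [AddCommGroup A]

/-- If `m • X` lies in a subgroup, `p • X = 0` and `p ∤ m` (`p` prime), then `X` lies in it. -/
theorem mem_of_zsmul_mem {p : ℕ} (hp : p.Prime) (S : AddSubgroup A) {X : A} (hX : p • X = 0)
    {m : ℤ} (hm : ¬ (p : ℤ) ∣ m) (h : m • X ∈ S) : X ∈ S := by
  have hco : IsCoprime m (p : ℤ) :=
    ((Nat.prime_iff_prime_int.mp hp).coprime_iff_not_dvd.mpr hm).symm
  obtain ⟨u, v, huv⟩ := hco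
  have : X = u • (m • X) + v • ((p : ℤ) • X) := by
    rw [smul_smul, smul_smul, ← add_smul, huv, one_smul]
  rw [this, natCast_zsmul, hX, smul_zero, add_zero]
  exact S.zsmul_mem h u

theorem fin_eq_of_dvd_sub {p : ℕ} {a b : Fin p} (h : (p : ℤ) ∣ ((a : ℕ) : ℤ) - ((b : ℕ) : ℤ)) :
    a = b := by
  have ha := a.isLt
  have hb := b.isLt
  obtain ⟨k, hk⟩ := h
  have hk0 : k = 0 := by
    by_contra hne
    rcases lt_or_gt_of_ne hne with hlt | hgt
    · have : (p : ℤ) * k ≤ (p : ℤ) * (-1) := by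
        apply mul_le_mul_of_nonneg_left (by omega) (by omega)
      omega
    · have : (p : ℤ) * 1 ≤ (p : ℤ) * k := by
        apply mul_le_mul_of_nonneg_left (by omega) (by omega)
      omega
  rw [hk0, mul_zero] at hk
  exact Fin.ext (by omega)

/-- Generic counting lemma: if the `p`-torsion of `A` has fewer than `p³` elements, a proper
subgroup `H` of the `p`-torsion containing `P ≠ 0` is the cyclic group generated by `P`. -/
theorem mem_zmultiples_of_card_lt (p : ℕ) (hp : p.Prime) [Finite {x : A // p • x = 0}]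
    (hcard : Nat.card {x : A // p • x = 0} < p ^ 3) (H : AddSubgroup A)
    (hH : ∀ Q ∈ H, p • Q = 0) (R : A) (hR : p • R = 0) (hRH : R ∉ H) (P : A) (hP : P ∈ H)
    (hP0 : P ≠ 0) : ∀ Q ∈ H, Q ∈ AddSubgroup.zmultiples P := by
  intro Q hQ
  by_contra hQP
  have hpP := hH P hP
  have hpQ := hH Q hQ
  let φ : Fin p × Fin p × Fin p → {x : A // p • x = 0} := fun t =>
    ⟨(t.1 : ℕ) • P + (t.2.1 : ℕ) • Q + (t.2.2 : ℕ) • R, by
      rw [smul_add, smul_add, smul_comm p, smul_comm p _ Q, smul_comm p _ R, hpP, hpQ, hR]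
      simp⟩
  have hinj : Function.Injective φ := by
    rintro ⟨a, b, c⟩ ⟨a', b', c'⟩ h
    have h0 : (a : ℕ) • P + (b : ℕ) • Q + (c : ℕ) • R
        = (a' : ℕ) • P + (b' : ℕ) • Q + (c' : ℕ) • R := congrArg Subtype.val h
    simp only [← natCast_zsmul] at h0
    have hc : c = c' := by
      apply fin_eq_of_dvd_sub
      by_contra hnd
      apply hRH
      apply mem_of_zsmul_mem hp H hR hnd
      have : (((c : ℕ) : ℤ) - ((c' : ℕ) : ℤ)) • R
          = (((a' : ℕ) : ℤ) - ((a : ℕ) : ℤ)) • P + (((b' : ℕ) : ℤ) - ((b : ℕ) : ℤ)) • Q := by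
        linear_combination (norm := module) h0
      rw [this]
      exact H.add_mem (H.zsmul_mem hP _) (H.zsmul_mem hQ _)
    subst hc
    have hb : b = b' := by
      apply fin_eq_of_dvd_sub
      by_contra hnd
      apply hQP
      apply mem_of_zsmul_mem hp _ hpQ hnd
      have : (((b : ℕ) : ℤ) - ((b' : ℕ) : ℤ)) • Q = (((a' : ℕ) : ℤ) - ((a : ℕ) : ℤ)) • P := by
        linear_combination (norm := module) h0
      rw [this]
      exact AddSubgroup.zsmul_mem _ (AddSubgroup.mem_zmultiples P) _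
    subst hb
    have ha : a = a' := by
      apply fin_eq_of_dvd_sub
      by_contra hnd
      apply hP0
      have hmem : P ∈ (⊥ : AddSubgroup A) := by
        apply mem_of_zsmul_mem hp _ hpP hnd
        have : (((a : ℕ) : ℤ) - ((a' : ℕ) : ℤ)) • P = 0 := by
          linear_combination (norm := module) h0
        rw [this]
        exact AddSubgroup.zero_mem _
      exact AddSubgroup.mem_bot.mp hmem
    subst ha
    rfl
  have hle := Nat.card_le_card_of_injective φ hinj
  have hc3 : Nat.card (Fin p × Fin p × Fin p) = p ^ 3 := by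
    simp [pow_succ, mul_assoc]
  omega

theorem zsmul_emod_of_zsmul_eq_zero {P : A} {n : ℤ} (h : n • P = 0) (k : ℤ) :
    k • P = (k % n) • P := by
  conv_lhs => rw [← Int.emod_add_mul_ediv k n]
  rw [add_smul, mul_comm, mul_smul, h, smul_zero, add_zero]

theorem three_line_of_card [Finite {x : A // 3 • x = 0}]
    (hcard : Nat.card {x : A // 3 • x = 0} < 27) (H : AddSubgroup A)
    (hH : ∀ Q ∈ H, 3 • Q = 0) (R : A) (hR : 3 • R = 0) (hRH : R ∉ H) (P : A) (hP : P ∈ H)
    (hP0 : P ≠ 0) : ∀ Q ∈ H, Q = 0 ∨ Q = P ∨ Q = -P := by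
  intro Q hQ
  obtain ⟨k, rfl⟩ := AddSubgroup.mem_zmultiples_iff.mp
    (mem_zmultiples_of_card_lt 3 Nat.prime_three (by norm_num; exact hcard) H hH R hR hRH P hP hP0 Q hQ)
  have h3 : (3 : ℤ) • P = 0 := by
    have := hH P hP
    rwa [← natCast_zsmul] at this
  rw [zsmul_emod_of_zsmul_eq_zero h3 k]
  rcases (by omega : k % 3 = 0 ∨ k % 3 = 1 ∨ k % 3 = 2) with h | h | h <;> rw [h]
  · left; simp
  · right; left; simp
  · right; right
    have : (2 : ℤ) • P = (3 : ℤ) • P - P := by module
    rw [this, h3, zero_sub]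

theorem five_line_of_card [Finite {x : A // 5 • x = 0}]
    (hcard : Nat.card {x : A // 5 • x = 0} < 125) (H : AddSubgroup A)
    (hH : ∀ Q ∈ H, 5 • Q = 0) (R : A) (hR : 5 • R = 0) (hRH : R ∉ H) (P : A) (hP : P ∈ H)
    (hP0 : P ≠ 0) : ∀ Q ∈ H, Q = 0 ∨ Q = P ∨ Q = -P ∨ Q = 2 • P ∨ Q = -(2 • P) := by
  intro Q hQ
  obtain ⟨k, rfl⟩ := AddSubgroup.mem_zmultiples_iff.mp
    (mem_zmultiples_of_card_lt 5 Nat.prime_five (by norm_num; exact hcard) H hH R hR hRH P hP hP0 Q hQ)
  have h5 : (5 : ℤ) • P = 0 := by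
    have := hH P hP
    rwa [← natCast_zsmul] at this
  rw [zsmul_emod_of_zsmul_eq_zero h5 k]
  rcases (by omega : k % 5 = 0 ∨ k % 5 = 1 ∨ k % 5 = 2 ∨ k % 5 = 3 ∨ k % 5 = 4) with
    h | h | h | h | h <;> rw [h]
  · left; simp
  · right; left; simp
  · right; right; right; left
    rw [← natCast_zsmul]; rfl
  · right; right; right; right
    have : (3 : ℤ) • P = (5 : ℤ) • P - (2 : ℕ) • P := by
      rw [← natCast_zsmul]; push_cast; module
    rw [this, h5, zero_sub]
  · right; right; left
    have : (4 : ℤ) • P = (5 : ℤ) • P - P := by module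
    rw [this, h5, zero_sub]

end Generic

section Curve

open WeierstrassCurve WeierstrassCurve.Affine Polynomial

variable {K : Type*} [Field K] [DecidableEq K]

/-- Generic bound for the number of `n`-torsion points, from a nonzero polynomial vanishing at
the `x`-coordinates of all affine `n`-torsion points. -/
theorem card_torsion_le (W : Affine K) (n : ℕ) (G : K[X]) (hG : G ≠ 0)
    (h : ∀ (x y : K) (hxy : W.Nonsingular x y), n • Point.some x y hxy = 0 → G.eval x = 0) :
    Finite {P : W.Point // n • P = 0} ∧ Nat.card {P : W.Point // n • P = 0} ≤ 2 * G.natDegree + 1 := by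
  classical
  let y0 : K → K := fun x => if hx : ∃ y, W.Equation x y then hx.choose else 0
  have hy0 : ∀ x y, W.Equation x y → W.Equation x (y0 x) := by
    intro x y hxy
    have hx : ∃ y, W.Equation x y := ⟨y, hxy⟩
    simp only [y0, dif_pos hx]
    exact hx.choose_spec
  let ψ : {P : W.Point // n • P = 0} → Option ({x : K // x ∈ G.roots.toFinset} × Bool) := fun P =>
    match P with
    | ⟨Point.zero, _⟩ => none
    | ⟨Point.some x y hxy, hP⟩ =>
      Option.some (⟨x, by
        rw [Multiset.mem_toFinset, mem_roots hG]; exact h x y hxy hP⟩, decide (y = y0 x))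
  have hinj : Function.Injective ψ := by
    rintro ⟨P, hP⟩ ⟨Q, hQ⟩ hPQ
    rcases P with _ | ⟨x, y, hxy⟩ <;> rcases Q with _ | ⟨x', y', hxy'⟩
    · rfl
    · simp [ψ] at hPQ
    · simp [ψ] at hPQ
    · simp only [ψ, Option.some.injEq, Prod.mk.injEq, Subtype.mk.injEq, decide_eq_decide] at hPQ
      obtain ⟨rfl, hy⟩ := hPQ
      have : y = y' := by
        by_cases hyy : y = y0 x
        · rw [hyy, ← hy.mp hyy]
        · have hyy' : ¬ y' = y0 x := fun h' => hyy (hy.mpr h')
          have e0 := hy0 x y hxy.1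
          have h1 := (Affine.Y_eq_of_X_eq hxy.1 e0 rfl).resolve_left hyy
          have h2 := (Affine.Y_eq_of_X_eq hxy'.1 e0 rfl).resolve_left hyy'
          rw [h1, h2]
      subst this
      rfl
  have hfin : Finite {P : W.Point // n • P = 0} := Finite.of_injective ψ hinj
  refine ⟨hfin, ?_⟩
  have hle := Nat.card_le_card_of_injective ψ hinj
  have hc : Nat.card (Option ({x : K // x ∈ G.roots.toFinset} × Bool))
      = 2 * G.roots.toFinset.card + 1 := by
    rw [Nat.card_eq_fintype_card, Fintype.card_option, Fintype.card_prod, Fintype.card_bool,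
      Fintype.card_coe, mul_comm]
  have h1 : G.roots.toFinset.card ≤ G.natDegree :=
    (Multiset.toFinset_card_le _).trans (card_roots' G)
  omega

end Curve

end Fermat.Agent.S51
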